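import Mathlib

/-!
# WEIL-E, file AddSub: the addition-and-subtraction map on `x`-coordinates does what it claims

Mathlib (`Mathlib/AlgebraicGeometry/EllipticCurve/Affine/AddSubMap.lean`) defines
`WeierstrassCurve.addSubMap` and `Affine.Point.sym2x` and leaves as a TODO the statement that
`addSubMap (sym2x P Q)` is projectively equal to `sym2x (P + Q) (P - Q)`. This file proves it
(`we_addSub`), over an arbitrary field, in every characteristic, for every Weierstrass curve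
(no hypothesis on the discriminant: `Affine.Point` only contains nonsingular points).
-/

set_option autoImplicit false

namespace Fermat.Agent.WE

open WeierstrassCurve WeierstrassCurve.Affine

section ring

variable {R : Type*} [CommRing R] (W : WeierstrassCurve R)

/-- the value of `addSubMap` on a coordinate vector -/
theorem we_addSubMap_eval (s t u : R) (i : Fin 3) :
    MvPolynomial.eval ![s, t, u] (W.addSubMap i) =
      ![s ^ 2 - W.b₄ * s * u - W.b₆ * t * u - W.b₈ * u ^ 2,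
        2 * t * s + W.b₂ * s * u + W.b₄ * t * u + W.b₆ * u ^ 2,
        t ^ 2 - 4 * s * u] i := by
  fin_cases i <;> simp [addSubMap]

/-- numerator of `x(P + Q)` for `P = (x₁, y₁)`, `Q = (x₂, y₂)` with denominator `(x₁ - x₂)²` -/
def weNum (x₁ x₂ y₁ y₂ : R) : R :=
  (y₁ - y₂) ^ 2 + W.a₁ * (x₁ - x₂) * (y₁ - y₂) - (W.a₂ + x₁ + x₂) * (x₁ - x₂) ^ 2

theorem we_num_add (x₁ x₂ y₁ y₂ : R)
    (h₁ : y₁ ^ 2 + W.a₁ * x₁ * y₁ + W.a₃ * y₁ = x₁ ^ 3 + W.a₂ * x₁ ^ 2 + W.a₄ * x₁ + W.a₆)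
    (h₂ : y₂ ^ 2 + W.a₁ * x₂ * y₂ + W.a₃ * y₂ = x₂ ^ 3 + W.a₂ * x₂ ^ 2 + W.a₄ * x₂ + W.a₆) :
    weNum W x₁ x₂ y₁ y₂ + weNum W x₁ x₂ y₁ (-y₂ - W.a₁ * x₂ - W.a₃) =
      2 * (x₁ + x₂) * (x₁ * x₂) + W.b₂ * (x₁ * x₂) + W.b₄ * (x₁ + x₂) + W.b₆ := by
  simp only [weNum, WeierstrassCurve.b₂, WeierstrassCurve.b₄, WeierstrassCurve.b₆]
  linear_combination 2 * h₁ + 2 * h₂

theorem we_num_mul (x₁ x₂ y₁ y₂ : R)
    (h₁ : y₁ ^ 2 + W.a₁ * x₁ * y₁ + W.a₃ * y₁ = x₁ ^ 3 + W.a₂ * x₁ ^ 2 + W.a₄ * x₁ + W.a₆)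
    (h₂ : y₂ ^ 2 + W.a₁ * x₂ * y₂ + W.a₃ * y₂ = x₂ ^ 3 + W.a₂ * x₂ ^ 2 + W.a₄ * x₂ + W.a₆) :
    weNum W x₁ x₂ y₁ y₂ * weNum W x₁ x₂ y₁ (-y₂ - W.a₁ * x₂ - W.a₃) =
      (x₁ - x₂) ^ 2 * ((x₁ * x₂) ^ 2 - W.b₄ * (x₁ * x₂) - W.b₆ * (x₁ + x₂) - W.b₈) := by
  simp only [weNum, WeierstrassCurve.b₄, WeierstrassCurve.b₆, WeierstrassCurve.b₈]
  linear_combination
    (W.a₁ ^ 2 * x₁ * x₂ - W.a₁ ^ 2 * x₂ ^ 2 + W.a₁ * W.a₃ * x₁ - W.a₁ * W.a₃ * x₂ + W.a₁ * x₁ * y₁ -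
      2 * W.a₁ * x₂ * y₂ - W.a₂ * x₁ ^ 2 + 4 * W.a₂ * x₁ * x₂ - 2 * W.a₂ * x₂ ^ 2 + W.a₃ * y₁ -
      2 * W.a₃ * y₂ + W.a₄ * x₁ + W.a₆ - x₁ ^ 3 + 2 * x₁ ^ 2 * x₂ + 2 * x₁ * x₂ ^ 2 - 2 * x₂ ^ 3 +
      y₁ ^ 2 - 2 * y₂ ^ 2) * h₁ +
    (-W.a₁ ^ 2 * x₁ ^ 2 + W.a₁ ^ 2 * x₁ * x₂ - W.a₁ * W.a₃ * x₁ + W.a₁ * W.a₃ * x₂ +
      W.a₁ * x₂ * y₂ - 4 * W.a₂ * x₁ ^ 2 + 4 * W.a₂ * x₁ * x₂ - W.a₂ * x₂ ^ 2 + W.a₃ * y₂ -
      2 * W.a₄ * x₁ + W.a₄ * x₂ - W.a₆ - 4 * x₁ ^ 3 + 2 * x₁ ^ 2 * x₂ + 2 * x₁ * x₂ ^ 2 - x₂ ^ 3 +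
      y₂ ^ 2) * h₂

/-- the square of `2y + a₁x + a₃` is the `2`-division polynomial -/
theorem we_dup_den (x y : R)
    (h : y ^ 2 + W.a₁ * x * y + W.a₃ * y = x ^ 3 + W.a₂ * x ^ 2 + W.a₄ * x + W.a₆) :
    (2 * y + W.a₁ * x + W.a₃) ^ 2 = 4 * x ^ 3 + W.b₂ * x ^ 2 + 2 * W.b₄ * x + W.b₆ := by
  simp only [WeierstrassCurve.b₂, WeierstrassCurve.b₄, WeierstrassCurve.b₆]
  linear_combination 4 * h

/-- the numerator of the duplication formula -/
theorem we_dup_num (x y : R)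
    (h : y ^ 2 + W.a₁ * x * y + W.a₃ * y = x ^ 3 + W.a₂ * x ^ 2 + W.a₄ * x + W.a₆) :
    (3 * x ^ 2 + 2 * W.a₂ * x + W.a₄ - W.a₁ * y) ^ 2 +
        W.a₁ * (3 * x ^ 2 + 2 * W.a₂ * x + W.a₄ - W.a₁ * y) * (2 * y + W.a₁ * x + W.a₃) -
        (W.a₂ + 2 * x) * (2 * y + W.a₁ * x + W.a₃) ^ 2 =
      x ^ 4 - W.b₄ * x ^ 2 - 2 * W.b₆ * x - W.b₈ := by
  simp only [WeierstrassCurve.b₄, WeierstrassCurve.b₆, WeierstrassCurve.b₈]
  linear_combination (-W.a₁ ^ 2 - 4 * W.a₂ - 8 * x) * h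

end ring

section field

variable {F : Type*} [Field F] [DecidableEq F] (W : Affine F)

/-- `x(P + Q)` as a quotient, `x₁ ≠ x₂` -/
theorem we_addX_of_ne {x₁ x₂ : F} (y₁ y₂ : F) (hx : x₁ ≠ x₂) :
    W.addX x₁ x₂ (W.slope x₁ x₂ y₁ y₂) = weNum W x₁ x₂ y₁ y₂ / (x₁ - x₂) ^ 2 := by
  have hd : x₁ - x₂ ≠ 0 := sub_ne_zero.mpr hx
  rw [slope_of_X_ne hx, addX, weNum]
  field_simp
  ring

/-- `x(2P)` as a quotient -/
theorem we_addX_dup {x y : F} (hy : y ≠ W.negY x y) :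
    W.addX x x (W.slope x x y y) =
      ((3 * x ^ 2 + 2 * W.a₂ * x + W.a₄ - W.a₁ * y) ^ 2 +
        W.a₁ * (3 * x ^ 2 + 2 * W.a₂ * x + W.a₄ - W.a₁ * y) * (2 * y + W.a₁ * x + W.a₃) -
        (W.a₂ + 2 * x) * (2 * y + W.a₁ * x + W.a₃) ^ 2) / (2 * y + W.a₁ * x + W.a₃) ^ 2 := by
  have hd : 2 * y + W.a₁ * x + W.a₃ ≠ 0 := by
    intro h0
    apply hy
    rw [negY]
    linear_combination h0
  have hd' : y - W.negY x y = 2 * y + W.a₁ * x + W.a₃ := by rw [negY]; ring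
  rw [slope_of_Y_ne rfl hy, hd', addX, eq_div_iff (pow_ne_zero 2 hd)]
  generalize 3 * x ^ 2 + 2 * W.a₂ * x + W.a₄ - W.a₁ * y = n
  generalize 2 * y + W.a₁ * x + W.a₃ = d at hd
  field_simp
  ring

/-- the generic case `x₁ ≠ x₂` -/
theorem we_addSub_of_X_ne {x₁ x₂ y₁ y₂ : F} (h₁ : W.Nonsingular x₁ y₁) (h₂ : W.Nonsingular x₂ y₂)
    (hx : x₁ ≠ x₂) (i : Fin 3) :
    MvPolynomial.eval ((Point.some x₁ y₁ h₁).sym2x (Point.some x₂ y₂ h₂))
        (WeierstrassCurve.addSubMap W i) =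
      (x₁ - x₂) ^ 2 * (Point.some x₁ y₁ h₁ + Point.some x₂ y₂ h₂).sym2x
        (Point.some x₁ y₁ h₁ - Point.some x₂ y₂ h₂) i := by
  have hd : (x₁ - x₂) ^ 2 ≠ 0 := pow_ne_zero 2 (sub_ne_zero.mpr hx)
  have e₁ := (equation_iff x₁ y₁).mp h₁.1
  have e₂ := (equation_iff x₂ y₂).mp h₂.1
  have hs := we_num_add W x₁ x₂ y₁ y₂ e₁ e₂
  have hm := we_num_mul W x₁ x₂ y₁ y₂ e₁ e₂
  rw [sub_eq_add_neg (Point.some x₁ y₁ h₁) (Point.some x₂ y₂ h₂), Point.neg_some,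
    Point.add_of_X_ne hx, Point.add_of_X_ne hx,
    Point.sym2x_some_some, Point.sym2x_some_some, we_addSubMap_eval, we_addX_of_ne W y₁ y₂ hx,
    we_addX_of_ne W y₁ _ hx, negY]
  fin_cases i
  · simp only [Fin.zero_eta, Fin.isValue, Matrix.cons_val_zero]
    rw [div_mul_div_comm, hm]
    field_simp
  · simp only [Fin.mk_one, Fin.isValue, Matrix.cons_val_one, Matrix.cons_val_zero]
    rw [← add_div, hs]
    field_simp
  · simp only [Fin.reduceFinMk, Matrix.cons_val]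
    ring

/-- the doubling case -/
theorem we_addSub_self (P : W.Point) :
    ∃ c : F, c ≠ 0 ∧ ∀ i, MvPolynomial.eval (P.sym2x P) (WeierstrassCurve.addSubMap W i) =
      c * (P + P).sym2x 0 i := by
  rcases P with _ | ⟨x, y, h⟩
  · refine ⟨1, one_ne_zero, fun i => ?_⟩
    rw [← Point.zero_def, add_zero, Point.sym2x_zero_zero, we_addSubMap_eval]
    fin_cases i <;> simp
  · have e := (equation_iff x y).mp h.1
    have hden := we_dup_den W x y e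
    have hnum := we_dup_num W x y e
    by_cases hy : y = W.negY x y
    · -- a point of order two
      have hd : 2 * y + W.a₁ * x + W.a₃ = 0 := by
        rw [negY] at hy
        linear_combination hy
      have hn : 3 * x ^ 2 + 2 * W.a₂ * x + W.a₄ - W.a₁ * y ≠ 0 := by
        rcases ((nonsingular_iff x y).mp h).2 with h' | h'
        · intro h0
          apply h'
          linear_combination -h0
        · exact absurd hy h'
      refine ⟨(3 * x ^ 2 + 2 * W.a₂ * x + W.a₄ - W.a₁ * y) ^ 2, pow_ne_zero 2 hn, fun i => ?_⟩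
      rw [Point.add_self_of_Y_eq hy, Point.sym2x_zero_zero, Point.sym2x_some_some,
        we_addSubMap_eval]
      rw [hd] at hden hnum
      fin_cases i
      · simp only [Fin.zero_eta, Fin.isValue, Matrix.cons_val_zero]
        linear_combination -hnum
      · simp only [Fin.mk_one, Fin.isValue, Matrix.cons_val_one, Matrix.cons_val_zero]
        linear_combination -hden
      · simp only [Fin.reduceFinMk, Matrix.cons_val]
        ring
    · have hd : 2 * y + W.a₁ * x + W.a₃ ≠ 0 := by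
        intro h0
        apply hy
        rw [negY]
        linear_combination h0
      refine ⟨(2 * y + W.a₁ * x + W.a₃) ^ 2, pow_ne_zero 2 hd, fun i => ?_⟩
      rw [Point.add_self_of_Y_ne hy, Point.sym2x_some_zero, Point.sym2x_some_some,
        we_addSubMap_eval, we_addX_dup W hy, hnum]
      fin_cases i
      · simp only [Fin.zero_eta, Fin.isValue, Matrix.cons_val_zero]
        rw [mul_div_cancel₀ _ (pow_ne_zero 2 hd)]
        ring
      · simp only [Fin.mk_one, Fin.isValue, Matrix.cons_val_one, Matrix.cons_val_zero]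
        linear_combination -hden
      · simp only [Fin.reduceFinMk, Matrix.cons_val]
        ring

/-- **The addition-and-subtraction map does what it claims**: `addSubMap (sym2x P Q)` is
projectively equal to `sym2x (P + Q) (P - Q)`. -/
theorem we_addSub (P Q : W.Point) :
    ∃ c : F, c ≠ 0 ∧ ∀ i, MvPolynomial.eval (P.sym2x Q) (WeierstrassCurve.addSubMap W i) =
      c * (P + Q).sym2x (P - Q) i := by
  by_cases hPQ : P = Q
  · subst hPQ
    rw [sub_self]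
    exact we_addSub_self W P
  by_cases hPQ' : P = -Q
  · subst hPQ'
    obtain ⟨c, hc, h⟩ := we_addSub_self W Q
    refine ⟨c, hc, fun i => ?_⟩
    rw [Point.sym2x_neg_left, h i, neg_add_cancel, ← neg_add', Point.sym2x_neg_right,
      Point.sym2x_comm]
  rcases P with _ | ⟨x₁, y₁, h₁⟩
  · rcases Q with _ | ⟨x₂, y₂, h₂⟩
    · exact absurd rfl hPQ
    · refine ⟨1, one_ne_zero, fun i => ?_⟩
      rw [← Point.zero_def, zero_add, zero_sub, Point.sym2x_neg_right, Point.sym2x_zero_some,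
        Point.sym2x_some_some, we_addSubMap_eval]
      fin_cases i <;> simp <;> ring
  · rcases Q with _ | ⟨x₂, y₂, h₂⟩
    · refine ⟨1, one_ne_zero, fun i => ?_⟩
      rw [← Point.zero_def, add_zero, sub_zero, Point.sym2x_some_zero,
        Point.sym2x_some_some, we_addSubMap_eval]
      fin_cases i <;> simp <;> ring
    · have hx : x₁ ≠ x₂ := by
        intro hx
        rcases Point.X_eq_iff.mp hx with h | h
        · exact hPQ h
        · exact hPQ' h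
      exact ⟨(x₁ - x₂) ^ 2, pow_ne_zero 2 (sub_ne_zero.mpr hx),
        fun i => we_addSub_of_X_ne W h₁ h₂ hx i⟩

end field

end Fermat.Agent.WE
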