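import Mathlib
import Fermat.Agent.WE.AddSub

/-!
# WEIL-E, file Height: primitive polynomial vectors and the exact behaviour of their degree

`k` a field. A vector `p : Fin n → k[X]` is *primitive* (`WePrim`) if its coordinates generate the
unit ideal; its *degree* `weDeg p` is the maximum of the `natDegree`s.

* `we_prim_sym`, `we_deg_sym` : the symmetric product `(a c, a d + b c, b d)` of two primitive
  pairs is primitive, of degree the sum of the degrees (Gauss' lemma, at all places).
* `we_prim_addSub`, `we_deg_addSub` : for an elliptic curve `W` over `k` (constant coefficients!) the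
  addition-and-subtraction map sends a primitive triple to a primitive triple of exactly twice the
  degree (Mathlib's `addSubMapCoeff_condition`).
* `we_deg_eq_of_prop` : two primitive vectors which are proportional after an injective ring
  homomorphism to a field have the same degrees.
-/

set_option autoImplicit false

namespace Fermat.Agent.WE

open Polynomial

variable {k : Type*} [Field k]

/-- primitive polynomial vector: the coordinates generate the unit ideal -/
def WePrim {n : ℕ} (p : Fin n → k[X]) : Prop := Ideal.span (Set.range p) = ⊤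

/-- the maximal degree of a polynomial vector -/
noncomputable def weDeg {n : ℕ} (p : Fin n → k[X]) : ℕ :=
  Finset.univ.sup fun i => (p i).natDegree

theorem we_natDegree_le_deg {n : ℕ} (p : Fin n → k[X]) (i : Fin n) :
    (p i).natDegree ≤ weDeg p :=
  Finset.le_sup (f := fun i => (p i).natDegree) (Finset.mem_univ i)

theorem we_deg_le {n : ℕ} (p : Fin n → k[X]) (m : ℕ) (h : ∀ i, (p i).natDegree ≤ m) :
    weDeg p ≤ m :=
  Finset.sup_le fun i _ => h i

theorem we_prim_of_forall_maximal {n : ℕ} (p : Fin n → k[X])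
    (h : ∀ M : Ideal k[X], M.IsMaximal → ∃ i, p i ∉ M) : WePrim p := by
  by_contra hne
  obtain ⟨M, hM, hle⟩ := Ideal.exists_le_maximal _ hne
  obtain ⟨i, hi⟩ := h M hM
  exact hi (hle (Ideal.subset_span ⟨i, rfl⟩))

theorem WePrim.exists_notMem {n : ℕ} {p : Fin n → k[X]} (hp : WePrim p) (M : Ideal k[X])
    (hM : M ≠ ⊤) : ∃ i, p i ∉ M := by
  by_contra hall
  simp only [not_exists, not_not] at hall
  apply hM
  rw [eq_top_iff, ← hp, Ideal.span_le]
  rintro _ ⟨i, rfl⟩
  exact hall i

theorem WePrim.ne_zero {n : ℕ} {p : Fin n → k[X]} (hp : WePrim p) : ∃ i, p i ≠ 0 := by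
  obtain ⟨i, hi⟩ := hp.exists_notMem ⊥ bot_ne_top
  exact ⟨i, fun h => hi (by rw [h]; exact Ideal.zero_mem _)⟩

theorem WePrim.exists_bezout {n : ℕ} {p : Fin n → k[X]} (hp : WePrim p) :
    ∃ c : Fin n → k[X], ∑ i, c i * p i = 1 := by
  have h1 : (1 : k[X]) ∈ Ideal.span (Set.range p) := by rw [hp]; trivial
  exact Ideal.mem_span_range_iff_exists_fun.mp h1

/-- some coordinate of a primitive vector has a nonzero coefficient in the top degree -/
theorem WePrim.exists_coeff_ne {n : ℕ} {p : Fin n → k[X]} (hp : WePrim p) :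
    ∃ i, (p i).coeff (weDeg p) ≠ 0 := by
  obtain ⟨j, hj⟩ := hp.ne_zero
  have hne : (Finset.univ : Finset (Fin n)).Nonempty := ⟨j, Finset.mem_univ j⟩
  obtain ⟨i₀, -, hi₀⟩ := Finset.exists_mem_eq_sup Finset.univ hne fun i => (p i).natDegree
  by_cases h0 : p i₀ = 0
  · have hm : weDeg p = 0 := by
      unfold weDeg
      rw [hi₀, h0, natDegree_zero]
    refine ⟨j, ?_⟩
    rw [hm]
    have hjd : (p j).natDegree = 0 := by
      have := we_natDegree_le_deg p j
      omega
    intro hc
    apply hj
    rw [eq_C_of_natDegree_eq_zero hjd, hc, C_0]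
  · refine ⟨i₀, ?_⟩
    have : weDeg p = (p i₀).natDegree := hi₀
    rw [this]
    exact leadingCoeff_ne_zero.mpr h0

theorem we_deg_two (a b : k[X]) : weDeg ![a, b] = max a.natDegree b.natDegree := by
  apply le_antisymm
  · apply we_deg_le
    intro i
    fin_cases i
    · exact le_max_left _ _
    · exact le_max_right _ _
  · exact max_le (we_natDegree_le_deg ![a, b] 0) (we_natDegree_le_deg ![a, b] 1)

theorem we_deg_three (a b c : k[X]) :
    weDeg ![a, b, c] = max a.natDegree (max b.natDegree c.natDegree) := by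
  apply le_antisymm
  · apply we_deg_le
    intro i
    fin_cases i
    · exact le_max_left _ _
    · exact (le_max_left _ _).trans (le_max_right _ _)
    · exact (le_max_right _ _).trans (le_max_right _ _)
  · exact max_le (we_natDegree_le_deg ![a, b, c] 0)
      (max_le (we_natDegree_le_deg ![a, b, c] 1) (we_natDegree_le_deg ![a, b, c] 2))

/-! ### the symmetric product of two pairs -/

theorem we_prim_sym {a b c d : k[X]} (hab : WePrim ![a, b]) (hcd : WePrim ![c, d]) :
    WePrim ![a * c, a * d + b * c, b * d] := by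
  apply we_prim_of_forall_maximal
  intro M hM
  have hMp : M.IsPrime := hM.isPrime
  by_contra hall
  simp only [not_exists, not_not] at hall
  have h0 : a * c ∈ M := hall 0
  have h1 : a * d + b * c ∈ M := hall 1
  have h2 : b * d ∈ M := hall 2
  obtain ⟨i, hi⟩ := hab.exists_notMem M hM.ne_top
  obtain ⟨j, hj⟩ := hcd.exists_notMem M hM.ne_top
  fin_cases i
  · -- `a ∉ M`
    have ha : a ∉ M := hi
    have hc : c ∈ M := (hMp.mem_or_mem h0).resolve_left ha
    have had : a * d ∈ M := by
      have : a * d = (a * d + b * c) - b * c := by ring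
      rw [this]
      exact M.sub_mem h1 (M.mul_mem_left b hc)
    have hd : d ∈ M := (hMp.mem_or_mem had).resolve_left ha
    fin_cases j
    · exact hj hc
    · exact hj hd
  · -- `b ∉ M`
    have hb : b ∉ M := hi
    have hd : d ∈ M := (hMp.mem_or_mem h2).resolve_left hb
    have hbc : b * c ∈ M := by
      have : b * c = (a * d + b * c) - a * d := by ring
      rw [this]
      exact M.sub_mem h1 (M.mul_mem_left a hd)
    have hc : c ∈ M := (hMp.mem_or_mem hbc).resolve_left hb
    fin_cases j
    · exact hj hc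
    · exact hj hd

theorem we_deg_sym {a b c d : k[X]} (hab : WePrim ![a, b]) (hcd : WePrim ![c, d]) :
    weDeg ![a * c, a * d + b * c, b * d] = weDeg ![a, b] + weDeg ![c, d] := by
  set m := weDeg ![a, b] with hm
  set n := weDeg ![c, d] with hn
  have ha : a.natDegree ≤ m := we_natDegree_le_deg ![a, b] 0
  have hb : b.natDegree ≤ m := we_natDegree_le_deg ![a, b] 1
  have hc : c.natDegree ≤ n := we_natDegree_le_deg ![c, d] 0
  have hd : d.natDegree ≤ n := we_natDegree_le_deg ![c, d] 1
  apply le_antisymm
  · apply we_deg_le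
    intro i
    fin_cases i
    · exact (natDegree_mul_le).trans (add_le_add ha hc)
    · refine (natDegree_add_le _ _).trans (max_le ?_ ?_)
      · exact (natDegree_mul_le).trans (add_le_add ha hd)
      · exact (natDegree_mul_le).trans (add_le_add hb hc)
    · exact (natDegree_mul_le).trans (add_le_add hb hd)
  · -- a nonzero coefficient in degree `m + n`
    have e0 : (a * c).coeff (m + n) = a.coeff m * c.coeff n :=
      coeff_mul_add_eq_of_natDegree_le ha hc
    have e1 : (a * d + b * c).coeff (m + n) = a.coeff m * d.coeff n + b.coeff m * c.coeff n := by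
      rw [coeff_add, coeff_mul_add_eq_of_natDegree_le ha hd, coeff_mul_add_eq_of_natDegree_le hb hc]
    have e2 : (b * d).coeff (m + n) = b.coeff m * d.coeff n :=
      coeff_mul_add_eq_of_natDegree_le hb hd
    obtain ⟨i, hi⟩ := hab.exists_coeff_ne
    obtain ⟨j, hj⟩ := hcd.exists_coeff_ne
    rw [← hm] at hi
    rw [← hn] at hj
    have key : (a * c).coeff (m + n) ≠ 0 ∨ (a * d + b * c).coeff (m + n) ≠ 0 ∨
        (b * d).coeff (m + n) ≠ 0 := by
      rw [e0, e1, e2]
      by_contra hcon
      simp only [not_or, not_not] at hcon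
      obtain ⟨z0, z1, z2⟩ := hcon
      fin_cases i <;> fin_cases j
      · exact (mul_ne_zero hi hj) z0
      · -- `α ≠ 0`, `δ ≠ 0`
        have hα : a.coeff m ≠ 0 := hi
        have hδ : d.coeff n ≠ 0 := hj
        have hγ : c.coeff n = 0 := (mul_eq_zero.mp z0).resolve_left hα
        have hβ : b.coeff m = 0 := (mul_eq_zero.mp z2).resolve_right hδ
        rw [hγ, hβ] at z1
        simp only [mul_zero, add_zero] at z1
        exact (mul_ne_zero hα hδ) z1
      · have hβ : b.coeff m ≠ 0 := hi
        have hγ : c.coeff n ≠ 0 := hj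
        have hα : a.coeff m = 0 := (mul_eq_zero.mp z0).resolve_right hγ
        have hδ : d.coeff n = 0 := (mul_eq_zero.mp z2).resolve_left hβ
        rw [hα, hδ] at z1
        simp only [mul_zero, zero_add] at z1
        exact (mul_ne_zero hβ hγ) z1
      · exact (mul_ne_zero hi hj) z2
    rcases key with h | h | h
    · exact (le_natDegree_of_ne_zero h).trans
        (we_natDegree_le_deg ![a * c, a * d + b * c, b * d] 0)
    · exact (le_natDegree_of_ne_zero h).trans
        (we_natDegree_le_deg ![a * c, a * d + b * c, b * d] 1)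
    · exact (le_natDegree_of_ne_zero h).trans
        (we_natDegree_le_deg ![a * c, a * d + b * c, b * d] 2)

/-! ### proportional primitive vectors -/

theorem we_dvd_of_prop {n : ℕ} {w s : Fin n → k[X]} (hs : WePrim s)
    (hcross : ∀ i j, w i * s j = w j * s i) : ∃ μ : k[X], ∀ j, w j = μ * s j := by
  obtain ⟨c, hc⟩ := hs.exists_bezout
  refine ⟨∑ i, c i * w i, fun j => ?_⟩
  calc w j = w j * ∑ i, c i * s i := by rw [hc, mul_one]
    _ = ∑ i, c i * (w j * s i) := by
        rw [Finset.mul_sum]
        exact Finset.sum_congr rfl fun i _ => by ring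
    _ = ∑ i, c i * (w i * s j) := Finset.sum_congr rfl fun i _ => by rw [hcross i j]
    _ = (∑ i, c i * w i) * s j := by
        rw [Finset.sum_mul]
        exact Finset.sum_congr rfl fun i _ => by ring

/-- two cross-proportional primitive vectors differ by a nonzero constant -/
theorem we_unit_of_cross {n : ℕ} {w s : Fin n → k[X]} (hw : WePrim w) (hs : WePrim s)
    (hcross : ∀ i j, w i * s j = w j * s i) : ∃ u : k, u ≠ 0 ∧ ∀ j, w j = C u * s j := by
  obtain ⟨μ, hμ⟩ := we_dvd_of_prop hs hcross
  obtain ⟨ν, hν⟩ := we_dvd_of_prop (w := s) (s := w) hw fun i j => by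
    have := hcross j i
    linear_combination this
  obtain ⟨i₀, hi₀⟩ := hw.ne_zero
  have h1 : w i₀ = (μ * ν) * w i₀ := by
    conv_lhs => rw [hμ i₀, hν i₀]
    ring
  have hμν : μ * ν = 1 := by
    have : (μ * ν - 1) * w i₀ = 0 := by linear_combination -h1
    rcases mul_eq_zero.mp this with h | h
    · linear_combination h
    · exact absurd h hi₀
  have hμu : IsUnit μ := IsUnit.of_mul_eq_one _ hμν
  obtain ⟨r, hr, rfl⟩ := Polynomial.isUnit_iff.mp hμu
  exact ⟨r, hr.ne_zero, hμ⟩

theorem we_natDegree_eq_of_cross {n : ℕ} {w s : Fin n → k[X]} (hw : WePrim w) (hs : WePrim s)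
    (hcross : ∀ i j, w i * s j = w j * s i) (j : Fin n) :
    (w j).natDegree = (s j).natDegree := by
  obtain ⟨u, hu, h⟩ := we_unit_of_cross hw hs hcross
  rw [h j, natDegree_C_mul hu]

/-- two primitive vectors that become proportional under an injective ring homomorphism to a
domain differ by a nonzero constant -/
theorem we_unit_of_prop {n : ℕ} {K : Type*} [CommRing K] [IsDomain K] (φ : k[X] →+* K)
    (hφ : Function.Injective φ) {w s : Fin n → k[X]} (hw : WePrim w) (hs : WePrim s) (c : K)
    (h : ∀ i, φ (w i) = c * φ (s i)) : ∃ u : k, u ≠ 0 ∧ ∀ j, w j = C u * s j := by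
  refine we_unit_of_cross hw hs fun i j => ?_
  apply hφ
  rw [map_mul, map_mul, h i, h j]
  ring

/-- two primitive vectors that become proportional under an injective ring homomorphism to a
domain have the same degrees -/
theorem we_deg_eq_of_prop {n : ℕ} {K : Type*} [CommRing K] [IsDomain K] (φ : k[X] →+* K)
    (hφ : Function.Injective φ) {w s : Fin n → k[X]} (hw : WePrim w) (hs : WePrim s) (c : K)
    (h : ∀ i, φ (w i) = c * φ (s i)) : weDeg w = weDeg s := by
  have hcross : ∀ i j, w i * s j = w j * s i := by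
    intro i j
    apply hφ
    rw [map_mul, map_mul, h i, h j]
    ring
  unfold weDeg
  exact Finset.sup_congr rfl fun i _ => we_natDegree_eq_of_cross hw hs hcross i

/-! ### the addition-and-subtraction map on primitive triples -/

section addSub

variable (W : WeierstrassCurve k)

/-- the curve with constant coefficients over `k[X]` -/
noncomputable abbrev wePolyCurve : WeierstrassCurve k[X] := W.map (C : k →+* k[X])

/-- the image of a triple under the addition-and-subtraction map -/
noncomputable def weAddSub (s : Fin 3 → k[X]) : Fin 3 → k[X] :=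
  fun j => MvPolynomial.eval s ((wePolyCurve W).addSubMap j)

theorem we_addSub_apply (s : Fin 3 → k[X]) (j : Fin 3) :
    weAddSub W s j =
      ![s 0 ^ 2 - C W.b₄ * s 0 * s 2 - C W.b₆ * s 1 * s 2 - C W.b₈ * s 2 ^ 2,
        2 * s 1 * s 0 + C W.b₂ * s 0 * s 2 + C W.b₄ * s 1 * s 2 + C W.b₆ * s 2 ^ 2,
        s 1 ^ 2 - 4 * s 0 * s 2] j := by
  have hs : s = ![s 0, s 1, s 2] := by
    ext i
    fin_cases i <;> rfl
  unfold weAddSub
  conv_lhs => rw [hs]
  rw [we_addSubMap_eval]
  simp only [WeierstrassCurve.map_b₂, WeierstrassCurve.map_b₄, WeierstrassCurve.map_b₆,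
    WeierstrassCurve.map_b₈]

variable [W.IsElliptic]

theorem we_prim_addSub {s : Fin 3 → k[X]} (hs : WePrim s) : WePrim (weAddSub W s) := by
  apply we_prim_of_forall_maximal
  intro M hM
  have hMp : M.IsPrime := hM.isPrime
  by_contra hall
  simp only [not_exists, not_not] at hall
  obtain ⟨i, hi⟩ := hs.exists_notMem M hM.ne_top
  apply hi
  have h4 : s i ^ 4 ∈ M := by
    rw [← WeierstrassCurve.addSubMapCoeff_condition (wePolyCurve W) s i]
    exact M.sum_mem fun j _ => M.mul_mem_left _ (hall j)
  exact hMp.mem_of_pow_mem 4 h4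

private theorem we_coeff_aux {m : ℕ} {f g : k[X]} (hf : f.natDegree ≤ m) (hg : g.natDegree ≤ m)
    (c : k) : (C c * f * g).natDegree ≤ m + m ∧
      (C c * f * g).coeff (m + m) = c * (f.coeff m * g.coeff m) := by
  rw [mul_assoc]
  refine ⟨(natDegree_C_mul_le _ _).trans ((natDegree_mul_le).trans (add_le_add hf hg)), ?_⟩
  rw [coeff_C_mul, coeff_mul_add_eq_of_natDegree_le hf hg]

private theorem we_coeff_aux' {m : ℕ} {f g : k[X]} (hf : f.natDegree ≤ m) (hg : g.natDegree ≤ m) :
    (f * g).natDegree ≤ m + m ∧ (f * g).coeff (m + m) = f.coeff m * g.coeff m :=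
  ⟨(natDegree_mul_le).trans (add_le_add hf hg), coeff_mul_add_eq_of_natDegree_le hf hg⟩

theorem we_deg_addSub {s : Fin 3 → k[X]} (hs : WePrim s) :
    weDeg (weAddSub W s) = weDeg s + weDeg s := by
  set m := weDeg s with hm
  have h0 : (s 0).natDegree ≤ m := we_natDegree_le_deg s 0
  have h1 : (s 1).natDegree ≤ m := we_natDegree_le_deg s 1
  have h2 : (s 2).natDegree ≤ m := we_natDegree_le_deg s 2
  -- the three components: degree bound and top coefficient
  have c4 : (4 : k[X]) = C (4 : k) := (map_ofNat C 4).symm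
  have c2 : (2 : k[X]) = C (2 : k) := (map_ofNat C 2).symm
  have hsub : ∀ {f g : k[X]} {d : ℕ}, f.natDegree ≤ d → g.natDegree ≤ d →
      (f - g).natDegree ≤ d := fun hf hg => (natDegree_sub_le _ _).trans (max_le hf hg)
  have hadd : ∀ {f g : k[X]} {d : ℕ}, f.natDegree ≤ d → g.natDegree ≤ d →
      (f + g).natDegree ≤ d := fun hf hg => (natDegree_add_le _ _).trans (max_le hf hg)
  have k0 : (weAddSub W s 0).natDegree ≤ m + m ∧ (weAddSub W s 0).coeff (m + m) =
      (s 0).coeff m ^ 2 - W.b₄ * ((s 0).coeff m * (s 2).coeff m) -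
        W.b₆ * ((s 1).coeff m * (s 2).coeff m) - W.b₈ * (s 2).coeff m ^ 2 := by
    have e : weAddSub W s 0 = s 0 * s 0 - C W.b₄ * s 0 * s 2 - C W.b₆ * s 1 * s 2 -
        C W.b₈ * s 2 * s 2 := by
      rw [we_addSub_apply]
      simp only [Fin.isValue, Matrix.cons_val_zero]
      ring
    rw [e]
    obtain ⟨a1, a2⟩ := we_coeff_aux' h0 h0
    obtain ⟨b1, b2⟩ := we_coeff_aux h0 h2 W.b₄
    obtain ⟨d1, d2⟩ := we_coeff_aux h1 h2 W.b₆
    obtain ⟨e1, e2⟩ := we_coeff_aux h2 h2 W.b₈
    refine ⟨?_, ?_⟩
    · exact hsub (hsub (hsub a1 b1) d1) e1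
    · rw [coeff_sub, coeff_sub, coeff_sub, a2, b2, d2, e2]
      ring
  have k1 : (weAddSub W s 1).natDegree ≤ m + m ∧ (weAddSub W s 1).coeff (m + m) =
      2 * ((s 1).coeff m * (s 0).coeff m) + W.b₂ * ((s 0).coeff m * (s 2).coeff m) +
        W.b₄ * ((s 1).coeff m * (s 2).coeff m) + W.b₆ * (s 2).coeff m ^ 2 := by
    have e : weAddSub W s 1 = C 2 * s 1 * s 0 + C W.b₂ * s 0 * s 2 + C W.b₄ * s 1 * s 2 +
        C W.b₆ * s 2 * s 2 := by
      rw [we_addSub_apply, ← c2]
      simp only [Fin.isValue, Matrix.cons_val_one, Matrix.cons_val_zero]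
      ring
    rw [e]
    obtain ⟨a1, a2⟩ := we_coeff_aux h1 h0 2
    obtain ⟨b1, b2⟩ := we_coeff_aux h0 h2 W.b₂
    obtain ⟨d1, d2⟩ := we_coeff_aux h1 h2 W.b₄
    obtain ⟨e1, e2⟩ := we_coeff_aux h2 h2 W.b₆
    refine ⟨?_, ?_⟩
    · exact hadd (hadd (hadd a1 b1) d1) e1
    · rw [coeff_add, coeff_add, coeff_add, a2, b2, d2, e2]
      ring
  have k2 : (weAddSub W s 2).natDegree ≤ m + m ∧ (weAddSub W s 2).coeff (m + m) =
      (s 1).coeff m ^ 2 - 4 * ((s 0).coeff m * (s 2).coeff m) := by
    have e : weAddSub W s 2 = s 1 * s 1 - C 4 * s 0 * s 2 := by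
      rw [we_addSub_apply, ← c4]
      simp only [Fin.isValue, Matrix.cons_val]
      ring
    rw [e]
    obtain ⟨a1, a2⟩ := we_coeff_aux' h1 h1
    obtain ⟨b1, b2⟩ := we_coeff_aux h0 h2 4
    refine ⟨hsub a1 b1, ?_⟩
    rw [coeff_sub, a2, b2]
    ring
  apply le_antisymm
  · apply we_deg_le
    intro j
    fin_cases j
    · exact k0.1
    · exact k1.1
    · exact k2.1
  · -- the vector of top coefficients is nonzero, hence so is its image
    set lam : Fin 3 → k := fun i => (s i).coeff m with hlam
    have hlam0 : lam ≠ 0 := by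
      obtain ⟨i, hi⟩ := hs.exists_coeff_ne
      intro h
      exact hi (congrFun h i)
    have hne := WeierstrassCurve.addSubMap_ne_zero W hlam0
    have hex : ∃ j, MvPolynomial.eval lam (W.addSubMap j) ≠ 0 := by
      by_contra hcon
      simp only [not_exists, not_not] at hcon
      exact hne (funext hcon)
    obtain ⟨j, hj⟩ := hex
    have hl : lam = ![lam 0, lam 1, lam 2] := by
      ext i
      fin_cases i <;> rfl
    rw [hl, we_addSubMap_eval] at hj
    have hjc : (weAddSub W s j).coeff (m + m) ≠ 0 := by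
      fin_cases j
      · simp only [Fin.zero_eta, Fin.isValue, Matrix.cons_val_zero] at hj ⊢
        rw [k0.2]
        intro h
        apply hj
        simp only [hlam]
        linear_combination h
      · simp only [Fin.mk_one, Fin.isValue, Matrix.cons_val_one, Matrix.cons_val_zero] at hj ⊢
        rw [k1.2]
        intro h
        apply hj
        simp only [hlam]
        linear_combination h
      · simp only [Fin.reduceFinMk, Matrix.cons_val] at hj ⊢
        rw [k2.2]
        intro h
        apply hj
        simp only [hlam]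
        linear_combination h
    exact (le_natDegree_of_ne_zero hjc).trans (we_natDegree_le_deg (weAddSub W s) j)

end addSub

end Fermat.Agent.WE
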