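import Mathlib
import Fermat.Agent.WE.Height

/-!
# WEIL-E, file Comp: the degree of a composition of rational functions

For `a : k[X]` and `n ≥ natDegree a`, `weHomog j n a c d = ∑ i ≤ n, j (a_i) c ^ i d ^ (n - i)` is
the degree-`n` homogenisation of `a` evaluated at `(c, d)`.

* `we_homog_ne_zero` : over a field, for coprime `a`, `b` with `max (deg a) (deg b) = n` the two
  forms have no common nontrivial zero.
* `we_comp_prim`, `we_comp_deg` : if `(a, b)` and `(c, d)` are primitive pairs of degrees `n`, `m`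
  then `(a^h(c,d), b^h(c,d))` is primitive of degree `n * m`.
-/

set_option autoImplicit false

namespace Fermat.Agent.WE

open Polynomial

variable {k : Type*} [Field k]

/-- homogenisation of degree `n` evaluated at `(c, d)` -/
noncomputable def weHomog {A : Type*} [CommRing A] (j : k →+* A) (n : ℕ) (a : k[X]) (c d : A) :
    A :=
  ∑ i ∈ Finset.range (n + 1), j (a.coeff i) * c ^ i * d ^ (n - i)

theorem we_homog_map {A B : Type*} [CommRing A] [CommRing B] (j : k →+* A) (g : A →+* B) (n : ℕ)
    (a : k[X]) (c d : A) : g (weHomog j n a c d) = weHomog (g.comp j) n a (g c) (g d) := by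
  unfold weHomog
  rw [map_sum]
  exact Finset.sum_congr rfl fun i _ => by simp

theorem we_homog_eq_eval {L : Type*} [Field L] (j : k →+* L) {n : ℕ} {a : k[X]}
    (ha : a.natDegree ≤ n) (c : L) {d : L} (hd : d ≠ 0) :
    weHomog j n a c d = d ^ n * eval₂ j (c / d) a := by
  unfold weHomog
  rw [eval₂_eq_sum_range' j (Nat.lt_succ_of_le ha), Finset.mul_sum]
  refine Finset.sum_congr rfl fun i hi => ?_
  have hin : i ≤ n := Nat.lt_succ_iff.mp (Finset.mem_range.mp hi)
  have : d ^ n = d ^ (n - i) * d ^ i := by rw [← pow_add, Nat.sub_add_cancel hin]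
  rw [this, div_pow]
  field_simp

theorem we_homog_zero_right {A : Type*} [CommRing A] (j : k →+* A) (n : ℕ) (a : k[X]) (c : A) :
    weHomog j n a c 0 = j (a.coeff n) * c ^ n := by
  unfold weHomog
  rw [Finset.sum_eq_single n]
  · simp
  · intro i hi hne
    have hin : i < n := lt_of_le_of_ne (Nat.lt_succ_iff.mp (Finset.mem_range.mp hi)) hne
    rw [zero_pow (by omega), mul_zero]
  · intro h
    exact absurd (Finset.mem_range.mpr (Nat.lt_succ_self n)) h

/-- the two forms attached to a coprime pair have no common nontrivial zero over a field -/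
theorem we_homog_ne_zero {L : Type*} [Field L] (j : k →+* L) {n : ℕ} {a b : k[X]}
    (hab : IsCoprime a b) (ha : a.natDegree ≤ n) (hb : b.natDegree ≤ n)
    (htop : a.coeff n ≠ 0 ∨ b.coeff n ≠ 0) {s t : L} (hst : s ≠ 0 ∨ t ≠ 0) :
    weHomog j n a s t ≠ 0 ∨ weHomog j n b s t ≠ 0 := by
  by_contra hcon
  simp only [not_or, not_not] at hcon
  obtain ⟨h1, h2⟩ := hcon
  by_cases ht : t = 0
  · subst ht
    have hs : s ≠ 0 := by tauto
    rw [we_homog_zero_right] at h1 h2
    have hsn : s ^ n ≠ 0 := pow_ne_zero n hs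
    have h1' : a.coeff n = 0 := by
      rcases mul_eq_zero.mp h1 with h | h
      · exact (map_eq_zero j).mp h
      · exact absurd h hsn
    have h2' : b.coeff n = 0 := by
      rcases mul_eq_zero.mp h2 with h | h
      · exact (map_eq_zero j).mp h
      · exact absurd h hsn
    tauto
  · rw [we_homog_eq_eval j ha s ht] at h1
    rw [we_homog_eq_eval j hb s ht] at h2
    have htn : t ^ n ≠ 0 := pow_ne_zero n ht
    have e1 : eval₂ j (s / t) a = 0 := by
      rcases mul_eq_zero.mp h1 with h | h
      · exact absurd h htn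
      · exact h
    have e2 : eval₂ j (s / t) b = 0 := by
      rcases mul_eq_zero.mp h2 with h | h
      · exact absurd h htn
      · exact h
    obtain ⟨u, v, huv⟩ := hab
    have := congrArg (eval₂ j (s / t)) huv
    rw [eval₂_add, eval₂_mul, eval₂_mul, e1, e2, eval₂_one] at this
    simp at this

/-- degree bound and top coefficient of the homogenisation evaluated at polynomials -/
theorem we_homog_coeff {n m : ℕ} (a : k[X]) {c d : k[X]} (hc : c.natDegree ≤ m)
    (hd : d.natDegree ≤ m) :
    (weHomog C n a c d).natDegree ≤ n * m ∧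
      (weHomog C n a c d).coeff (n * m) = weHomog (RingHom.id k) n a (c.coeff m) (d.coeff m) := by
  unfold weHomog
  have hterm : ∀ i ∈ Finset.range (n + 1),
      (C (a.coeff i) * c ^ i * d ^ (n - i)).natDegree ≤ n * m ∧
      (C (a.coeff i) * c ^ i * d ^ (n - i)).coeff (n * m) =
        a.coeff i * c.coeff m ^ i * d.coeff m ^ (n - i) := by
    intro i hi
    have hin : i ≤ n := Nat.lt_succ_iff.mp (Finset.mem_range.mp hi)
    have e : n * m = i * m + (n - i) * m := by
      rw [← Nat.add_mul, Nat.add_sub_cancel' hin]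
    have h1 : (c ^ i).natDegree ≤ i * m := (natDegree_pow_le_of_le i hc)
    have h2 : (d ^ (n - i)).natDegree ≤ (n - i) * m := (natDegree_pow_le_of_le (n - i) hd)
    have h3 : (c ^ i * d ^ (n - i)).natDegree ≤ n * m := by
      rw [e]
      exact natDegree_mul_le.trans (add_le_add h1 h2)
    refine ⟨?_, ?_⟩
    · rw [mul_assoc]
      exact (natDegree_C_mul_le _ _).trans h3
    · rw [mul_assoc, coeff_C_mul, mul_assoc]
      congr 1
      rw [e, coeff_mul_add_eq_of_natDegree_le h1 h2, coeff_pow_of_natDegree_le hc,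
        coeff_pow_of_natDegree_le hd]
  refine ⟨natDegree_sum_le_of_forall_le _ _ fun i hi => (hterm i hi).1, ?_⟩
  rw [finsetSum_coeff]
  exact Finset.sum_congr rfl fun i hi => by
    rw [(hterm i hi).2]
    simp

theorem we_coprime_of_prim {a b : k[X]} (h : WePrim ![a, b]) : IsCoprime a b := by
  obtain ⟨c, hc⟩ := h.exists_bezout
  refine ⟨c 0, c 1, ?_⟩
  rw [Fin.sum_univ_two] at hc
  simpa using hc

theorem we_prim_of_coprime {a b : k[X]} (h : IsCoprime a b) : WePrim ![a, b] := by
  obtain ⟨u, v, huv⟩ := h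
  unfold WePrim
  rw [Ideal.eq_top_iff_one, ← huv]
  refine Ideal.add_mem _ (Ideal.mul_mem_left _ _ (Ideal.subset_span ⟨0, rfl⟩))
    (Ideal.mul_mem_left _ _ (Ideal.subset_span ⟨1, rfl⟩))

/-- the top coefficients of a pair of degree exactly `n` do not both vanish -/
theorem we_top_coeff_ne {a b : k[X]} (hab : WePrim ![a, b]) :
    a.coeff (weDeg ![a, b]) ≠ 0 ∨ b.coeff (weDeg ![a, b]) ≠ 0 := by
  obtain ⟨i, hi⟩ := hab.exists_coeff_ne
  fin_cases i
  · left; exact hi
  · right; exact hi

section comp

variable {a b c d : k[X]} (hab : WePrim ![a, b]) (hcd : WePrim ![c, d])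
include hab hcd

theorem we_comp_prim :
    WePrim ![weHomog C (weDeg ![a, b]) a c d, weHomog C (weDeg ![a, b]) b c d] := by
  set n := weDeg ![a, b] with hn
  have ha : a.natDegree ≤ n := we_natDegree_le_deg ![a, b] 0
  have hb : b.natDegree ≤ n := we_natDegree_le_deg ![a, b] 1
  apply we_prim_of_forall_maximal
  intro M hM
  let _ : Field (k[X] ⧸ M) := Ideal.Quotient.field M
  obtain ⟨i, hi⟩ := hcd.exists_notMem M hM.ne_top
  have hst : Ideal.Quotient.mk M c ≠ 0 ∨ Ideal.Quotient.mk M d ≠ 0 := by
    fin_cases i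
    · left
      intro h
      exact hi (Ideal.Quotient.eq_zero_iff_mem.mp h)
    · right
      intro h
      exact hi (Ideal.Quotient.eq_zero_iff_mem.mp h)
  have key := we_homog_ne_zero ((Ideal.Quotient.mk M).comp C) (we_coprime_of_prim hab) ha hb
    (we_top_coeff_ne hab) hst
  rw [← we_homog_map, ← we_homog_map] at key
  rcases key with h | h
  · exact ⟨0, fun hmem => h (Ideal.Quotient.eq_zero_iff_mem.mpr hmem)⟩
  · exact ⟨1, fun hmem => h (Ideal.Quotient.eq_zero_iff_mem.mpr hmem)⟩

theorem we_comp_deg :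
    weDeg ![weHomog C (weDeg ![a, b]) a c d, weHomog C (weDeg ![a, b]) b c d] =
      weDeg ![a, b] * weDeg ![c, d] := by
  have ha : a.natDegree ≤ weDeg ![a, b] := we_natDegree_le_deg ![a, b] 0
  have hb : b.natDegree ≤ weDeg ![a, b] := we_natDegree_le_deg ![a, b] 1
  have hc : c.natDegree ≤ weDeg ![c, d] := we_natDegree_le_deg ![c, d] 0
  have hd : d.natDegree ≤ weDeg ![c, d] := we_natDegree_le_deg ![c, d] 1
  have htop := we_top_coeff_ne hab
  have hst : c.coeff (weDeg ![c, d]) ≠ 0 ∨ d.coeff (weDeg ![c, d]) ≠ 0 := we_top_coeff_ne hcd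
  have hcop := we_coprime_of_prim hab
  generalize weDeg ![a, b] = n at *
  generalize weDeg ![c, d] = m at *
  obtain ⟨ha1, ha2⟩ := we_homog_coeff (n := n) a hc hd
  obtain ⟨hb1, hb2⟩ := we_homog_coeff (n := n) b hc hd
  rw [we_deg_two]
  apply le_antisymm
  · exact max_le ha1 hb1
  · have key := we_homog_ne_zero (RingHom.id k) hcop ha hb htop hst
    rw [← ha2, ← hb2] at key
    rcases key with h | h
    · exact (le_natDegree_of_ne_zero h).trans (le_max_left _ _)
    · exact (le_natDegree_of_ne_zero h).trans (le_max_right _ _)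

end comp

end Fermat.Agent.WE
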