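import Mathlib
import Fermat.Agent.WE.Height

/-!
# WEIL-E, file Para: the EXACT parallelogram law for the degree of the `x`-coordinate

`k` a field, `W` an elliptic curve over `k`, `K` a field with an injective ring homomorphism
`φ : k[X] →+* K` (think: `K` = a finite extension of `k(X)`), `WK := W.map (φ.comp C)` the curve
with constant coefficients over `K`.

A point `P` of `WK` is *represented* by a primitive pair `p : Fin 2 → k[X]` (`WeRep`) if
`φ ∘ p` is proportional to `P.xRep` (`= (x(P), 1)` or `(1, 0)`), i.e. `x(P) = φ(p 0)/φ(p 1)`.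

* `we_rep_deg_unique` : the degree of a representative only depends on the point.
* `we_para` : if `P`, `Q`, `P + Q`, `P - Q` are represented by `p`, `p'`, `r`, `r'` then
  `weDeg r + weDeg r' = 2 * weDeg p + 2 * weDeg p'`  -- an exact equality, because the curve has
  constant coefficients (no bad places).
-/

set_option autoImplicit false
set_option linter.unusedSectionVars false

namespace Fermat.Agent.WE

open Polynomial WeierstrassCurve WeierstrassCurve.Affine

variable {k : Type*} [Field k] (W : WeierstrassCurve k)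
variable {K : Type*} [Field K] [DecidableEq K] (φ : k[X] →+* K)

/-- the curve with constant coefficients over `K` -/
noncomputable abbrev weCurveK : Affine K := W.map (φ.comp C)

/-- `p` represents the `x`-coordinate of `P` (a point of any Weierstrass curve `V` over `K`) -/
def WeRep {V : Affine K} (P : V.Point) (p : Fin 2 → k[X]) : Prop :=
  WePrim p ∧ ∃ c : K, c ≠ 0 ∧ ∀ i, φ (p i) = c * P.xRep i

variable {W φ} {V : Affine K}

theorem we_rep_deg_unique (hφ : Function.Injective φ) {P : V.Point}
    {p p' : Fin 2 → k[X]} (h : WeRep φ P p) (h' : WeRep φ P p') : weDeg p = weDeg p' := by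
  obtain ⟨hp, c, hc, hcp⟩ := h
  obtain ⟨hp', c', hc', hcp'⟩ := h'
  refine we_deg_eq_of_prop φ hφ hp hp' (c / c') fun i => ?_
  rw [hcp i, hcp' i]
  field_simp

theorem we_rep_neg {P : V.Point} {p : Fin 2 → k[X]} (h : WeRep φ P p) :
    WeRep φ (-P) p := by
  obtain ⟨hp, c, hc, hcp⟩ := h
  exact ⟨hp, c, hc, fun i => by rw [Point.xRep_neg, hcp i]⟩

theorem we_rep_zero : WeRep φ (0 : V.Point) ![1, 0] := by
  refine ⟨?_, 1, one_ne_zero, fun i => ?_⟩
  · unfold WePrim
    rw [Ideal.eq_top_iff_one]
    exact Ideal.subset_span ⟨0, rfl⟩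
  · rw [Point.xRep_zero]
    fin_cases i <;> simp

private theorem we_vec_two (p : Fin 2 → k[X]) : p = ![p 0, p 1] := by
  ext i
  fin_cases i <;> rfl

/-- the symmetric product of two representing pairs -/
noncomputable def weSym (p p' : Fin 2 → k[X]) : Fin 3 → k[X] :=
  ![p 0 * p' 0, p 0 * p' 1 + p 1 * p' 0, p 1 * p' 1]

theorem we_sym_prim {p p' : Fin 2 → k[X]} (hp : WePrim p) (hp' : WePrim p') :
    WePrim (weSym p p') := by
  rw [we_vec_two p] at hp
  rw [we_vec_two p'] at hp'
  exact we_prim_sym hp hp'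

theorem we_sym_deg {p p' : Fin 2 → k[X]} (hp : WePrim p) (hp' : WePrim p') :
    weDeg (weSym p p') = weDeg p + weDeg p' := by
  have h := we_deg_sym (a := p 0) (b := p 1) (c := p' 0) (d := p' 1)
    (by rw [← we_vec_two p]; exact hp) (by rw [← we_vec_two p']; exact hp')
  rw [← we_vec_two p, ← we_vec_two p'] at h
  exact h

theorem we_sym_rep {P Q : V.Point} {p p' : Fin 2 → k[X]} {c c' : K}
    (hcp : ∀ i, φ (p i) = c * P.xRep i) (hcp' : ∀ i, φ (p' i) = c' * Q.xRep i) (i : Fin 3) :
    φ (weSym p p' i) = (c * c') * P.sym2x Q i := by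
  unfold weSym Point.sym2x
  fin_cases i
  · simp only [Fin.zero_eta, Fin.isValue, Matrix.cons_val_zero, map_mul, hcp, hcp']
    ring
  · simp only [Fin.mk_one, Fin.isValue, Matrix.cons_val_one, Matrix.cons_val_zero, map_mul,
      map_add, hcp, hcp']
    ring
  · simp only [Fin.reduceFinMk, Matrix.cons_val, map_mul, hcp, hcp', Fin.isValue]
    ring

/-- `φ` commutes with the addition-and-subtraction map -/
theorem we_map_addSub (s : Fin 3 → k[X]) (j : Fin 3) :
    φ (weAddSub W s j) =
      MvPolynomial.eval (fun i => φ (s i)) ((weCurveK W φ).addSubMap j) := by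
  have hs : (fun i => φ (s i)) = ![φ (s 0), φ (s 1), φ (s 2)] := by
    ext i
    fin_cases i <;> rfl
  rw [we_addSub_apply, hs, we_addSubMap_eval]
  fin_cases j <;>
    simp [WeierstrassCurve.map_b₂, WeierstrassCurve.map_b₄, WeierstrassCurve.map_b₆,
      WeierstrassCurve.map_b₈, map_ofNat]

/-- homogeneity of degree two -/
theorem we_addSubMap_eval_smul {R : Type*} [CommRing R] (V : WeierstrassCurve R) (c : R)
    (v : Fin 3 → R) (j : Fin 3) :
    MvPolynomial.eval (fun i => c * v i) (V.addSubMap j) =
      c ^ 2 * MvPolynomial.eval v (V.addSubMap j) := by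
  have h1 : (fun i => c * v i) = ![c * v 0, c * v 1, c * v 2] := by
    ext i
    fin_cases i <;> rfl
  have h2 : v = ![v 0, v 1, v 2] := by
    ext i
    fin_cases i <;> rfl
  rw [h1, we_addSubMap_eval]
  conv_rhs => rw [h2, we_addSubMap_eval]
  fin_cases j
  · simp only [Fin.zero_eta, Fin.isValue, Matrix.cons_val_zero]
    ring
  · simp only [Fin.mk_one, Fin.isValue, Matrix.cons_val_one, Matrix.cons_val_zero]
    ring
  · simp only [Fin.reduceFinMk, Matrix.cons_val]
    ring

variable [W.IsElliptic]

/-- the proportionality behind the parallelogram law: the addition-and-subtraction map sends the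
symmetric product of representatives of `P`, `Q` to a constant multiple of the symmetric product
of representatives of `P + Q`, `P - Q`. -/
theorem we_para_prop (hφ : Function.Injective φ) (hV : V = weCurveK W φ) {P Q : V.Point}
    {p p' r r' : Fin 2 → k[X]} (hP : WeRep φ P p) (hQ : WeRep φ Q p')
    (hadd : WeRep φ (P + Q) r) (hsub : WeRep φ (P - Q) r') :
    ∃ u : k, u ≠ 0 ∧ ∀ j, weAddSub W (weSym p p') j = C u * weSym r r' j := by
  subst hV
  obtain ⟨hp, c, hc, hcp⟩ := hP
  obtain ⟨hp', c', hc', hcp'⟩ := hQ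
  obtain ⟨hr, d, hd, hdr⟩ := hadd
  obtain ⟨hr', d', hd', hdr'⟩ := hsub
  obtain ⟨e, he, hadds⟩ := we_addSub (weCurveK W φ) P Q
  have hs := we_sym_prim hp hp'
  have hs' := we_sym_prim hr hr'
  have hw := we_prim_addSub W hs
  refine we_unit_of_prop φ hφ hw hs' ((c * c') ^ 2 * e / (d * d')) fun j => ?_
  rw [we_map_addSub]
  have h1 : (fun i => φ (weSym p p' i)) = fun i => (c * c') * P.sym2x Q i :=
    funext fun i => we_sym_rep hcp hcp' i
  rw [h1, we_addSubMap_eval_smul, hadds j, we_sym_rep hdr hdr' j]
  field_simp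

/-- **The exact parallelogram law.** -/
theorem we_para (hφ : Function.Injective φ) (hV : V = weCurveK W φ) {P Q : V.Point}
    {p p' r r' : Fin 2 → k[X]} (hP : WeRep φ P p) (hQ : WeRep φ Q p')
    (hadd : WeRep φ (P + Q) r) (hsub : WeRep φ (P - Q) r') :
    weDeg r + weDeg r' = 2 * weDeg p + 2 * weDeg p' := by
  obtain ⟨u, hu, h⟩ := we_para_prop hφ hV hP hQ hadd hsub
  have hs := we_sym_prim hP.1 hQ.1
  have key : weDeg (weAddSub W (weSym p p')) = weDeg (weSym r r') := by
    unfold weDeg
    exact Finset.sup_congr rfl fun j _ => by rw [h j, natDegree_C_mul hu]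
  rw [we_deg_addSub W hs, we_sym_deg hP.1 hQ.1, we_sym_deg hadd.1 hsub.1] at key
  omega

end Fermat.Agent.WE
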