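import Mathlib

/-!
# WEIL-E, file Quad: the abstract quadratic-form algebra behind `F² - aF + ℓ = 0`

`M` an abelian group, `q : M → ℤ` a function satisfying the parallelogram law
`q (P + Q) + q (P - Q) = 2 q P + 2 q Q`.

* `we_quad_zero`, `we_quad_neg`, `weB` (the polar form), `weB_add_left`, `weB_add_right`,
  `weB_symm`, `weB_self`, `we_quad_zsmul`, `we_quad_add`, `we_quad_sub`, `we_quad_lin`.
* `we_quad_main` : if moreover `F : M →+ M` scales `q` by `ℓ`, `q e = 1` and the ONE
  multiplicativity instance `q ((F + 1)((F - 1) e)) = q ((F + 1) e) * q ((F - 1) e)` holds, then with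
  `a := q (F e + e) - ℓ - 1` one has `q (F (F e) - a • F e + ℓ • e) = 0` and
  `q (F e - e) = ℓ + 1 - a`.
* `we_quad_hasse` : if `q ≥ 0` then `a ^ 2 ≤ 4 * ℓ`.
-/

set_option autoImplicit false

namespace Fermat.Agent.WE

variable {M : Type*} [AddCommGroup M]

/-- the parallelogram law -/
def WeQuad (q : M → ℤ) : Prop :=
  ∀ P Q : M, q (P + Q) + q (P - Q) = 2 * q P + 2 * q Q

/-- the polar form of `q` -/
def weB (q : M → ℤ) (P Q : M) : ℤ := q (P + Q) - q P - q Q

variable {q : M → ℤ}

theorem we_quad_zero (hq : WeQuad q) : q 0 = 0 := by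
  have h := hq 0 0
  simp only [add_zero, sub_zero] at h
  linarith

theorem we_quad_neg (hq : WeQuad q) (P : M) : q (-P) = q P := by
  have h1 := hq 0 P
  have h0 := we_quad_zero hq
  simp only [zero_add, zero_sub] at h1
  linarith

theorem we_quad_sub_comm (hq : WeQuad q) (P Q : M) : q (P - Q) = q (Q - P) := by
  rw [← we_quad_neg hq (P - Q), neg_sub]

theorem weB_symm (q : M → ℤ) (P Q : M) : weB q P Q = weB q Q P := by
  unfold weB
  rw [add_comm P Q]
  ring

theorem weB_self (hq : WeQuad q) (P : M) : weB q P P = 2 * q P := by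
  have h := hq P P
  have h0 := we_quad_zero hq
  rw [sub_self, h0] at h
  unfold weB
  linarith

theorem weB_zero_left (hq : WeQuad q) (Q : M) : weB q 0 Q = 0 := by
  unfold weB
  rw [zero_add, we_quad_zero hq]
  ring

/-- `q (P + Q) - q (P - Q) = 2 B(P, Q)` -/
theorem we_quad_diff (hq : WeQuad q) (P Q : M) : q (P + Q) - q (P - Q) = 2 * weB q P Q := by
  have h := hq P Q
  unfold weB
  linarith

theorem weB_key (hq : WeQuad q) (x x' y : M) :
    weB q (x + x') y + weB q (x - x') y = 2 * weB q x y := by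
  have h1 := hq (x + y) x'
  have h2 := hq (x - y) x'
  have e1 := we_quad_diff hq (x + x') y
  have e2 := we_quad_diff hq (x - x') y
  have e3 := we_quad_diff hq x y
  have r1 : x + y + x' = x + x' + y := by abel
  have r2 : x + y - x' = x - x' + y := by abel
  have r3 : x - y + x' = x + x' - y := by abel
  have r4 : x - y - x' = x - x' - y := by abel
  rw [r1, r2] at h1
  rw [r3, r4] at h2
  linarith

theorem weB_two_left (hq : WeQuad q) (x y : M) : weB q (x + x) y = 2 * weB q x y := by
  have h := weB_key hq x x y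
  rw [sub_self, weB_zero_left hq] at h
  linarith

theorem weB_add_left (hq : WeQuad q) (u v y : M) :
    weB q (u + v) y = weB q u y + weB q v y := by
  have h := weB_key hq (u + v) (u - v) y
  have r1 : u + v + (u - v) = u + u := by abel
  have r2 : u + v - (u - v) = v + v := by abel
  rw [r1, r2, weB_two_left hq, weB_two_left hq] at h
  linarith

theorem weB_add_right (hq : WeQuad q) (y u v : M) :
    weB q y (u + v) = weB q y u + weB q y v := by
  rw [weB_symm q y, weB_add_left hq, weB_symm q u, weB_symm q v]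

theorem weB_neg_left (hq : WeQuad q) (u y : M) : weB q (-u) y = -weB q u y := by
  have h := weB_add_left hq u (-u) y
  rw [add_neg_cancel, weB_zero_left hq] at h
  linarith

theorem weB_neg_right (hq : WeQuad q) (y u : M) : weB q y (-u) = -weB q y u := by
  rw [weB_symm q y, weB_neg_left hq, weB_symm q u]

theorem weB_sub_left (hq : WeQuad q) (u v y : M) :
    weB q (u - v) y = weB q u y - weB q v y := by
  rw [sub_eq_add_neg, weB_add_left hq, weB_neg_left hq]
  ring

theorem weB_sub_right (hq : WeQuad q) (y u v : M) :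
    weB q y (u - v) = weB q y u - weB q y v := by
  rw [weB_symm q y, weB_sub_left hq, weB_symm q u, weB_symm q v]

theorem weB_zsmul_left (hq : WeQuad q) (n : ℤ) (u y : M) :
    weB q (n • u) y = n * weB q u y := by
  induction n using Int.induction_on with
  | zero => simp [weB_zero_left hq]
  | succ n ih =>
    rw [add_smul, one_smul, weB_add_left hq, ih]
    ring
  | pred n ih =>
    rw [sub_smul, one_smul, weB_sub_left hq, ih]
    ring

theorem weB_zsmul_right (hq : WeQuad q) (n : ℤ) (y u : M) :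
    weB q y (n • u) = n * weB q y u := by
  rw [weB_symm q y, weB_zsmul_left hq, weB_symm q u]

theorem we_quad_add (q : M → ℤ) (P Q : M) : q (P + Q) = q P + q Q + weB q P Q := by
  unfold weB
  ring

theorem we_quad_sub (hq : WeQuad q) (P Q : M) : q (P - Q) = q P + q Q - weB q P Q := by
  rw [sub_eq_add_neg, we_quad_add q, we_quad_neg hq, weB_neg_right hq]
  ring

theorem we_quad_zsmul (hq : WeQuad q) (n : ℤ) (P : M) : q (n • P) = n ^ 2 * q P := by
  have h := weB_self hq (n • P)
  rw [weB_zsmul_left hq, weB_zsmul_right hq, weB_self hq] at h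
  linarith

/-- the value of `q` on a `ℤ`-linear combination of two elements -/
theorem we_quad_lin (hq : WeQuad q) (m n : ℤ) (P Q : M) :
    q (m • P + n • Q) = m ^ 2 * q P + m * n * weB q P Q + n ^ 2 * q Q := by
  rw [we_quad_add q, we_quad_zsmul hq, we_quad_zsmul hq, weB_zsmul_left hq, weB_zsmul_right hq]
  ring

section Frobenius

variable (F : M →+ M) (ℓ : ℤ)

theorem weB_map (hF : ∀ P, q (F P) = ℓ * q P) (P Q : M) :
    weB q (F P) (F Q) = ℓ * weB q P Q := by
  unfold weB
  rw [← map_add, hF, hF, hF]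
  ring

/-- **The abstract Weil relation.** -/
theorem we_quad_main (hq : WeQuad q) (hF : ∀ P, q (F P) = ℓ * q P) (e : M) (he : q e = 1)
    (hmul : q (F (F e - e) + (F e - e)) = q (F e + e) * q (F e - e)) :
    q (F (F e) - (q (F e + e) - ℓ - 1) • F e + ℓ • e) = 0 ∧
      q (F e - e) = ℓ + 1 - (q (F e + e) - ℓ - 1) := by
  set a : ℤ := q (F e + e) - ℓ - 1 with ha
  have hFe : q (F e) = ℓ := by rw [hF, he, mul_one]
  have hFFe : q (F (F e)) = ℓ ^ 2 := by rw [hF, hFe, sq]
  -- `B(Fe, e) = a`
  have hB1 : weB q (F e) e = a := by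
    unfold weB
    rw [hFe, he, ha]
  have hplus : q (F e + e) = ℓ + a + 1 := by rw [ha]; ring
  have hminus : q (F e - e) = ℓ - a + 1 := by
    rw [we_quad_sub hq, hFe, he, hB1]
    ring
  -- `B(FFe, Fe) = ℓ a`
  have hB2 : weB q (F (F e)) (F e) = ℓ * a := by rw [weB_map F ℓ hF, hB1]
  -- `B(FFe, e) = a² - 2ℓ` from the multiplicativity instance
  have hB3 : weB q (F (F e)) e = a ^ 2 - 2 * ℓ := by
    have r : F (F e - e) + (F e - e) = F (F e) - e := by
      rw [map_sub]; abel
    rw [r, we_quad_sub hq, hFFe, he, hplus, hminus] at hmul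
    nlinarith [hmul]
  refine ⟨?_, by rw [hminus]; ring⟩
  have r : F (F e) - a • F e + ℓ • e = (F (F e) - a • F e) + ℓ • e := rfl
  rw [we_quad_add q, we_quad_sub hq, we_quad_zsmul hq, we_quad_zsmul hq, hFFe, hFe, he,
    weB_zsmul_right hq, weB_sub_left hq, weB_zsmul_left hq, weB_zsmul_right hq,
    weB_zsmul_right hq, hB2, hB3, hB1]
  ring

/-- **Hasse's bound** from positivity. -/
theorem we_quad_hasse (hq : WeQuad q) (hpos : ∀ P, 0 ≤ q P) (hF : ∀ P, q (F P) = ℓ * q P)
    (e : M) (he : q e = 1) :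
    (q (F e + e) - ℓ - 1) ^ 2 ≤ 4 * ℓ := by
  set a : ℤ := q (F e + e) - ℓ - 1 with ha
  have hFe : q (F e) = ℓ := by rw [hF, he, mul_one]
  have hB1 : weB q (F e) e = a := by
    unfold weB
    rw [hFe, he, ha]
  -- `0 ≤ q (2 • Fe - a • e)·` gives `4ℓ - 2a² + a² ≥ 0`
  have h := hpos ((2 : ℤ) • F e + (-a) • e)
  rw [we_quad_lin hq, hFe, he, hB1] at h
  nlinarith [h]

end Frobenius

end Fermat.Agent.WE
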