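import Mathlib
import Fermat.Agent.WE.Para
import Fermat.Agent.WE.Comp
import Fermat.Agent.WE.Quad

/-!
# WEIL-E, file Model: the Weil relation at the generic point of an abstract function-field model

`k` a field with `a ^ ℓ = a` for all `a` (so `k = 𝔽_ℓ`), `W` an elliptic curve over `k`, `K` a
field extension of `k` with elements `x`, `y` and a `k`-involution `ι` such that (`WeModel`):
`x` is transcendental, `(x, y)` lies on `W`, `ι x = x`, `ι y = -y - a₁x - a₃`, the fixed field of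
`ι` is `k(x)`, every point `(u, w)` of `W` over an extension `L` with `u` transcendental defines a
substitution `K →ₐ[k] L`, and the relations between `x` and `y` are generated by the Weierstrass
equation.

* `weM` : the subgroup `{P ∈ W(K) | ι P = -P}` (it contains the generic point `weGen`);
  `weQ` : the degree of the `x`-coordinate on it, a quadratic form (`weQ_quad`) with
  `weQ (Fr P) = ℓ * weQ P`.
* `we_mul` : multiplicativity of the degree; `we_const_zero` : constants vanish.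
* `we_model_main` : with `a := ℓ + 1 - deg (Fr - 1)` (`weTrace`): `a ^ 2 ≤ 4 ℓ` and
  `(Fr² - a Fr + ℓ) (x, y) = 0`.
-/

set_option autoImplicit false
set_option linter.unusedSectionVars false

namespace Fermat.Agent.WE

open Polynomial WeierstrassCurve WeierstrassCurve.Affine
open scoped Polynomial.Bivariate

universe u v

variable {k : Type u} [Field k] (W : WeierstrassCurve k)
variable {K : Type v} [Field K] [Algebra k K]

/-- the evaluation homomorphism `k[X] → K` at `x` -/
noncomputable def wePhi (x : K) : k[X] →+* K := ((aeval x : k[X] →ₐ[k] K) : k[X] →+* K)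

/-- abstract function-field model of an elliptic curve -/
structure WeModel (x y : K) (ι : K →ₐ[k] K) : Prop where
  trans : Transcendental k x
  eqn : (W⁄K).toAffine.Equation x y
  ι_x : ι x = x
  ι_y : ι y = (W⁄K).toAffine.negY x y
  fixed : ∀ z : K, ι z = z → ∃ a b : k[X], b ≠ 0 ∧ z * aeval x b = aeval x a
  subst : ∀ (L : Type v) [Field L] [Algebra k L] (u w : L), (W⁄L).toAffine.Equation u w →
    Transcendental k u → ∃ σ : K →ₐ[k] L, σ x = u ∧ σ y = w
  spec : ∀ G : k[X][Y], eval₂ (wePhi x) y G = 0 → W.toAffine.polynomial ∣ G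

theorem wePhi_apply (x : K) (p : k[X]) : wePhi x p = aeval x p := rfl

theorem wePhi_injective {x : K} (hx : Transcendental k x) : Function.Injective (wePhi (k := k) x) :=
  transcendental_iff_injective.mp hx

theorem wePhi_comp_C (x : K) : (wePhi x).comp C = algebraMap k K := by
  ext a
  simp [wePhi]

/-- the Weierstrass polynomial evaluated at a pair of elements of an extension -/
theorem we_eval₂_polynomial (u w : K) :
    eval₂ (wePhi u) w W.toAffine.polynomial = (W⁄K).toAffine.polynomial.evalEval u w := by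
  rw [Affine.evalEval_polynomial]
  simp only [Affine.polynomial, eval₂_add, eval₂_sub, eval₂_mul, eval₂_pow, eval₂_X, eval₂_C,
    wePhi_apply, map_add, map_mul, map_pow, aeval_X, aeval_C]
  have e1 : (W⁄K).toAffine.a₁ = algebraMap k K W.a₁ := rfl
  have e2 : (W⁄K).toAffine.a₂ = algebraMap k K W.a₂ := rfl
  have e3 : (W⁄K).toAffine.a₃ = algebraMap k K W.a₃ := rfl
  have e4 : (W⁄K).toAffine.a₄ = algebraMap k K W.a₄ := rfl
  have e6 : (W⁄K).toAffine.a₆ = algebraMap k K W.a₆ := rfl
  rw [e1, e2, e3, e4, e6]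
  ring

theorem we_equation_iff (u w : K) :
    (W⁄K).toAffine.Equation u w ↔ eval₂ (wePhi u) w W.toAffine.polynomial = 0 := by
  rw [we_eval₂_polynomial]
  rfl

theorem we_curve_eq (x : K) : (W⁄K).toAffine = weCurveK W (wePhi x) := by
  unfold weCurveK
  rw [wePhi_comp_C]
  rfl

/-- evaluating a homogenisation at `x` -/
theorem we_phi_homog (x : K) {n : ℕ} {a : k[X]} (ha : a.natDegree ≤ n) (c d : k[X])
    (hd : aeval x d ≠ 0) {u : K} (hu : u * aeval x d = aeval x c) :
    aeval x (weHomog C n a c d) = aeval x d ^ n * aeval u a := by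
  have h1 := we_homog_map C (wePhi x) n a c d
  rw [wePhi_apply, wePhi_apply, wePhi_apply, we_homog_eq_eval _ ha _ hd, wePhi_comp_C] at h1
  rw [h1, eq_div_of_mul_eq hd hu]
  rfl

variable [DecidableEq K]

/-- the `(-1)`-eigenspace of the involution -/
noncomputable def weM (ι : K →ₐ[k] K) : AddSubgroup (W⁄K).toAffine.Point :=
  (Point.map (W' := W) ι).eqLocus (-AddMonoidHom.id _)

theorem we_mem_M {ι : K →ₐ[k] K} {P : (W⁄K).toAffine.Point} :
    P ∈ weM W ι ↔ Point.map (W' := W) ι P = -P := Iff.rfl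

variable {W} {x y : K} {ι : K →ₐ[k] K}

omit [DecidableEq K] in
/-- a fraction of polynomials can be reduced -/
theorem we_exists_coprime {z : K} {a b : k[X]} (hx : Transcendental k x) (hb : b ≠ 0)
    (hz : z * aeval x b = aeval x a) :
    ∃ a' b' : k[X], IsCoprime a' b' ∧ b' ≠ 0 ∧ z * aeval x b' = aeval x a' := by
  classical
  set g := GCDMonoid.gcd a b with hg
  have hg0 : g ≠ 0 := gcd_ne_zero_of_right hb
  have ha : g * (a / g) = a := EuclideanDomain.mul_div_cancel' hg0 (GCDMonoid.gcd_dvd_left a b)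
  have hb' : g * (b / g) = b := EuclideanDomain.mul_div_cancel' hg0 (GCDMonoid.gcd_dvd_right a b)
  refine ⟨a / g, b / g, isCoprime_div_gcd_div_gcd hb, ?_, ?_⟩
  · intro h
    rw [h, mul_zero] at hb'
    exact hb hb'.symm
  · have hgx : aeval x g ≠ 0 := fun h => hg0 (wePhi_injective hx (by rw [wePhi_apply, h, map_zero]))
    rw [← ha, ← hb', map_mul, map_mul] at hz
    apply mul_left_cancel₀ hgx
    linear_combination hz

theorem we_exists_rep (h : WeModel W x y ι) {P : (W⁄K).toAffine.Point} (hP : P ∈ weM W ι) :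
    ∃ p : Fin 2 → k[X], WeRep (wePhi x) P p := by
  rcases P with _ | ⟨u, w, hns⟩
  · exact ⟨_, we_rep_zero⟩
  · rw [we_mem_M, Point.map_some, Point.neg_some] at hP
    have hu : ι u = u := by
      have := hP
      simp only [Point.some.injEq] at this
      exact this.1
    obtain ⟨a, b, hb, hz⟩ := h.fixed u hu
    obtain ⟨a', b', hcop, hb', hz'⟩ := we_exists_coprime h.trans hb hz
    refine ⟨![a', b'], we_prim_of_coprime hcop, aeval x b', ?_, ?_⟩
    · intro h0
      exact hb' (wePhi_injective h.trans (by rw [wePhi_apply, h0, map_zero]))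
    · intro i
      rw [Point.xRep_some]
      fin_cases i
      · simp only [Fin.zero_eta, Fin.isValue, Matrix.cons_val_zero, wePhi_apply]
        linear_combination -hz'
      · simp [wePhi_apply]


instance weIsEllipticBaseChange (W : WeierstrassCurve k) [W.IsElliptic] (L : Type*) [CommRing L]
    [Algebra k L] : (W⁄L).IsElliptic :=
  inferInstanceAs (W.map (algebraMap k L)).IsElliptic

variable [W.IsElliptic]

/-- the generic point -/
noncomputable def weGen (h : WeModel W x y ι) : (W⁄K).toAffine.Point := Point.mk h.eqn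

theorem weGen_mem (h : WeModel W x y ι) : weGen h ∈ weM W ι := by
  rw [we_mem_M]
  simp only [weGen, Point.mk, Point.map_some, Point.neg_some, Point.some.injEq]
  exact ⟨h.ι_x, h.ι_y⟩

theorem weGen_rep (h : WeModel W x y ι) :
    WeRep (wePhi x) (weGen h) ![(X : k[X]), (1 : k[X])] := by
  refine ⟨?_, 1, one_ne_zero, fun i => ?_⟩
  · unfold WePrim
    rw [Ideal.eq_top_iff_one]
    exact Ideal.subset_span ⟨1, rfl⟩
  · simp only [weGen, Point.mk, Point.xRep_some]
    fin_cases i <;> simp [wePhi_apply]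

/-- the degree function on `M` -/
noncomputable def weQ (h : WeModel W x y ι) (P : weM W ι) : ℤ :=
  (weDeg (Classical.choose (we_exists_rep h P.2)) : ℤ)

theorem weQ_eq (h : WeModel W x y ι) (P : weM W ι) {p : Fin 2 → k[X]}
    (hp : WeRep (wePhi x) (P : (W⁄K).toAffine.Point) p) : weQ h P = weDeg p := by
  unfold weQ
  exact_mod_cast we_rep_deg_unique (wePhi_injective h.trans)
    (Classical.choose_spec (we_exists_rep h P.2)) hp

theorem weQ_nonneg (h : WeModel W x y ι) (P : weM W ι) : 0 ≤ weQ h P := by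
  unfold weQ
  positivity

theorem weQ_quad (h : WeModel W x y ι) : WeQuad (weQ h) := by
  intro P Q
  obtain ⟨p, hp⟩ := we_exists_rep h P.2
  obtain ⟨p', hp'⟩ := we_exists_rep h Q.2
  obtain ⟨r, hr⟩ := we_exists_rep h (P + Q).2
  obtain ⟨r', hr'⟩ := we_exists_rep h (P - Q).2
  rw [weQ_eq h P hp, weQ_eq h Q hp', weQ_eq h (P + Q) hr, weQ_eq h (P - Q) hr']
  have := we_para (wePhi_injective h.trans) (we_curve_eq W x) hp hp' hr hr'
  exact_mod_cast this

theorem weQ_gen (h : WeModel W x y ι) : weQ h ⟨weGen h, weGen_mem h⟩ = 1 := by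
  rw [weQ_eq h _ (weGen_rep h), we_deg_two]
  simp


/-! ### substitutions -/

omit [DecidableEq K] in
/-- a non-constant rational function of `x` is transcendental -/
theorem we_transcendental_of_rep (hx : Transcendental k x) {u : K} {c d : k[X]}
    (hcd : WePrim ![c, d]) (hd : aeval x d ≠ 0) (hu : u * aeval x d = aeval x c)
    (hpos : 1 ≤ weDeg ![c, d]) : Transcendental k u := by
  intro halg
  obtain ⟨p, hp0, hp⟩ := halg
  have hp1 : WePrim ![p, (1 : k[X])] := by
    unfold WePrim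
    rw [Ideal.eq_top_iff_one]
    exact Ideal.subset_span ⟨1, rfl⟩
  have hn : weDeg ![p, (1 : k[X])] = p.natDegree := by
    rw [we_deg_two]
    simp
  have hprim := we_comp_prim hp1 hcd
  have hdeg := we_comp_deg hp1 hcd
  rw [hn] at hprim hdeg
  have hH : weHomog C p.natDegree p c d = 0 := by
    apply wePhi_injective hx
    rw [wePhi_apply, we_phi_homog x le_rfl c d hd hu, hp, mul_zero, map_zero]
  rw [hH] at hprim hdeg
  have hunit : IsUnit (weHomog C p.natDegree 1 c d) := by
    have := we_coprime_of_prim hprim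
    exact isCoprime_zero_left.mp this
  have h0 : (weHomog C p.natDegree 1 c d).natDegree = 0 := natDegree_eq_zero_of_isUnit hunit
  rw [we_deg_two, natDegree_zero, h0, max_self] at hdeg
  have hpn : p.natDegree = 0 := by
    rcases Nat.mul_eq_zero.mp hdeg.symm with h | h
    · exact h
    · omega
  rw [eq_C_of_natDegree_eq_zero hpn, aeval_C] at hp
  have : p.coeff 0 = 0 := (map_eq_zero (algebraMap k K)).mp hp
  apply hp0
  rw [eq_C_of_natDegree_eq_zero hpn, this, C_0]

theorem we_xRep_map {L L' : Type*} [Field L] [Algebra k L] [DecidableEq L] [Field L']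
    [Algebra k L'] [DecidableEq L'] (τ : L →ₐ[k] L') (P : (W⁄L).toAffine.Point) (i : Fin 2) :
    (Point.map (W' := W) τ P).xRep i = τ (P.xRep i) := by
  rcases P with _ | ⟨u, w, hns⟩
  · have : Point.map (W' := W) τ (Point.zero : (W⁄L).toAffine.Point) = 0 := map_zero _
    rw [this, ← Point.zero_def, Point.xRep_zero, Point.xRep_zero]
    fin_cases i <;> simp
  · rw [Point.map_some, Point.xRep_some, Point.xRep_some]
    fin_cases i <;> simp

/-- a representative of the image of a point under a substitution -/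
theorem we_rep_subst {σ : K →ₐ[k] K} {u : K} (hσ : σ x = u)
    {c d : k[X]} (hcd : WePrim ![c, d]) (hd : aeval x d ≠ 0) (hu : u * aeval x d = aeval x c)
    {T : (W⁄K).toAffine.Point} {t : Fin 2 → k[X]} (ht : WeRep (wePhi x) T t) :
    WeRep (wePhi x) (Point.map (W' := W) σ T)
      ![weHomog C (weDeg t) (t 0) c d, weHomog C (weDeg t) (t 1) c d] := by
  have ht2 : t = ![t 0, t 1] := by
    ext i
    fin_cases i <;> rfl
  obtain ⟨hprim, e, he, het⟩ := ht
  refine ⟨?_, aeval x d ^ (weDeg t) * σ e, mul_ne_zero (pow_ne_zero _ hd)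
    ((map_ne_zero σ).mpr he), fun i => ?_⟩
  · have := we_comp_prim (a := t 0) (b := t 1) (by rw [← ht2]; exact hprim) hcd
    rw [← ht2] at this
    exact this
  · rw [we_xRep_map, mul_assoc, ← map_mul, ← het i]
    have key : ∀ j : Fin 2, wePhi x (weHomog C (weDeg t) (t j) c d) =
        aeval x d ^ weDeg t * σ (wePhi x (t j)) := by
      intro j
      rw [wePhi_apply, we_phi_homog x (we_natDegree_le_deg t j) c d hd hu, wePhi_apply,
        ← aeval_algHom_apply, hσ]
    fin_cases i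
    · exact key 0
    · exact key 1

/-- a non-constant point of `M` is the image of the generic point under a substitution -/
theorem we_exists_subst (h : WeModel W x y ι) {Q : (W⁄K).toAffine.Point} (hQ : Q ∈ weM W ι)
    (hpos : 1 ≤ weQ h ⟨Q, hQ⟩) :
    ∃ (σ : K →ₐ[k] K) (c d : k[X]) (u : K), WePrim ![c, d] ∧ weQ h ⟨Q, hQ⟩ = weDeg ![c, d] ∧
      aeval x d ≠ 0 ∧ u * aeval x d = aeval x c ∧ σ x = u ∧
      Point.map (W' := W) σ (weGen h) = Q := by
  obtain ⟨p, hp⟩ := we_exists_rep h hQ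
  have hp2 : p = ![p 0, p 1] := by
    ext i
    fin_cases i <;> rfl
  have hq := weQ_eq h ⟨Q, hQ⟩ hp
  rcases Q with _ | ⟨u, w, hns⟩
  · exfalso
    have h0 := weQ_eq h ⟨Point.zero, hQ⟩ (we_rep_zero (φ := wePhi x) (V := (W⁄K).toAffine))
    rw [h0, we_deg_two] at hpos
    simp at hpos
  · obtain ⟨hprim, e, he, hep⟩ := hp
    have h0 := hep 0
    have h1 := hep 1
    rw [Point.xRep_some] at h0 h1
    simp only [Fin.isValue, Matrix.cons_val_zero, Matrix.cons_val_one, mul_one,
      wePhi_apply] at h0 h1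
    have hd : aeval x (p 1) ≠ 0 := by rw [h1]; exact he
    have hu : u * aeval x (p 1) = aeval x (p 0) := by rw [h0, h1]; ring
    have hprim' : WePrim ![p 0, p 1] := by rw [← hp2]; exact hprim
    have hpos' : 1 ≤ weDeg ![p 0, p 1] := by
      rw [← hp2]
      rw [hq] at hpos
      exact_mod_cast hpos
    have htr := we_transcendental_of_rep h.trans hprim' hd hu hpos'
    obtain ⟨σ, hσx, hσy⟩ := h.subst K u w hns.1 htr
    refine ⟨σ, p 0, p 1, u, hprim', by rw [hq, ← hp2], hd, hu, hσx, ?_⟩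
    simp only [weGen, Point.mk, Point.map_some, Point.some.injEq]
    exact ⟨hσx, hσy⟩

/-! ### Frobenius -/

section Frobenius

variable (ℓ : ℕ) [Fact ℓ.Prime] (hk : ∀ a : k, a ^ ℓ = a)

/-- Frobenius as a `k`-algebra endomorphism, for `k` with `a ^ ℓ = a` -/
noncomputable def weFrobAlg (L : Type*) [Field L] [Algebra k L] [CharP L ℓ] : L →ₐ[k] L :=
  { frobenius L ℓ with
    commutes' := fun a => by
      show frobenius L ℓ (algebraMap k L a) = algebraMap k L a
      rw [frobenius_def, ← map_pow, hk] }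

theorem weFrobAlg_apply (L : Type*) [Field L] [Algebra k L] [CharP L ℓ] (z : L) :
    weFrobAlg ℓ hk L z = z ^ ℓ := rfl

/-- Frobenius on points -/
noncomputable def weFr (L : Type*) [Field L] [Algebra k L] [CharP L ℓ] [DecidableEq L] :
    (W⁄L).toAffine.Point →+ (W⁄L).toAffine.Point :=
  Point.map (W' := W) (weFrobAlg ℓ hk L)

theorem weFr_map {L L' : Type*} [Field L] [Algebra k L] [CharP L ℓ] [DecidableEq L]
    [Field L'] [Algebra k L'] [CharP L' ℓ] [DecidableEq L'] (τ : L →ₐ[k] L')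
    (P : (W⁄L).toAffine.Point) :
    Point.map (W' := W) τ (weFr ℓ hk L P) = weFr ℓ hk L' (Point.map (W' := W) τ P) := by
  have e : τ.comp (weFrobAlg ℓ hk L) = (weFrobAlg ℓ hk L').comp τ := by
    ext z
    show τ (weFrobAlg ℓ hk L z) = weFrobAlg ℓ hk L' (τ z)
    rw [weFrobAlg_apply, weFrobAlg_apply, map_pow]
  unfold weFr
  rw [Point.map_map, Point.map_map, e]

theorem weFr_some {L : Type*} [Field L] [Algebra k L] [CharP L ℓ] [DecidableEq L] {u w : L}
    (hns : (W⁄L).toAffine.Nonsingular u w) :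
    ∃ hns', weFr ℓ hk L (Point.some u w hns) = Point.some (u ^ ℓ) (w ^ ℓ) hns' :=
  ⟨_, rfl⟩

theorem weFr_mem {P : (W⁄K).toAffine.Point} [CharP K ℓ] (hP : P ∈ weM W ι) :
    weFr ℓ hk K P ∈ weM W ι := by
  rw [we_mem_M] at hP ⊢
  rw [weFr_map, hP, map_neg]

theorem weFr_xRep {L : Type*} [Field L] [Algebra k L] [CharP L ℓ] [DecidableEq L]
    (P : (W⁄L).toAffine.Point) (i : Fin 2) : (weFr ℓ hk L P).xRep i = P.xRep i ^ ℓ := by
  have hℓ : ℓ ≠ 0 := (Fact.out : ℓ.Prime).ne_zero
  rcases P with _ | ⟨u, w, hns⟩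
  · have : weFr ℓ hk L (Point.zero : (W⁄L).toAffine.Point) = 0 := map_zero _
    rw [this, ← Point.zero_def, Point.xRep_zero]
    fin_cases i <;> simp [hℓ]
  · obtain ⟨hns', e⟩ := weFr_some ℓ hk hns
    rw [e, Point.xRep_some, Point.xRep_some]
    fin_cases i <;> simp

theorem weFr_rep [CharP K ℓ] {P : (W⁄K).toAffine.Point} {p : Fin 2 → k[X]}
    (hp : WeRep (wePhi x) P p) :
    WeRep (wePhi x) (weFr ℓ hk K P) ![p 0 ^ ℓ, p 1 ^ ℓ] := by
  obtain ⟨hprim, c, hc, hcp⟩ := hp
  have hp2 : p = ![p 0, p 1] := by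
    ext i
    fin_cases i <;> rfl
  refine ⟨?_, c ^ ℓ, pow_ne_zero _ hc, fun i => ?_⟩
  · rw [hp2] at hprim
    exact we_prim_of_coprime (IsCoprime.pow (we_coprime_of_prim hprim))
  · rw [weFr_xRep, ← mul_pow, ← hcp i]
    fin_cases i <;> simp

theorem we_deg_pow (p : Fin 2 → k[X]) (n : ℕ) :
    weDeg ![p 0 ^ n, p 1 ^ n] = n * weDeg p := by
  have hp2 : p = ![p 0, p 1] := by
    ext i
    fin_cases i <;> rfl
  conv_rhs => rw [hp2]
  rw [we_deg_two, we_deg_two, natDegree_pow, natDegree_pow, Nat.mul_max_mul_left]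

/-- Frobenius on `M` -/
noncomputable def weFrM [CharP K ℓ] (ι : K →ₐ[k] K) : weM W ι →+ weM W ι :=
  ((weFr ℓ hk K).comp (weM W ι).subtype).codRestrict (weM W ι) fun P => weFr_mem ℓ hk P.2

theorem weFrM_coe [CharP K ℓ] (P : weM W ι) :
    ((weFrM ℓ hk ι P : weM W ι) : (W⁄K).toAffine.Point) = weFr ℓ hk K P := rfl

theorem weQ_frob [CharP K ℓ] (h : WeModel W x y ι) (P : weM W ι) :
    weQ h (weFrM ℓ hk ι P) = ℓ * weQ h P := by
  obtain ⟨p, hp⟩ := we_exists_rep h P.2
  rw [weQ_eq h P hp, weQ_eq h (weFrM ℓ hk ι P) (weFr_rep ℓ hk hp), we_deg_pow]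
  push_cast
  ring

/-- the operator `c₂ Fr² + c₁ Fr + c₀` on points -/
noncomputable def weOp (L : Type*) [Field L] [Algebra k L] [CharP L ℓ] [DecidableEq L]
    (c₂ c₁ c₀ : ℤ) : (W⁄L).toAffine.Point →+ (W⁄L).toAffine.Point :=
  c₂ • ((weFr ℓ hk L).comp (weFr ℓ hk L)) + c₁ • weFr ℓ hk L + c₀ • AddMonoidHom.id _

theorem weOp_apply (L : Type*) [Field L] [Algebra k L] [CharP L ℓ] [DecidableEq L]
    (c₂ c₁ c₀ : ℤ) (P : (W⁄L).toAffine.Point) :
    weOp ℓ hk L c₂ c₁ c₀ P = c₂ • weFr ℓ hk L (weFr ℓ hk L P) + c₁ • weFr ℓ hk L P + c₀ • P := rfl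

theorem weOp_map {L L' : Type*} [Field L] [Algebra k L] [CharP L ℓ] [DecidableEq L]
    [Field L'] [Algebra k L'] [CharP L' ℓ] [DecidableEq L'] (τ : L →ₐ[k] L') (c₂ c₁ c₀ : ℤ)
    (P : (W⁄L).toAffine.Point) :
    Point.map (W' := W) τ (weOp ℓ hk L c₂ c₁ c₀ P) =
      weOp ℓ hk L' c₂ c₁ c₀ (Point.map (W' := W) τ P) := by
  rw [weOp_apply, weOp_apply, map_add, map_add, map_zsmul, map_zsmul, map_zsmul, weFr_map,
    weFr_map]

theorem weOp_mem [CharP K ℓ] (c₂ c₁ c₀ : ℤ) {P : (W⁄K).toAffine.Point} (hP : P ∈ weM W ι) :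
    weOp ℓ hk K c₂ c₁ c₀ P ∈ weM W ι := by
  rw [weOp_apply]
  exact add_mem (add_mem (zsmul_mem (weFr_mem ℓ hk (weFr_mem ℓ hk hP)) _)
    (zsmul_mem (weFr_mem ℓ hk hP) _)) (zsmul_mem hP _)

variable [CharP K ℓ]

/-- **multiplicativity of the degree** under composition with a non-constant point -/
theorem we_mul (h : WeModel W x y ι) (c₂ c₁ c₀ : ℤ) {Q : (W⁄K).toAffine.Point}
    (hQ : Q ∈ weM W ι) (hpos : 1 ≤ weQ h ⟨Q, hQ⟩) :
    weQ h ⟨weOp ℓ hk K c₂ c₁ c₀ Q, weOp_mem ℓ hk c₂ c₁ c₀ hQ⟩ =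
      weQ h ⟨weOp ℓ hk K c₂ c₁ c₀ (weGen h), weOp_mem ℓ hk c₂ c₁ c₀ (weGen_mem h)⟩ *
        weQ h ⟨Q, hQ⟩ := by
  obtain ⟨σ, c, d, u, hcd, hq, hd, hu, hσ, hσQ⟩ := we_exists_subst h hQ hpos
  obtain ⟨t, ht⟩ := we_exists_rep h (weOp_mem ℓ hk c₂ c₁ c₀ (weGen_mem h))
  have ht2 : t = ![t 0, t 1] := by
    ext i
    fin_cases i <;> rfl
  have hrep := we_rep_subst hσ hcd hd hu ht
  rw [weOp_map, hσQ] at hrep
  rw [weQ_eq h _ hrep, weQ_eq h _ ht, hq]
  have := we_comp_deg (a := t 0) (b := t 1) (by rw [← ht2]; exact ht.1) hcd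
  rw [← ht2] at this
  exact_mod_cast this

/-- a "constant" value of an operator at the generic point is zero -/
theorem we_const_zero (h : WeModel W x y ι) (c₂ c₁ c₀ : ℤ)
    (hq : weQ h ⟨weOp ℓ hk K c₂ c₁ c₀ (weGen h), weOp_mem ℓ hk c₂ c₁ c₀ (weGen_mem h)⟩ = 0) :
    weOp ℓ hk K c₂ c₁ c₀ (weGen h) = 0 := by
  have hTmem : weOp ℓ hk K c₂ c₁ c₀ (weGen h) ∈ weM W ι :=
    weOp_mem ℓ hk c₂ c₁ c₀ (weGen_mem h)
  obtain ⟨t, ht⟩ := we_exists_rep h hTmem
  have hdeg : weDeg t = 0 := by
    have := weQ_eq h ⟨_, hTmem⟩ ht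
    rw [hq] at this
    exact_mod_cast this.symm
  by_contra hT0
  clear hq hTmem
  generalize hT : weOp ℓ hk K c₂ c₁ c₀ (weGen h) = T at ht hT0
  rcases T with _ | ⟨uT, wT, hns⟩
  · exact hT0 rfl
  -- the `x`-coordinate of `T` is a constant
  have hconst : ∃ r : k, uT = algebraMap k K r := by
    obtain ⟨-, e, he, het⟩ := ht
    have hc : ∀ j : Fin 2, wePhi x (t j) = algebraMap k K ((t j).coeff 0) := by
      intro j
      have hj : (t j).natDegree = 0 := by
        have := we_natDegree_le_deg t j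
        omega
      rw [wePhi_apply]
      conv_lhs => rw [eq_C_of_natDegree_eq_zero hj]
      rw [aeval_C]
    have h0 := het 0
    have h1 := het 1
    rw [Point.xRep_some, hc] at h0 h1
    simp only [Fin.isValue, Matrix.cons_val_zero, Matrix.cons_val_one, mul_one] at h0 h1
    have hβ : algebraMap k K ((t 1).coeff 0) ≠ 0 := by rw [h1]; exact he
    refine ⟨(t 0).coeff 0 / (t 1).coeff 0, ?_⟩
    rw [map_div₀, h0, h1]
    field_simp
  obtain ⟨r, hr⟩ := hconst
  -- multiplication by a nonzero integer fixes the `x`-coordinate of `T`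
  have key : ∀ n : ℤ, n ≠ 0 → n • (Point.some uT wT hns) = Point.some uT wT hns ∨
      n • (Point.some uT wT hns) = -Point.some uT wT hns := by
    intro n hn
    have hQn : n • weGen h ∈ weM W ι := zsmul_mem (weGen_mem h) n
    have hqn : weQ h ⟨n • weGen h, hQn⟩ = n ^ 2 := by
      have := we_quad_zsmul (weQ_quad h) n ⟨weGen h, weGen_mem h⟩
      rw [weQ_gen, mul_one] at this
      exact this
    have hpos : 1 ≤ weQ h ⟨n • weGen h, hQn⟩ := by
      rw [hqn]
      have : 0 < n ^ 2 := by positivity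
      omega
    obtain ⟨σ, c, d, u, -, -, -, -, -, hσQ⟩ := we_exists_subst h hQn hpos
    have e1 : Point.map (W' := W) σ (Point.some uT wT hns) = n • (Point.some uT wT hns) := by
      rw [← hT, weOp_map, hσQ, map_zsmul]
    apply Point.xRep_eq_xRep_iff.mp
    rw [← e1]
    ext i
    rw [we_xRep_map, Point.xRep_some]
    fin_cases i
    · simp only [Fin.zero_eta, Fin.isValue, Matrix.cons_val_zero]
      rw [hr, σ.commutes]
    · simp
  have h2 := key 2 (by norm_num)
  have h3 := key 3 (by norm_num)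
  have hne : Point.some uT wT hns ≠ 0 := Point.some_ne_zero hns
  generalize Point.some uT wT hns = T at h2 h3 hne
  apply hne
  rcases h2 with h2 | h2
  · have : (2 : ℤ) • T = T + T := two_zsmul T
    rw [this] at h2
    exact add_eq_right.mp h2 |> fun h => h
  · have h3T : (3 : ℤ) • T = 0 := by
      have : (3 : ℤ) • T = (2 : ℤ) • T + T := by
        rw [show (3 : ℤ) = 2 + 1 by norm_num, add_zsmul, one_zsmul]
      rw [this, h2, neg_add_cancel]
    rw [h3T] at h3
    rcases h3 with h3 | h3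
    · exact h3.symm
    · exact neg_eq_zero.mp h3.symm

theorem weQ_congr (h : WeModel W x y ι) {P Q : weM W ι}
    (hPQ : (P : (W⁄K).toAffine.Point) = Q) : weQ h P = weQ h Q := by
  rw [Subtype.ext hPQ]

/-- the defect `ℓ + 1 - deg (Fr - 1)` -/
noncomputable def weTrace (h : WeModel W x y ι) : ℤ :=
  ℓ + 1 - weQ h ⟨weOp ℓ hk K 0 1 (-1) (weGen h), weOp_mem ℓ hk 0 1 (-1) (weGen_mem h)⟩

/-- **The Weil relation at the generic point, and Hasse's bound.** -/
theorem we_model_main (h : WeModel W x y ι) :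
    weTrace ℓ hk h ^ 2 ≤ 4 * ℓ ∧ weOp ℓ hk K 1 (-(weTrace ℓ hk h)) ℓ (weGen h) = 0 := by
  set e : weM W ι := ⟨weGen h, weGen_mem h⟩ with he_def
  set F : weM W ι →+ weM W ι := weFrM ℓ hk ι with hF_def
  have hF : ∀ P, weQ h (F P) = (ℓ : ℤ) * weQ h P := weQ_frob ℓ hk h
  have he : weQ h e = 1 := weQ_gen h
  have hquad := weQ_quad h
  -- the point `Fr e - e`
  have cminus : ((F e - e : weM W ι) : (W⁄K).toAffine.Point) =
      weOp ℓ hk K 0 1 (-1) (weGen h) := by
    rw [weOp_apply]
    simp [F, e, weFrM_coe, sub_eq_add_neg]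
  have cplus : ((F e + e : weM W ι) : (W⁄K).toAffine.Point) =
      weOp ℓ hk K 0 1 1 (weGen h) := by
    rw [weOp_apply]
    simp [F, e, weFrM_coe]
  have hqminus : weQ h (F e - e) = (ℓ : ℤ) + 1 - weTrace ℓ hk h := by
    unfold weTrace
    rw [weQ_congr h (Q := ⟨_, weOp_mem ℓ hk 0 1 (-1) (weGen_mem h)⟩) cminus]
    ring
  have hmul : weQ h (F (F e - e) + (F e - e)) = weQ h (F e + e) * weQ h (F e - e) := by
    rcases (weQ_nonneg h (F e - e)).eq_or_lt with h0 | hpos
    · -- the degenerate case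
      have hz : weOp ℓ hk K 0 1 (-1) (weGen h) = 0 := by
        apply we_const_zero ℓ hk h
        rw [← weQ_congr h cminus]
        exact h0.symm
      have hz' : F e - e = 0 := by
        apply Subtype.ext
        rw [cminus, hz]
        rfl
      rw [hz', map_zero, add_zero, we_quad_zero hquad, mul_zero]
    · have hmem : ((F e - e : weM W ι) : (W⁄K).toAffine.Point) ∈ weM W ι := (F e - e).2
      have := we_mul ℓ hk h 0 1 1 hmem (by
        have : weQ h ⟨_, hmem⟩ = weQ h (F e - e) := weQ_congr h rfl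
        rw [this]
        omega)
      have e1 : weQ h ⟨_, hmem⟩ = weQ h (F e - e) := weQ_congr h rfl
      have e2 : weQ h ⟨weOp ℓ hk K 0 1 1 (weGen h), weOp_mem ℓ hk 0 1 1 (weGen_mem h)⟩ =
          weQ h (F e + e) := weQ_congr h cplus.symm
      have e3 : weQ h ⟨weOp ℓ hk K 0 1 1 ((F e - e : weM W ι) : (W⁄K).toAffine.Point),
          weOp_mem ℓ hk 0 1 1 hmem⟩ = weQ h (F (F e - e) + (F e - e)) := by
        apply weQ_congr h
        show weOp ℓ hk K 0 1 1 ((F e - e : weM W ι) : (W⁄K).toAffine.Point) =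
          ((F (F e - e) + (F e - e) : weM W ι) : (W⁄K).toAffine.Point)
        rw [weOp_apply]
        simp [F, weFrM_coe]
      rw [e1, e2, e3] at this
      exact this
  obtain ⟨h1, h2⟩ := we_quad_main F (ℓ : ℤ) hquad hF e he hmul
  have ha : weQ h (F e + e) - (ℓ : ℤ) - 1 = weTrace ℓ hk h := by
    rw [hqminus] at h2
    linarith
  rw [ha] at h1
  refine ⟨?_, ?_⟩
  · have := we_quad_hasse F (ℓ : ℤ) hquad (weQ_nonneg h) hF e he
    rw [ha] at this
    exact this
  · apply we_const_zero ℓ hk h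
    rw [← h1]
    apply weQ_congr h
    show weOp ℓ hk K 1 (-(weTrace ℓ hk h)) ℓ (weGen h) =
      ((F (F e) - weTrace ℓ hk h • F e + (ℓ : ℤ) • e : weM W ι) : (W⁄K).toAffine.Point)
    rw [weOp_apply]
    simp [F, e, weFrM_coe, sub_eq_add_neg]

end Frobenius

end Fermat.Agent.WE
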