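import Mathlib
import Fermat.Agent.WE.Model

/-!
# WEIL-E, file Conc: the function field of an elliptic curve is a model

`weK W = W.toAffine.FunctionField` with the coordinate functions `weX W`, `weY W` and the
involution `weIota W` satisfies `WeModel` (`we_model`).  The substitution homomorphisms
`weSubst` are obtained from the evaluation homomorphisms `weEvalHom` of the coordinate ring, which
are injective at points with transcendental `x`-coordinate (norm argument).
-/

set_option autoImplicit false
set_option linter.unusedSectionVars false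

namespace Fermat.Agent.WE

open Polynomial WeierstrassCurve WeierstrassCurve.Affine
open scoped Polynomial.Bivariate

universe u

variable {k : Type u} [Field k] (W : WeierstrassCurve k)

/-- the function field of `W` -/
abbrev weK : Type u := W.toAffine.FunctionField

/-- the coordinate ring of `W` -/
abbrev weR : Type u := W.toAffine.CoordinateRing

/-- the coordinate function `x` -/
noncomputable def weX : weK W := algebraMap (weR W) (weK W) (CoordinateRing.mk W (C X))

/-- the coordinate function `y` -/
noncomputable def weY : weK W := algebraMap (weR W) (weK W) (CoordinateRing.mk W Y)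

theorem we_algebraMap_comp : (algebraMap (weR W) (weK W)).comp (algebraMap k[X] (weR W)) =
    wePhi (weX W) := by
  apply Polynomial.ringHom_ext
  · intro a
    simp only [RingHom.comp_apply, wePhi_apply, aeval_C]
    rfl
  · simp only [RingHom.comp_apply, wePhi_apply, aeval_X]
    rfl

/-- the image of the class of a bivariate polynomial in the function field -/
theorem we_algebraMap_mk (G : k[X][Y]) :
    algebraMap (weR W) (weK W) (CoordinateRing.mk W G) = eval₂ (wePhi (weX W)) (weY W) G := by
  have h1 : CoordinateRing.mk W G = eval₂ (algebraMap k[X] (weR W)) (CoordinateRing.mk W Y) G := by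
    have := AdjoinRoot.aeval_eq (f := W.toAffine.polynomial) G
    rw [← this]
    rfl
  rw [h1, Polynomial.hom_eval₂, we_algebraMap_comp]
  rfl

theorem weX_transcendental : Transcendental k (weX W) := by
  rw [transcendental_iff_injective]
  have h1 : Function.Injective (algebraMap (weR W) (weK W)) := IsFractionRing.injective _ _
  have h2 : Function.Injective (algebraMap k[X] (weR W)) := FaithfulSMul.algebraMap_injective _ _
  have := h1.comp h2
  intro p q hpq
  apply this
  have e := we_algebraMap_comp W
  have ep := congrArg (fun f => f p) e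
  have eq := congrArg (fun f => f q) e
  simp only [RingHom.comp_apply, wePhi_apply] at ep eq
  simp only [Function.comp_apply]
  rw [ep, eq]
  exact hpq

theorem we_equation_gen : (W⁄(weK W)).toAffine.Equation (weX W) (weY W) := by
  rw [we_equation_iff, ← we_algebraMap_mk]
  have : CoordinateRing.mk W W.toAffine.polynomial = 0 := AdjoinRoot.mk_self
  rw [this, map_zero]

theorem we_spec (G : k[X][Y]) (hG : eval₂ (wePhi (weX W)) (weY W) G = 0) :
    W.toAffine.polynomial ∣ G := by
  rw [← we_algebraMap_mk] at hG
  have h1 : Function.Injective (algebraMap (weR W) (weK W)) := IsFractionRing.injective _ _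
  have : CoordinateRing.mk W G = 0 := h1 (by rw [hG, map_zero])
  exact AdjoinRoot.mk_eq_zero.mp this


/-! ### evaluation at a point -/

section Eval

variable {W} {L : Type*} [Field L] [Algebra k L]

/-- evaluation of the coordinate ring at a point of `W` over an extension -/
noncomputable def weEvalHom {u w : L} (h : (W⁄L).toAffine.Equation u w) : weR W →ₐ[k] L :=
  AdjoinRoot.liftAlgHom W.toAffine.polynomial (aeval u : k[X] →ₐ[k] L) w
    ((we_equation_iff W u w).mp h)

theorem weEvalHom_mk {u w : L} (h : (W⁄L).toAffine.Equation u w) (G : k[X][Y]) :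
    weEvalHom h (CoordinateRing.mk W G) = eval₂ (wePhi u) w G := by
  unfold weEvalHom
  exact AdjoinRoot.liftAlgHom_mk _ _ _ _ _

theorem weEvalHom_smul_basis {u w : L} (h : (W⁄L).toAffine.Equation u w) (p q : k[X]) :
    weEvalHom h (p • (1 : weR W) + q • CoordinateRing.mk W Y) = aeval u p + aeval u q * w := by
  have e : p • (1 : weR W) + q • CoordinateRing.mk W Y = CoordinateRing.mk W (C p + C q * Y) := by
    rw [CoordinateRing.smul, CoordinateRing.smul, mul_one, map_add, map_mul]
  rw [e, weEvalHom_mk]
  simp [wePhi_apply]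

/-- evaluation at a point with transcendental `x`-coordinate is injective -/
theorem weEvalHom_injective {u w : L} (h : (W⁄L).toAffine.Equation u w)
    (hu : Transcendental k u) : Function.Injective (weEvalHom h) := by
  rw [injective_iff_map_eq_zero]
  intro r hr
  obtain ⟨p, q, rfl⟩ := CoordinateRing.exists_smul_basis_eq r
  rw [weEvalHom_smul_basis] at hr
  have hinj := wePhi_injective hu
  -- the norm vanishes at `u`
  have hN : aeval u (p ^ 2 - p * q * (C W.a₁ * X + C W.a₃) -
      q ^ 2 * (X ^ 3 + C W.a₂ * X ^ 2 + C W.a₄ * X + C W.a₆)) = 0 := by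
    have heq := (W⁄L).toAffine.equation_iff u w |>.mp h
    have e1 : (W⁄L).toAffine.a₁ = algebraMap k L W.a₁ := rfl
    have e2 : (W⁄L).toAffine.a₂ = algebraMap k L W.a₂ := rfl
    have e3 : (W⁄L).toAffine.a₃ = algebraMap k L W.a₃ := rfl
    have e4 : (W⁄L).toAffine.a₄ = algebraMap k L W.a₄ := rfl
    have e6 : (W⁄L).toAffine.a₆ = algebraMap k L W.a₆ := rfl
    rw [e1, e2, e3, e4, e6] at heq
    simp only [map_sub, map_mul, map_pow, map_add, aeval_C, aeval_X]
    have hp : aeval u p = -(aeval u q * w) := by linear_combination hr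
    rw [hp]
    linear_combination (aeval u q) ^ 2 * heq
  have hN0 : p ^ 2 - p * q * (C W.a₁ * X + C W.a₃) -
      q ^ 2 * (X ^ 3 + C W.a₂ * X ^ 2 + C W.a₄ * X + C W.a₆) = 0 :=
    hinj (by rw [wePhi_apply, hN, map_zero])
  have hdeg := CoordinateRing.degree_norm_smul_basis (W' := W) p q
  rw [CoordinateRing.norm_smul_basis, hN0, degree_zero] at hdeg
  obtain ⟨h1, h2⟩ := max_eq_bot.mp hdeg.symm
  have hp0 : p = 0 := by
    rw [two_nsmul, WithBot.add_eq_bot, or_self] at h1
    exact degree_eq_bot.mp h1
  have hq0 : q = 0 := by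
    rw [WithBot.add_eq_bot] at h2
    rcases h2 with h2 | h2
    · rw [two_nsmul, WithBot.add_eq_bot, or_self] at h2
      exact degree_eq_bot.mp h2
    · exact absurd h2 (by decide)
  rw [hp0, hq0, zero_smul, zero_smul, add_zero]

/-- the substitution homomorphism attached to a point with transcendental `x`-coordinate -/
noncomputable def weSubst {u w : L} (h : (W⁄L).toAffine.Equation u w)
    (hu : Transcendental k u) : weK W →ₐ[k] L :=
  IsFractionRing.liftAlgHom (g := weEvalHom h) (weEvalHom_injective h hu)

theorem weSubst_algebraMap {u w : L} (h : (W⁄L).toAffine.Equation u w)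
    (hu : Transcendental k u) (r : weR W) :
    weSubst h hu (algebraMap (weR W) (weK W) r) = weEvalHom h r := by
  unfold weSubst
  rw [IsFractionRing.liftAlgHom_apply, IsFractionRing.lift_algebraMap]
  rfl

theorem weSubst_x {u w : L} (h : (W⁄L).toAffine.Equation u w) (hu : Transcendental k u) :
    weSubst h hu (weX W) = u := by
  unfold weX
  rw [weSubst_algebraMap, weEvalHom_mk]
  simp [wePhi_apply]

theorem weSubst_y {u w : L} (h : (W⁄L).toAffine.Equation u w) (hu : Transcendental k u) :
    weSubst h hu (weY W) = w := by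
  unfold weY
  rw [weSubst_algebraMap, weEvalHom_mk]
  simp

end Eval

/-! ### the involution -/

/-- the involution `y ↦ -y - a₁x - a₃` of the function field -/
noncomputable def weIota : weK W →ₐ[k] weK W :=
  weSubst (((W⁄(weK W)).toAffine.equation_neg _ _).mpr (we_equation_gen W))
    (weX_transcendental W)

theorem weIota_x : weIota W (weX W) = weX W := weSubst_x _ _

theorem weIota_y : weIota W (weY W) = (W⁄(weK W)).toAffine.negY (weX W) (weY W) := weSubst_y _ _

theorem we_algebraMap_smul_basis (p q : k[X]) :
    algebraMap (weR W) (weK W) (p • (1 : weR W) + q • CoordinateRing.mk W Y) =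
      aeval (weX W) p + aeval (weX W) q * weY W := by
  have e : p • (1 : weR W) + q • CoordinateRing.mk W Y = CoordinateRing.mk W (C p + C q * Y) := by
    rw [CoordinateRing.smul, CoordinateRing.smul, mul_one, map_add, map_mul]
  rw [e, we_algebraMap_mk]
  simp [wePhi_apply]

theorem we_two_torsion_ne [W.IsElliptic] :
    weY W - (W⁄(weK W)).toAffine.negY (weX W) (weY W) ≠ 0 := by
  intro h0
  have e1 : (W⁄(weK W)).toAffine.a₁ = algebraMap k (weK W) W.a₁ := rfl
  have e3 : (W⁄(weK W)).toAffine.a₃ = algebraMap k (weK W) W.a₃ := rfl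
  have hR : (C W.a₁ * X + C W.a₃ : k[X]) • (1 : weR W) + (2 : k[X]) • CoordinateRing.mk W Y = 0 := by
    apply IsFractionRing.injective (weR W) (weK W)
    rw [we_algebraMap_smul_basis, map_zero]
    simp only [Affine.negY, e1, e3] at h0
    simp only [map_add, map_mul, aeval_C, aeval_X, map_ofNat]
    linear_combination h0
  obtain ⟨h1, h2⟩ := CoordinateRing.smul_basis_eq_zero hR
  have ha1 : W.a₁ = 0 := by
    have := congrArg (fun p => p.coeff 1) h1
    simpa using this
  have ha3 : W.a₃ = 0 := by
    have := congrArg (fun p => p.coeff 0) h1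
    simpa using this
  have h2' : (2 : k) = 0 := by
    have := congrArg (fun p => p.coeff 0) h2
    simpa using this
  have hΔ : W.Δ = 0 := by
    simp only [WeierstrassCurve.Δ, WeierstrassCurve.b₂, WeierstrassCurve.b₄, WeierstrassCurve.b₆,
      WeierstrassCurve.b₈, ha1, ha3]
    linear_combination (-8 * W.a₂ ^ 2 * (4 * W.a₂ * W.a₆ - W.a₄ ^ 2) - 32 * W.a₄ ^ 3 -
      216 * W.a₆ ^ 2 + 144 * W.a₂ * W.a₄ * W.a₆) * h2'
  exact W.isUnit_Δ.ne_zero hΔ

theorem we_fixed [W.IsElliptic] (z : weK W) (hz : weIota W z = z) :
    ∃ a b : k[X], b ≠ 0 ∧ z * aeval (weX W) b = aeval (weX W) a := by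
  obtain ⟨r, s, hs, rfl⟩ := IsFractionRing.div_surjective (A := weR W) z
  have hs0 : s ≠ 0 := nonZeroDivisors.ne_zero hs
  have hsK : algebraMap (weR W) (weK W) s ≠ 0 := by
    intro h
    exact hs0 (IsFractionRing.injective (weR W) (weK W) (by rw [h, map_zero]))
  obtain ⟨p₁, q₁, rfl⟩ := CoordinateRing.exists_smul_basis_eq r
  obtain ⟨p₂, q₂, rfl⟩ := CoordinateRing.exists_smul_basis_eq s
  simp only [we_algebraMap_smul_basis] at hz hsK ⊢
  set z := (aeval (weX W) p₁ + aeval (weX W) q₁ * weY W) /
    (aeval (weX W) p₂ + aeval (weX W) q₂ * weY W) with hzdef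
  have E1 : z * (aeval (weX W) p₂ + aeval (weX W) q₂ * weY W) =
      aeval (weX W) p₁ + aeval (weX W) q₁ * weY W := by
    rw [hzdef]
    exact div_mul_cancel₀ _ hsK
  have hι : ∀ p : k[X], weIota W (aeval (weX W) p) = aeval (weX W) p := by
    intro p
    rw [← aeval_algHom_apply, weIota_x]
  have E2 := congrArg (weIota W) E1
  rw [map_mul, hz, map_add, map_add, map_mul, map_mul, hι, hι, hι, hι, weIota_y] at E2
  have hne := we_two_torsion_ne W
  have E3 : z * aeval (weX W) q₂ = aeval (weX W) q₁ := by
    apply mul_right_cancel₀ hne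
    linear_combination E1 - E2
  by_cases hq2 : q₂ = 0
  · refine ⟨p₁, p₂, ?_, ?_⟩
    · intro hp2
      apply hsK
      rw [hp2, hq2, map_zero, zero_mul, add_zero]
    · rw [hq2, map_zero, mul_zero] at E3
      rw [hq2, map_zero, zero_mul, add_zero, ← E3, zero_mul, add_zero] at E1
      exact E1
  · exact ⟨q₁, q₂, hq2, E3⟩

/-- **the function field of an elliptic curve is a model** -/
theorem we_model [W.IsElliptic] : WeModel W (weX W) (weY W) (weIota W) where
  trans := weX_transcendental W
  eqn := we_equation_gen W
  ι_x := weIota_x W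
  ι_y := weIota_y W
  fixed := we_fixed W
  subst := fun _ _ _ _ _ h hu => ⟨weSubst h hu, weSubst_x h hu, weSubst_y h hu⟩
  spec := we_spec W

end Fermat.Agent.WE
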