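import Mathlib
import Fermat.Agent.WE.Para

/-!
# WEIL-E, file CountPoly: polynomial lemmas for the count `deg (Fr - 1) = #W(k)`

* `we_count_deg` : from `n' n = S₀`, `n' d + d' n = S₁`, `d' d = S₂` with
  `deg S₀ = m + 2`, `deg S₁ ≤ m + 1`, `deg S₂ = m` one gets `max (deg n) (deg d) = deg d + 1`.
* `we_count_roots` : if `d' d = v (X ^ q - X) ^ 2` over a finite field with `q` elements then the
  root multiplicities of `d`, `d'` add up to `2` at every `c` and `deg d = ∑ c, mult_c d`.
* `we_card_points` : `#W(k) = 1 + ∑ c, #{y | (c, y) ∈ W}`; `we_fibre_card_*`.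
* `weS0`, `weS1` : the addition-and-subtraction forms at `(X ^ ℓ, X)`, their degrees and values.
-/

set_option autoImplicit false
set_option linter.unusedSectionVars false

namespace Fermat.Agent.WE

open Polynomial WeierstrassCurve WeierstrassCurve.Affine

variable {k : Type*} [Field k]

/-- the degree of `x(P - Q)` from the shape of the addition-and-subtraction relations at
infinity -/
theorem we_count_deg {n d n' d' S0 S1 S2 : k[X]} {m : ℕ} (h0 : n' * n = S0)
    (h1 : n' * d + d' * n = S1) (h2 : d' * d = S2) (hS0 : S0.natDegree = m + 2)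
    (hS1 : S1.natDegree ≤ m + 1) (hS2 : S2.natDegree = m) (hS2' : S2 ≠ 0) :
    weDeg ![n, d] = d.natDegree + 1 := by
  have hS0' : S0 ≠ 0 := by
    intro h
    rw [h, natDegree_zero] at hS0
    omega
  have hn' : n' ≠ 0 := fun h => hS0' (by rw [← h0, h, zero_mul])
  have hn : n ≠ 0 := fun h => hS0' (by rw [← h0, h, mul_zero])
  have hd' : d' ≠ 0 := fun h => hS2' (by rw [← h2, h, zero_mul])
  have hd : d ≠ 0 := fun h => hS2' (by rw [← h2, h, mul_zero])
  have e0 : n'.natDegree + n.natDegree = m + 2 := by rw [← natDegree_mul hn' hn, h0, hS0]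
  have e2 : d'.natDegree + d.natDegree = m := by rw [← natDegree_mul hd' hd, h2, hS2]
  have key : n.natDegree = d.natDegree + 1 := by
    by_contra hne
    rcases Nat.lt_or_gt_of_ne hne with hlt | hgt
    · -- deg (n' d) > deg (d' n)
      have hlt' : (d' * n).natDegree < (n' * d).natDegree := by
        rw [natDegree_mul hd' hn, natDegree_mul hn' hd]
        omega
      have := natDegree_add_eq_left_of_natDegree_lt hlt'
      rw [h1, natDegree_mul hn' hd] at this
      omega
    · have hlt' : (n' * d).natDegree < (d' * n).natDegree := by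
        rw [natDegree_mul hd' hn, natDegree_mul hn' hd]
        omega
      have := natDegree_add_eq_right_of_natDegree_lt hlt'
      rw [h1, natDegree_mul hd' hn] at this
      omega
  rw [we_deg_two, key]
  omega


/-- the fibre of the `x`-coordinate over `c` -/
theorem we_fibre_eq (W : WeierstrassCurve k) {c y₀ : k} (h : W.toAffine.Equation c y₀) :
    {y₁ : k | W.toAffine.Equation c y₁} = {y₀, W.toAffine.negY c y₀} := by
  ext y₁
  simp only [Set.mem_ofPred_eq, Set.mem_insert_iff, Set.mem_singleton_iff]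
  constructor
  · intro h₁
    exact Affine.Y_eq_of_X_eq h₁ h rfl
  · rintro (rfl | rfl)
    · exact h
    · exact (Affine.equation_neg c y₀).mpr h

theorem we_fibre_card_two (W : WeierstrassCurve k) {c y₀ : k} (h : W.toAffine.Equation c y₀)
    (hne : y₀ ≠ W.toAffine.negY c y₀) : Set.ncard {y₁ : k | W.toAffine.Equation c y₁} = 2 := by
  rw [we_fibre_eq W h, Set.ncard_pair hne]

theorem we_fibre_card_one (W : WeierstrassCurve k) {c y₀ : k} (h : W.toAffine.Equation c y₀)
    (heq : y₀ = W.toAffine.negY c y₀) : Set.ncard {y₁ : k | W.toAffine.Equation c y₁} = 1 := by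
  rw [we_fibre_eq W h, ← heq, Set.pair_eq_singleton, Set.ncard_singleton]

theorem we_fibre_card_zero (W : WeierstrassCurve k) {c : k}
    (h : ∀ y₀ : k, ¬ W.toAffine.Equation c y₀) :
    Set.ncard {y₁ : k | W.toAffine.Equation c y₁} = 0 := by
  have : {y₁ : k | W.toAffine.Equation c y₁} = ∅ := by
    ext y₁
    simp [h y₁]
  rw [this, Set.ncard_empty]

/-! ### the addition-and-subtraction forms for `Fr P` and `P` -/

section Forms

variable (W : WeierstrassCurve k) (ℓ : ℕ)

/-- the numerator of `x(Fr P + P) x(Fr P - P)` -/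
noncomputable def weS0 : k[X] :=
  (X ^ ℓ * X) ^ 2 - C W.b₄ * (X ^ ℓ * X) - C W.b₆ * (X ^ ℓ + X) - C W.b₈

/-- the numerator of `x(Fr P + P) + x(Fr P - P)` -/
noncomputable def weS1 : k[X] :=
  2 * (X ^ ℓ + X) * (X ^ ℓ * X) + C W.b₂ * (X ^ ℓ * X) + C W.b₄ * (X ^ ℓ + X) + C W.b₆

theorem we_addSub_frob (j : Fin 3) :
    weAddSub W (weSym ![X ^ ℓ, 1 ^ ℓ] ![X, 1]) j = ![weS0 W ℓ, weS1 W ℓ, (X ^ ℓ - X) ^ 2] j := by
  rw [we_addSub_apply]
  unfold weSym weS0 weS1
  fin_cases j
  · simp only [Fin.zero_eta, Fin.isValue, Matrix.cons_val_zero, Matrix.cons_val_one,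
      Matrix.cons_val]
    ring
  · simp only [Fin.mk_one, Fin.isValue, Matrix.cons_val_zero, Matrix.cons_val_one,
      Matrix.cons_val]
    ring
  · simp only [Fin.reduceFinMk, Fin.isValue, Matrix.cons_val_zero, Matrix.cons_val_one,
      Matrix.cons_val]
    ring

theorem we_S0_natDegree (hℓ : 2 ≤ ℓ) : (weS0 W ℓ).natDegree = 2 * ℓ + 2 := by
  have e : weS0 W ℓ = X ^ (2 * ℓ + 2) -
      (C W.b₄ * (X ^ ℓ * X) + C W.b₆ * (X ^ ℓ + X) + C W.b₈) := by
    unfold weS0
    ring
  have hR : (C W.b₄ * (X ^ ℓ * X) + C W.b₆ * (X ^ ℓ + X) + C W.b₈ : k[X]).natDegree ≤ ℓ + 1 := by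
    compute_degree
  rw [e, natDegree_sub_eq_left_of_natDegree_lt, natDegree_X_pow]
  rw [natDegree_X_pow]
  omega

theorem we_S1_natDegree (hℓ : 2 ≤ ℓ) : (weS1 W ℓ).natDegree ≤ 2 * ℓ + 1 := by
  unfold weS1
  compute_degree
  rw [max_eq_left (by omega)]
  omega

theorem we_S2_natDegree (hℓ : 2 ≤ ℓ) : ((X ^ ℓ - X : k[X]) ^ 2).natDegree = 2 * ℓ := by
  have h1 : (X ^ ℓ - X : k[X]).natDegree = ℓ := by
    rw [natDegree_sub_eq_left_of_natDegree_lt, natDegree_X_pow]
    rw [natDegree_X_pow, natDegree_X]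
    omega
  rw [natDegree_pow, h1]

theorem we_S0_eval {c : k} (hc : c ^ ℓ = c) :
    (weS0 W ℓ).eval c = c ^ 4 - W.b₄ * c ^ 2 - 2 * W.b₆ * c - W.b₈ := by
  unfold weS0
  simp only [eval_sub, eval_mul, eval_pow, eval_X, eval_C, eval_add, hc]
  ring

theorem we_S1_eval {c : k} (hc : c ^ ℓ = c) :
    (weS1 W ℓ).eval c = 4 * c ^ 3 + W.b₂ * c ^ 2 + 2 * W.b₄ * c + W.b₆ := by
  unfold weS1
  simp only [eval_add, eval_mul, eval_pow, eval_X, eval_C, eval_ofNat, hc]
  ring

theorem we_S_nondeg [W.IsElliptic] {c : k} (hc : c ^ ℓ = c) :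
    (weS0 W ℓ).eval c ≠ 0 ∨ (weS1 W ℓ).eval c ≠ 0 := by
  by_contra hcon
  simp only [not_or, not_not] at hcon
  obtain ⟨h0, h1⟩ := hcon
  rw [we_S0_eval W ℓ hc] at h0
  rw [we_S1_eval W ℓ hc] at h1
  have hx : (![c * c, c + c, 1] : Fin 3 → k) ≠ 0 := by
    intro h
    have := congrFun h 2
    simp at this
  apply W.addSubMap_ne_zero hx
  funext i
  rw [we_addSubMap_eval]
  fin_cases i
  · simp only [Fin.zero_eta, Fin.isValue, Matrix.cons_val_zero, Pi.zero_apply]
    linear_combination h0
  · simp only [Fin.mk_one, Fin.isValue, Matrix.cons_val_one, Matrix.cons_val_zero, Pi.zero_apply]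
    linear_combination h1
  · simp only [Fin.reduceFinMk, Matrix.cons_val, Pi.zero_apply]
    ring

/-- the two-torsion polynomial as a square on the curve -/
theorem we_S1_curve {L : Type*} [Field L] [Algebra k L] {c : k} {y₁ : L}
    (h : (W⁄L).toAffine.Equation (algebraMap k L c) y₁) :
    algebraMap k L (4 * c ^ 3 + W.b₂ * c ^ 2 + 2 * W.b₄ * c + W.b₆) =
      (y₁ - (W⁄L).toAffine.negY (algebraMap k L c) y₁) ^ 2 := by
  have heq := ((W⁄L).toAffine.equation_iff _ _).mp h
  have e1 : (W⁄L).toAffine.a₁ = algebraMap k L W.a₁ := rfl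
  have e2 : (W⁄L).toAffine.a₂ = algebraMap k L W.a₂ := rfl
  have e3 : (W⁄L).toAffine.a₃ = algebraMap k L W.a₃ := rfl
  have e4 : (W⁄L).toAffine.a₄ = algebraMap k L W.a₄ := rfl
  have e6 : (W⁄L).toAffine.a₆ = algebraMap k L W.a₆ := rfl
  rw [e1, e2, e3, e4, e6] at heq
  simp only [Affine.negY, e1, e3, WeierstrassCurve.b₂, WeierstrassCurve.b₄, WeierstrassCurve.b₆,
    map_add, map_mul, map_pow, map_ofNat]
  linear_combination -4 * heq

end Forms

section Finite

variable [Fintype k]

theorem we_frob_ne_zero : (X ^ Fintype.card k - X : k[X]) ≠ 0 :=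
  FiniteField.X_pow_card_sub_X_ne_zero k Fintype.one_lt_card

theorem we_frob_splits : (X ^ Fintype.card k - X : k[X]).Splits := by
  rw [splits_iff_card_roots, FiniteField.roots_X_pow_card_sub_X,
    FiniteField.X_pow_card_sub_X_natDegree_eq k Fintype.one_lt_card]
  rfl

/-- the denominators of `x(P - Q)` and `x(P + Q)` split, with multiplicities adding up to two -/
theorem we_count_roots [DecidableEq k] {d d' : k[X]} {v : k} (hv : v ≠ 0)
    (h2 : d' * d = C v * (X ^ Fintype.card k - X) ^ 2) :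
    (∀ c : k, rootMultiplicity c d + rootMultiplicity c d' = 2) ∧
      d.natDegree = ∑ c : k, rootMultiplicity c d := by
  have hne : C v * (X ^ Fintype.card k - X : k[X]) ^ 2 ≠ 0 :=
    mul_ne_zero (C_ne_zero.mpr hv) (pow_ne_zero _ we_frob_ne_zero)
  have hne' : d' * d ≠ 0 := by rw [h2]; exact hne
  have hd : d ≠ 0 := right_ne_zero_of_mul hne'
  have hroots : d'.roots + d.roots = 2 • (Finset.univ : Finset k).val := by
    rw [← roots_mul hne', h2, roots_C_mul _ hv, roots_pow, FiniteField.roots_X_pow_card_sub_X]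
  refine ⟨fun c => ?_, ?_⟩
  · have := congrArg (Multiset.count c) hroots
    rw [Multiset.count_add, count_roots, count_roots, Multiset.count_nsmul,
      Multiset.count_eq_one_of_mem Finset.univ.nodup (Finset.mem_univ_val c)] at this
    omega
  · have hsplit : d.Splits := by
      refine Splits.of_dvd ((we_frob_splits.pow 2).C_mul v) hne ?_
      rw [← h2]
      exact dvd_mul_left d d'
    rw [hsplit.natDegree_eq_card_roots, ← Multiset.toFinset_sum_count_eq]
    rw [Finset.sum_subset (Finset.subset_univ _)]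
    · exact Finset.sum_congr rfl fun c _ => count_roots d
    · intro c _ hc
      exact Multiset.count_eq_zero.mpr (fun h => hc (Multiset.mem_toFinset.mpr h))

/-- the number of points as a sum over the `x`-coordinates -/
theorem we_card_points (W : WeierstrassCurve k) [W.IsElliptic] :
    Nat.card W.toAffine.Point =
      1 + ∑ c : k, Set.ncard {y₀ : k | W.toAffine.Equation c y₀} := by
  classical
  have e1 := Nat.card_congr (pointEquiv W.toAffine)
  have e2 : Nat.card (WithZero {xy : k × k // W.toAffine.Equation xy.fst xy.snd}) =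
      Nat.card {xy : k × k // W.toAffine.Equation xy.fst xy.snd} + 1 := by
    have : Nat.card (Option {xy : k × k // W.toAffine.Equation xy.fst xy.snd}) =
        Nat.card {xy : k × k // W.toAffine.Equation xy.fst xy.snd} + 1 := by
      rw [Nat.card_eq_fintype_card, Nat.card_eq_fintype_card]
      exact Fintype.card_option
    exact this
  have e3 := Nat.card_congr (Equiv.subtypeProdEquivSigmaSubtype
    (fun (c y₀ : k) => W.toAffine.Equation c y₀))
  rw [e1, e2, e3, Nat.card_sigma, add_comm]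
  rfl

end Finite

end Fermat.Agent.WE
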