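import Mathlib
import Fermat.Agent.WE.Model
import Fermat.Agent.WE.CountPoly

/-!
# WEIL-E, file Count: Manin's lemma `deg (Fr - 1) = #W(k)`

`k` a finite field with `ℓ` elements (`ℓ` prime), `h : WeModel W x y ι`.  Write
`x(Fr P - P) = n / d`, `x(Fr P + P) = n' / d'` in lowest terms.  The addition-and-subtraction
relations (`we_para_prop`) give `n' n = S₀`, `n' d + d' n = S₁`, `d' d = (X ^ ℓ - X) ^ 2` up to a
constant, hence `deg (Fr - 1) = deg d + 1` (`we_count_deg`), `d` splits and
`mult_c d + mult_c d' = 2` (`we_count_roots`).  Specialising the identity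
`n (x ^ ℓ - x) ^ 2 = d N(x, y)` at the points of the fibre over `c ∈ k` (`we_spec_den`) shows that
`mult_c d` is the number of `k`-points over `c` (`we_count_fibre`).
-/

set_option autoImplicit false
set_option linter.unusedSectionVars false

namespace Fermat.Agent.WE

open Polynomial WeierstrassCurve WeierstrassCurve.Affine
open scoped Polynomial.Bivariate

universe u v

variable {k : Type u} [Field k] {W : WeierstrassCurve k}

/-- the bivariate polynomial expressing `n / d = x(Fr P ± P)`; `Y₂` is `Y` for `+` and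
`-Y - a₁X - a₃` for `-`. -/
noncomputable def weG (W : WeierstrassCurve k) (ℓ : ℕ) (n d : k[X]) (Y₂ : k[X][Y]) : k[X][Y] :=
  C n * C (X ^ ℓ - X) ^ 2 -
    C d * ((Y ^ ℓ - Y₂) ^ 2 + C (C W.a₁) * C (X ^ ℓ - X) * (Y ^ ℓ - Y₂) -
      C (C W.a₂ + X ^ ℓ + X) * C (X ^ ℓ - X) ^ 2)

theorem we_G_eval {L : Type*} [Field L] [Algebra k L] (ℓ : ℕ) (n d : k[X]) (Y₂ : k[X][Y])
    (u w : L) :
    eval₂ (wePhi u) w (weG W ℓ n d Y₂) = aeval u n * (u ^ ℓ - u) ^ 2 -
      aeval u d * weNum (W⁄L).toAffine (u ^ ℓ) u (w ^ ℓ) (eval₂ (wePhi u) w Y₂) := by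
  have e1 : (W⁄L).toAffine.a₁ = algebraMap k L W.a₁ := rfl
  have e2 : (W⁄L).toAffine.a₂ = algebraMap k L W.a₂ := rfl
  unfold weG weNum
  simp only [eval₂_sub, eval₂_mul, eval₂_pow, eval₂_C, eval₂_X, eval₂_add, wePhi_apply, map_sub,
    map_pow, aeval_X, map_add, aeval_C, e1, e2]

/-- the two choices of `Y₂` -/
theorem we_Y₂_plus {L : Type*} [Field L] [Algebra k L] (u w : L) :
    eval₂ (wePhi (k := k) u) w (Y : k[X][Y]) = w := eval₂_X _ _

theorem we_Y₂_minus {L : Type*} [Field L] [Algebra k L] (u w : L) :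
    eval₂ (wePhi u) w (-(Y : k[X][Y]) - C (C W.a₁ * X + C W.a₃)) = (W⁄L).toAffine.negY u w := by
  have e1 : (W⁄L).toAffine.a₁ = algebraMap k L W.a₁ := rfl
  have e3 : (W⁄L).toAffine.a₃ = algebraMap k L W.a₃ := rfl
  rw [eval₂_sub, eval₂_neg, eval₂_X, eval₂_C]
  simp only [wePhi_apply, map_add, map_mul, aeval_C, aeval_X, Affine.negY, e1, e3]
  ring


/-! ### the fibre over `c` -/

section Fibre

variable [Fintype k] (W)
variable [W.IsElliptic] (ℓ : ℕ) [Fact ℓ.Prime] [CharP k ℓ]

theorem we_baseChange_self_equation (c y₀ : k) :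
    (W⁄k).toAffine.Equation c y₀ ↔ W.toAffine.Equation c y₀ := Iff.rfl

/-- an element of an extension fixed by Frobenius lies in `k` -/
theorem we_mem_range_of_frob (hcard : Fintype.card k = ℓ) {L : Type*} [Field L] [Algebra k L]
    {z : L} (hz : z ^ ℓ = z) : ∃ a : k, algebraMap k L a = z := by
  have hsp : (X ^ Fintype.card k - X : k[X]).Splits := we_frob_splits
  have hroot : ((X ^ Fintype.card k - X : k[X]).map (algebraMap k L)).IsRoot z := by
    rw [hcard]
    simp [hz]
  exact hsp.mem_range_of_isRoot we_frob_ne_zero hroot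

/-- the multiplicity of `c` in the denominator of `x(Fr P - P)` is the number of points of the
fibre -/
theorem we_count_fibre (hcard : Fintype.card k = ℓ) (c : k) {N N' D D' : k} {m m' : ℕ}
    (hm : m + m' = 2) (hmD : 0 < m ↔ D = 0) (hmD' : 0 < m' ↔ D' = 0)
    (E0 : N' * N = (weS0 W ℓ).eval c) (E1 : N' * D + D' * N = (weS1 W ℓ).eval c)
    (E2 : D' * D = 0)
    (SpP : ∀ (L : Type u) [Field L] [Algebra k L] (w : L),
      (W⁄L).toAffine.Equation (algebraMap k L c) w → algebraMap k L D' * (w ^ ℓ - w) ^ 2 = 0)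
    (SpM : ∀ (L : Type u) [Field L] [Algebra k L] (w : L),
      (W⁄L).toAffine.Equation (algebraMap k L c) w →
        algebraMap k L D * (w ^ ℓ - (W⁄L).toAffine.negY (algebraMap k L c) w) ^ 2 = 0) :
    m = Set.ncard {y₀ : k | W.toAffine.Equation c y₀} := by
  have hk : ∀ a : k, a ^ ℓ = a := fun a => by rw [← hcard]; exact FiniteField.pow_card a
  have hc : c ^ ℓ = c := hk c
  by_cases hex : ∃ y₀ : k, W.toAffine.Equation c y₀
  · obtain ⟨y₀, hy₀⟩ := hex
    have hS1 := we_S1_curve W (L := k) (c := c) (y₁ := y₀) hy₀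
    simp only [Algebra.algebraMap_self, RingHom.id_apply] at hS1
    have hneg : (W⁄k).toAffine.negY c y₀ = W.toAffine.negY c y₀ := rfl
    rw [hneg, ← we_S1_eval W ℓ hc] at hS1
    by_cases hne : y₀ = W.toAffine.negY c y₀
    · -- one point
      rw [we_fibre_card_one W hy₀ hne]
      have hS1' : (weS1 W ℓ).eval c = 0 := by rw [hS1, ← hne, sub_self]; ring
      have hS0 : (weS0 W ℓ).eval c ≠ 0 := (we_S_nondeg W ℓ hc).resolve_right (not_not.mpr hS1')
      rw [← E0] at hS0
      have hN' : N' ≠ 0 := left_ne_zero_of_mul hS0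
      have hN : N ≠ 0 := right_ne_zero_of_mul hS0
      rw [hS1'] at E1
      have hD : D = 0 := by
        rcases mul_eq_zero.mp E2 with h | h
        · rw [h, zero_mul, add_zero] at E1
          exact (mul_eq_zero.mp E1).resolve_left hN'
        · exact h
      have hD' : D' = 0 := by
        rw [hD, mul_zero, zero_add] at E1
        exact (mul_eq_zero.mp E1).resolve_right hN
      have := hmD.mpr hD
      have := hmD'.mpr hD'
      omega
    · -- two points
      rw [we_fibre_card_two W hy₀ hne]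
      have hsub : y₀ - W.toAffine.negY c y₀ ≠ 0 := sub_ne_zero.mpr hne
      have hS1' : (weS1 W ℓ).eval c ≠ 0 := by rw [hS1]; exact pow_ne_zero 2 hsub
      have hD : D = 0 := by
        have := SpM k y₀ hy₀
        simp only [Algebra.algebraMap_self, RingHom.id_apply] at this
        rw [hk y₀, hneg] at this
        exact (mul_eq_zero.mp this).resolve_right (pow_ne_zero 2 hsub)
      have hD' : D' ≠ 0 := by
        intro h0
        rw [hD, h0, mul_zero, zero_mul, add_zero] at E1
        exact hS1' E1.symm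
      have h1 := hmD.mpr hD
      have h2 : ¬ 0 < m' := fun h => hD' (hmD'.mp h)
      omega
  · -- no point
    have hno : ∀ y₀ : k, ¬ W.toAffine.Equation c y₀ := fun y₀ h => hex ⟨y₀, h⟩
    rw [we_fibre_card_zero W hno]
    let L := AlgebraicClosure k
    have e1 : (W⁄L).toAffine.a₁ = algebraMap k L W.a₁ := rfl
    have e2 : (W⁄L).toAffine.a₂ = algebraMap k L W.a₂ := rfl
    have e3 : (W⁄L).toAffine.a₃ = algebraMap k L W.a₃ := rfl
    have e4 : (W⁄L).toAffine.a₄ = algebraMap k L W.a₄ := rfl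
    have e6 : (W⁄L).toAffine.a₆ = algebraMap k L W.a₆ := rfl
    -- a point over `c` with coordinates in the algebraic closure
    obtain ⟨y₁, hy₁⟩ : ∃ y₁ : L, (W⁄L).toAffine.Equation (algebraMap k L c) y₁ := by
      obtain ⟨y₁, hroot⟩ := IsAlgClosed.exists_root
        (C (1 : L) * X ^ 2 + C (algebraMap k L (W.a₁ * c + W.a₃)) * X +
          C (-(algebraMap k L (c ^ 3 + W.a₂ * c ^ 2 + W.a₄ * c + W.a₆))))
        (by rw [degree_quadratic one_ne_zero]; decide)
      refine ⟨y₁, ?_⟩
      rw [Affine.equation_iff, e1, e2, e3, e4, e6]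
      simp only [IsRoot.def, eval_add, eval_mul, eval_C, eval_pow, eval_X, map_add, map_mul,
        map_pow] at hroot
      linear_combination hroot
    -- `y₁` is not fixed by Frobenius
    have hfrob : y₁ ^ ℓ ≠ y₁ := by
      intro hz
      obtain ⟨a, ha⟩ := we_mem_range_of_frob ℓ hcard hz
      apply hno a
      rw [← ha] at hy₁
      exact (Affine.baseChange_equation (W := W) (f := Algebra.ofId k L)
        (algebraMap k L).injective c a).mp hy₁
    -- the Frobenius conjugate is the other point of the fibre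
    have hy₁' : (W⁄L).toAffine.Equation (algebraMap k L c) (y₁ ^ ℓ) := by
      have hcp : CharP L ℓ := charP_of_injective_algebraMap (algebraMap k L).injective ℓ
      have hfix : ∀ a : k, algebraMap k L a ^ ℓ = algebraMap k L a := fun a => by
        rw [← map_pow, hk]
      have heq := (Affine.equation_iff _ _).mp hy₁
      rw [e1, e2, e3, e4, e6] at heq
      have := congrArg (frobenius L ℓ) heq
      simp only [map_add, map_mul, map_pow, frobenius_def, hfix] at this
      rw [Affine.equation_iff, e1, e2, e3, e4, e6]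
      linear_combination this
    have hconj : y₁ ^ ℓ = (W⁄L).toAffine.negY (algebraMap k L c) y₁ :=
      (Affine.Y_eq_of_X_eq hy₁' hy₁ rfl).resolve_left hfrob
    -- the denominator of `x(Fr P + P)` vanishes at `c`
    have hD' : D' = 0 := by
      have := SpP L y₁ hy₁
      have hsub : (y₁ ^ ℓ - y₁) ^ 2 ≠ 0 := pow_ne_zero 2 (sub_ne_zero.mpr hfrob)
      exact (map_eq_zero (algebraMap k L)).mp ((mul_eq_zero.mp this).resolve_right hsub)
    -- and the two-torsion polynomial does not
    have hS1 : (weS1 W ℓ).eval c ≠ 0 := by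
      intro h0
      have := we_S1_curve W hy₁
      rw [← we_S1_eval W ℓ hc, h0, map_zero, ← hconj] at this
      have h2 : y₁ - y₁ ^ ℓ = 0 := (pow_eq_zero_iff two_ne_zero).mp this.symm
      exact hfrob (sub_eq_zero.mp h2).symm
    have hD : D ≠ 0 := by
      intro h0
      rw [h0, hD', mul_zero, zero_mul, add_zero] at E1
      exact hS1 E1.symm
    have : ¬ 0 < m := fun h => hD (hmD.mp h)
    omega

end Fibre

section Model

variable {K : Type v} [Field K] [Algebra k K] [DecidableEq K] {x y : K} {ι : K →ₐ[k] K}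
variable [W.IsElliptic] (ℓ : ℕ) [Fact ℓ.Prime] (hk : ∀ a : k, a ^ ℓ = a) [CharP K ℓ]

theorem we_spec_point (h : WeModel W x y ι) {G : k[X][Y]} (hG : eval₂ (wePhi x) y G = 0)
    {L : Type*} [Field L] [Algebra k L] {u w : L} (huw : (W⁄L).toAffine.Equation u w) :
    eval₂ (wePhi u) w G = 0 := by
  obtain ⟨H, rfl⟩ := h.spec G hG
  rw [eval₂_mul, (we_equation_iff W u w).mp huw, zero_mul]

theorem we_frob_ne (h : WeModel W x y ι) : x ^ ℓ ≠ x := by
  have hℓ : 2 ≤ ℓ := (Fact.out : ℓ.Prime).two_le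
  intro heq
  have h0 : (X ^ ℓ - X : k[X]) = 0 := by
    apply wePhi_injective h.trans
    rw [wePhi_apply, map_sub, map_pow, aeval_X, heq, sub_self, map_zero]
  have := we_S2_natDegree (k := k) ℓ hℓ
  rw [h0] at this
  simp at this
  omega

/-- the `x`-coordinate of `Fr P + (x, T)` in terms of a representative -/
theorem we_frob_add_rep (h : WeModel W x y ι) {T : K} (hT : (W⁄K).toAffine.Nonsingular x T)
    {r : Fin 2 → k[X]}
    (hr : WeRep (wePhi x) (weFr ℓ hk K (weGen h) + Point.some x T hT) r) :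
    aeval x (r 0) * (x ^ ℓ - x) ^ 2 =
      aeval x (r 1) * weNum (W⁄K).toAffine (x ^ ℓ) x (y ^ ℓ) T := by
  have hne := we_frob_ne ℓ h
  obtain ⟨hns', e⟩ := weFr_some ℓ hk ((Affine.equation_iff_nonsingular).mp h.eqn)
  have e' : weFr ℓ hk K (weGen h) = Point.some (x ^ ℓ) (y ^ ℓ) hns' := e
  obtain ⟨-, c, hc, hcr⟩ := hr
  rw [e', Point.add_of_X_ne hne, Point.xRep_some] at hcr
  have h0 := hcr 0
  have h1 := hcr 1
  simp only [Fin.isValue, Matrix.cons_val_zero, Matrix.cons_val_one, mul_one, wePhi_apply]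
    at h0 h1
  rw [we_addX_of_ne _ _ _ hne] at h0
  have hd : (x ^ ℓ - x) ^ 2 ≠ 0 := pow_ne_zero 2 (sub_ne_zero.mpr hne)
  rw [h0, h1]
  field_simp

/-- specialisation of the denominator of `x(Fr P + (x, T))` at a point over `c ∈ k` -/
theorem we_spec_den (h : WeModel W x y ι) {T : K} (hT : (W⁄K).toAffine.Nonsingular x T)
    {r : Fin 2 → k[X]}
    (hr : WeRep (wePhi x) (weFr ℓ hk K (weGen h) + Point.some x T hT) r) (Y₂ : k[X][Y])
    (hY₂ : eval₂ (wePhi x) y Y₂ = T) {L : Type*} [Field L] [Algebra k L] (c : k) {w : L}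
    (hcw : (W⁄L).toAffine.Equation (algebraMap k L c) w) :
    algebraMap k L ((r 1).eval c) * (w ^ ℓ - eval₂ (wePhi (algebraMap k L c)) w Y₂) ^ 2 = 0 := by
  have hG : eval₂ (wePhi x) y (weG W ℓ (r 0) (r 1) Y₂) = 0 := by
    rw [we_G_eval, hY₂, we_frob_add_rep ℓ hk h hT hr, sub_self]
  have := we_spec_point h hG hcw
  rw [we_G_eval, ← map_pow, hk, sub_self] at this
  simp only [weNum, sub_self, ne_eq, OfNat.ofNat_ne_zero, not_false_eq_true, zero_pow, mul_zero,
    zero_sub, add_zero, zero_mul, sub_zero, neg_eq_zero] at this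
  rw [aeval_algebraMap_apply_eq_algebraMap_eval] at this
  exact this

end Model

section Count

variable {K : Type u} [Field K] [Algebra k K] [DecidableEq K] {x y : K} {ι : K →ₐ[k] K}
variable [W.IsElliptic] (ℓ : ℕ) [Fact ℓ.Prime] (hk : ∀ a : k, a ^ ℓ = a) [CharP K ℓ] [CharP k ℓ]

/-- **Manin's lemma**: `deg (Fr - 1) = #W(k)` -/
theorem we_count (h : WeModel W x y ι) [Fintype k]
    (hcard : Fintype.card k = ℓ) :
    weQ h ⟨weOp ℓ hk K 0 1 (-1) (weGen h), weOp_mem ℓ hk 0 1 (-1) (weGen_mem h)⟩ =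
      Nat.card W.toAffine.Point := by
  classical
  have hℓ : 2 ≤ ℓ := (Fact.out : ℓ.Prime).two_le
  have hns : (W⁄K).toAffine.Nonsingular x y := (Affine.equation_iff_nonsingular).mp h.eqn
  have hns' : (W⁄K).toAffine.Nonsingular x ((W⁄K).toAffine.negY x y) :=
    (Affine.nonsingular_neg x y).mpr hns
  have hgen : weGen h = Point.some x y hns := rfl
  have hneg : -weGen h = Point.some x ((W⁄K).toAffine.negY x y) hns' := rfl
  have hPmem : weFr ℓ hk K (weGen h) ∈ weM W ι := weFr_mem ℓ hk (weGen_mem h)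
  have hplus : weFr ℓ hk K (weGen h) + weGen h ∈ weM W ι := add_mem hPmem (weGen_mem h)
  have hminus : weFr ℓ hk K (weGen h) - weGen h ∈ weM W ι := sub_mem hPmem (weGen_mem h)
  obtain ⟨r, hr⟩ := we_exists_rep h hplus
  obtain ⟨r', hr'⟩ := we_exists_rep h hminus
  have hP : WeRep (wePhi x) (weFr ℓ hk K (weGen h)) ![(X : k[X]) ^ ℓ, (1 : k[X]) ^ ℓ] := by
    have := weFr_rep ℓ hk (weGen_rep h)
    simpa only [Fin.isValue, Matrix.cons_val_zero, Matrix.cons_val_one] using this
  obtain ⟨u, hu, hrel⟩ := we_para_prop (wePhi_injective h.trans) (we_curve_eq W x) hP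
    (weGen_rep h) hr hr'
  have hr2 : r = ![r 0, r 1] := by
    ext i
    fin_cases i <;> rfl
  have hr2' : r' = ![r' 0, r' 1] := by
    ext i
    fin_cases i <;> rfl
  -- the three relations
  have R0 : (C u * r 0) * r' 0 = weS0 W ℓ := by
    have := hrel 0
    rw [we_addSub_frob] at this
    simp only [weSym, Fin.isValue, Matrix.cons_val_zero] at this
    rw [this]
    ring
  have R1 : (C u * r 0) * r' 1 + (C u * r 1) * r' 0 = weS1 W ℓ := by
    have := hrel 1
    rw [we_addSub_frob] at this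
    simp only [weSym, Fin.isValue, Matrix.cons_val_one, Matrix.cons_val_zero] at this
    rw [this]
    ring
  have R2 : (C u * r 1) * r' 1 = (X ^ ℓ - X) ^ 2 := by
    have := hrel 2
    rw [we_addSub_frob] at this
    simp only [weSym, Fin.isValue, Matrix.cons_val] at this
    rw [this]
    ring
  -- the degree
  have hS2ne : ((X ^ ℓ - X : k[X]) ^ 2) ≠ 0 := by
    intro h0
    have := we_S2_natDegree (k := k) ℓ hℓ
    rw [h0, natDegree_zero] at this
    omega
  have hdeg : weDeg ![r' 0, r' 1] = (r' 1).natDegree + 1 :=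
    we_count_deg R0 R1 R2 (we_S0_natDegree W ℓ hℓ) (we_S1_natDegree W ℓ hℓ)
      (we_S2_natDegree ℓ hℓ) hS2ne
  have R2' : (C u * r 1) * r' 1 = C (1 : k) * (X ^ Fintype.card k - X) ^ 2 := by
    rw [R2, hcard, C_1, one_mul]
  obtain ⟨hmult, hsum⟩ := we_count_roots one_ne_zero R2'
  have hd0 : r' 1 ≠ 0 := fun h0 => hS2ne (by rw [← R2, h0, mul_zero])
  have hd0' : C u * r 1 ≠ 0 := fun h0 => hS2ne (by rw [← R2, h0, zero_mul])
  -- the fibres
  have hfib : ∀ c : k, rootMultiplicity c (r' 1) =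
      Set.ncard {y₀ : k | W.toAffine.Equation c y₀} := by
    intro c
    have hc : c ^ ℓ = c := hk c
    refine we_count_fibre W ℓ hcard c (N := (r' 0).eval c) (N' := (C u * r 0).eval c)
      (D := (r' 1).eval c) (D' := (C u * r 1).eval c) (hmult c)
      (rootMultiplicity_pos hd0) (rootMultiplicity_pos hd0') ?_ ?_ ?_ ?_ ?_
    · rw [← eval_mul, R0]
    · rw [← eval_mul, ← eval_mul, ← eval_add, R1]
    · rw [← eval_mul, R2]
      simp [hc]
    · intro L _ _ w hw
      have := we_spec_den ℓ hk h hns (r := r) (by rw [← hgen]; exact hr) Y (we_Y₂_plus x y) c hw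
      rw [we_Y₂_plus] at this
      rw [eval_mul, eval_C, map_mul, mul_assoc, this, mul_zero]
    · intro L _ _ w hw
      have := we_spec_den ℓ hk h hns' (r := r') (by rw [← hneg, ← sub_eq_add_neg]; exact hr')
        (-(Y : k[X][Y]) - C (C W.a₁ * X + C W.a₃)) (we_Y₂_minus x y) c hw
      rw [we_Y₂_minus] at this
      exact this
  -- assembling
  have hq : weQ h ⟨weOp ℓ hk K 0 1 (-1) (weGen h), weOp_mem ℓ hk 0 1 (-1) (weGen_mem h)⟩ =
      weDeg r' := by
    apply weQ_eq h
    show WeRep (wePhi x) (weOp ℓ hk K 0 1 (-1) (weGen h)) r'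
    have e : weOp ℓ hk K 0 1 (-1) (weGen h) = weFr ℓ hk K (weGen h) - weGen h := by
      rw [weOp_apply]
      simp [sub_eq_add_neg]
    rw [e]
    exact hr'
  rw [hq, hr2', hdeg, hsum, we_card_points W, Finset.sum_congr rfl fun c _ => hfib c]
  push_cast
  ring

end Count

end Fermat.Agent.WE
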