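import Mathlib
import Fermat.Agent.WE.Model

/-!
# WEIL-E, file Trans: from the generic point to all algebraic points

`we_transfer` : if the operator `c₂ Fr² + c₁ Fr + c₀` kills the generic point of a model `K`
then it kills every point of `W` over every algebraic extension `L` of `k`.  Proof (translation
trick): inside `Ω = AlgebraicClosure K` the point `P_gen + P₀` is again generic (the points with
algebraic coordinates form a subgroup, `weAlgPts`), so it is the image of `P_gen` under a
substitution `K → Ω`, which commutes with the operator.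
-/

set_option autoImplicit false
set_option linter.unusedSectionVars false

namespace Fermat.Agent.WE

open Polynomial WeierstrassCurve WeierstrassCurve.Affine
open scoped Polynomial.Bivariate

universe u v

variable {k : Type u} [Field k] {W : WeierstrassCurve k} [W.IsElliptic]

theorem we_monic_quad {A : Type*} [CommRing A] [Nontrivial A] (b c : A) :
    (X ^ 2 + C b * X - C c : A[X]).Monic := by
  rw [add_sub_assoc]
  apply monic_X_pow_add
  refine (degree_sub_le _ _).trans_lt (max_lt ?_ ?_)
  · exact (degree_C_mul_X_le b).trans_lt (by norm_num)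
  · exact degree_C_le.trans_lt (by norm_num)

section Alg

variable {Ω : Type*} [Field Ω] [Algebra k Ω] [DecidableEq Ω]

/-- the subgroup of points with coordinates algebraic over `k` -/
noncomputable def weAlgPts (W : WeierstrassCurve k) [W.IsElliptic] (Ω : Type*) [Field Ω]
    [Algebra k Ω] [DecidableEq Ω] : AddSubgroup (W⁄Ω).toAffine.Point := by
  classical
  exact AddMonoidHom.range (Point.map (W' := W) (algebraicClosure k Ω).val)

theorem we_algPts_of_some {u w : Ω} (hns : (W⁄Ω).toAffine.Nonsingular u w)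
    (hu : IsAlgebraic k u) : Point.some u w hns ∈ weAlgPts W Ω := by
  classical
  have hu' : u ∈ algebraicClosure k Ω := mem_algebraicClosure_iff.mpr hu
  have heq := ((W⁄Ω).toAffine.equation_iff u w).mp hns.1
  have e1 : (W⁄Ω).toAffine.a₁ = algebraMap k Ω W.a₁ := rfl
  have e2 : (W⁄Ω).toAffine.a₂ = algebraMap k Ω W.a₂ := rfl
  have e3 : (W⁄Ω).toAffine.a₃ = algebraMap k Ω W.a₃ := rfl
  have e4 : (W⁄Ω).toAffine.a₄ = algebraMap k Ω W.a₄ := rfl
  have e6 : (W⁄Ω).toAffine.a₆ = algebraMap k Ω W.a₆ := rfl
  rw [e1, e2, e3, e4, e6] at heq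
  have hw' : w ∈ algebraicClosure k Ω := by
    rw [mem_algebraicClosure_iff']
    set 𝔸 := algebraicClosure k Ω
    let u₀ : 𝔸 := ⟨u, hu'⟩
    have hint : IsIntegral 𝔸 w := by
      refine ⟨X ^ 2 + C (algebraMap k 𝔸 W.a₁ * u₀ + algebraMap k 𝔸 W.a₃) * X -
        C (u₀ ^ 3 + algebraMap k 𝔸 W.a₂ * u₀ ^ 2 + algebraMap k 𝔸 W.a₄ * u₀ +
          algebraMap k 𝔸 W.a₆), ?_, ?_⟩
      · exact we_monic_quad _ _
      · simp only [eval₂_sub, eval₂_add, eval₂_pow, eval₂_X, eval₂_mul, eval₂_C, map_add,
          map_mul, map_pow, ← IsScalarTower.algebraMap_apply]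
        have hu₀ : algebraMap 𝔸 Ω u₀ = u := rfl
        rw [hu₀]
        linear_combination heq
    exact isIntegral_trans w hint
  have hns' : (W⁄(algebraicClosure k Ω)).toAffine.Nonsingular (⟨u, hu'⟩ : algebraicClosure k Ω)
      ⟨w, hw'⟩ :=
    (Affine.baseChange_nonsingular (W := W) (f := (algebraicClosure k Ω).val)
      (algebraicClosure k Ω).val.injective _ _).mp hns
  exact ⟨Point.some _ _ hns', rfl⟩

theorem we_algPts_isAlgebraic {u w : Ω} {hns : (W⁄Ω).toAffine.Nonsingular u w}
    (h : Point.some u w hns ∈ weAlgPts W Ω) : IsAlgebraic k u := by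
  classical
  obtain ⟨P', hP'⟩ := h
  rcases P' with _ | ⟨u₀, w₀, hns₀⟩
  · exact absurd hP'.symm (Point.some_ne_zero hns)
  · rw [Point.map_some] at hP'
    simp only [Point.some.injEq] at hP'
    rw [← hP'.1]
    exact mem_algebraicClosure_iff.mp u₀.2

theorem we_algPts_map {L : Type*} [Field L] [Algebra k L] [DecidableEq L]
    [Algebra.IsAlgebraic k L] (j : L →ₐ[k] Ω) (P : (W⁄L).toAffine.Point) :
    Point.map (W' := W) j P ∈ weAlgPts W Ω := by
  classical
  have hj : ∀ z : L, j z ∈ (algebraicClosure k Ω).toSubalgebra := fun z =>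
    mem_algebraicClosure_iff.mpr (IsAlgebraic.algHom j (Algebra.IsAlgebraic.isAlgebraic z))
  let j' : L →ₐ[k] algebraicClosure k Ω := j.codRestrict _ hj
  have e : j = (algebraicClosure k Ω).val.comp j' := by
    ext z
    rfl
  refine ⟨Point.map (W' := W) j' P, ?_⟩
  rw [Point.map_map, ← e]

end Alg

section Transfer

variable {K : Type v} [Field K] [Algebra k K] [DecidableEq K] {x y : K} {ι : K →ₐ[k] K}
variable (ℓ : ℕ) [Fact ℓ.Prime] (hk : ∀ a : k, a ^ ℓ = a) [CharP K ℓ]

/-- **the translation trick**: an operator killing the generic point kills every point over an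
algebraic extension of `k`. -/
theorem we_transfer (h : WeModel W x y ι) {L : Type v} [Field L] [Algebra k L] [DecidableEq L]
    [CharP L ℓ] [Algebra.IsAlgebraic k L] (c₂ c₁ c₀ : ℤ)
    (hgen : weOp ℓ hk K c₂ c₁ c₀ (weGen h) = 0) (P₀ : (W⁄L).toAffine.Point) :
    weOp ℓ hk L c₂ c₁ c₀ P₀ = 0 := by
  classical
  let Ω := AlgebraicClosure K
  have : CharP Ω ℓ := charP_of_injective_algebraMap (algebraMap K Ω).injective ℓ
  let jK : K →ₐ[k] Ω := IsScalarTower.toAlgHom k K Ω
  let jL : L →ₐ[k] Ω := IsAlgClosed.lift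
  set G := Point.map (W' := W) jK (weGen h) with hG
  set P₀' := Point.map (W' := W) jL P₀ with hP₀'
  -- the translated generic point is again generic
  have hP₀alg : P₀' ∈ weAlgPts W Ω := we_algPts_map jL P₀
  have hGalg : G ∉ weAlgPts W Ω := by
    intro hmem
    have : G = Point.some (jK x) (jK y) _ := Point.map_some (W' := W) jK _
    rw [this] at hmem
    have halg := we_algPts_isAlgebraic hmem
    exact h.trans ((isAlgebraic_algHom_iff jK jK.injective).mp halg)
  have hSalg : G + P₀' ∉ weAlgPts W Ω := by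
    intro hmem
    apply hGalg
    have := sub_mem hmem hP₀alg
    rwa [add_sub_cancel_right] at this
  -- the substitution sending the generic point to the translated point
  have hS : ∃ τ : K →ₐ[k] Ω, Point.map (W' := W) τ (weGen h) = G + P₀' := by
    generalize G + P₀' = S at hSalg
    rcases S with _ | ⟨u', w', hns'⟩
    · exact absurd (zero_mem _) hSalg
    · have htr : Transcendental k u' := fun halg => hSalg (we_algPts_of_some hns' halg)
      obtain ⟨τ, hτx, hτy⟩ := h.subst Ω u' w' hns'.1 htr
      refine ⟨τ, ?_⟩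
      simp only [weGen, Point.mk, Point.map_some, Point.some.injEq]
      exact ⟨hτx, hτy⟩
  obtain ⟨τ, hτ⟩ := hS
  have h1 : weOp ℓ hk Ω c₂ c₁ c₀ (G + P₀') = 0 := by
    rw [← hτ, ← weOp_map, hgen, map_zero]
  have h2 : weOp ℓ hk Ω c₂ c₁ c₀ G = 0 := by
    rw [hG, ← weOp_map, hgen, map_zero]
  rw [map_add, h2, zero_add, hP₀', ← weOp_map] at h1
  exact Point.map_injective (W' := W) jL (by rw [h1, map_zero])

end Transfer

end Fermat.Agent.WE
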