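import Mathlib
import Fermat.Agent.WE.Conc
import Fermat.Agent.WE.Trans
import Fermat.Agent.WE.Count

/-!
# WEIL-E, file Main: the Weil relation and Hasse's bound for elliptic curves over `𝔽_ℓ`

`k` a finite field with `ℓ` elements (`ℓ` prime), `W` an elliptic curve over `k` (any Weierstrass
equation, any characteristic), `a := ℓ + 1 - #W(k)`.

* `we_hasse` : `a ^ 2 ≤ 4 ℓ`.
* `we_weil` : for every algebraic extension `L` of `k` and every `P ∈ W(L)`:
  `Fr (Fr P) - a • Fr P + ℓ • P = 0`, where `Fr = weFr ℓ hk L` raises the coordinates to the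
  `ℓ`-th power (`weFr_some`).
* `we_weil_zmod`, `we_hasse_zmod` : the case `k = ZMod ℓ`.
-/

set_option autoImplicit false
set_option linter.unusedSectionVars false

namespace Fermat.Agent.WE

open Polynomial WeierstrassCurve WeierstrassCurve.Affine

universe u

section General

variable {k : Type u} [Field k] [Fintype k] (W : WeierstrassCurve k) [W.IsElliptic]
variable (ℓ : ℕ) [Fact ℓ.Prime] [CharP k ℓ] (hcard : Fintype.card k = ℓ)

/-- the trace of Frobenius `ℓ + 1 - #W(k)` -/
noncomputable def weAp : ℤ := (ℓ : ℤ) + 1 - (Nat.card W.toAffine.Point : ℤ)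

include hcard

theorem we_pow_card (a : k) : a ^ ℓ = a := by
  rw [← hcard]
  exact FiniteField.pow_card a

theorem we_trace_eq [DecidableEq (weK W)] [CharP (weK W) ℓ] :
    weTrace ℓ (we_pow_card ℓ hcard) (we_model W) = weAp W ℓ := by
  unfold weTrace weAp
  rw [we_count ℓ (we_pow_card ℓ hcard) (we_model W) hcard]

/-- **Hasse's bound** -/
theorem we_hasse : weAp W ℓ ^ 2 ≤ 4 * ℓ := by
  classical
  have : CharP (weK W) ℓ := charP_of_injective_algebraMap (algebraMap k (weK W)).injective ℓ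
  rw [← we_trace_eq W ℓ hcard]
  exact (we_model_main ℓ (we_pow_card ℓ hcard) (we_model W)).1

/-- **The Weil relation** `Fr² - a Fr + ℓ = 0` on the points over any algebraic extension -/
theorem we_weil {L : Type u} [Field L] [Algebra k L] [DecidableEq L] [CharP L ℓ]
    [Algebra.IsAlgebraic k L] (P : (W⁄L).toAffine.Point) :
    weFr ℓ (we_pow_card ℓ hcard) L (weFr ℓ (we_pow_card ℓ hcard) L P) -
      weAp W ℓ • weFr ℓ (we_pow_card ℓ hcard) L P + (ℓ : ℤ) • P = 0 := by
  classical
  have : CharP (weK W) ℓ := charP_of_injective_algebraMap (algebraMap k (weK W)).injective ℓ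
  have hmain := (we_model_main ℓ (we_pow_card ℓ hcard) (we_model W)).2
  rw [we_trace_eq W ℓ hcard] at hmain
  have := we_transfer ℓ (we_pow_card ℓ hcard) (we_model W) 1 (-(weAp W ℓ)) ℓ hmain P
  rw [weOp_apply] at this
  rw [← this]
  simp [sub_eq_add_neg]

end General

section ZMod

variable (ℓ : ℕ) [Fact ℓ.Prime] (W : WeierstrassCurve (ZMod ℓ)) [W.IsElliptic]

theorem we_hasse_zmod : weAp W ℓ ^ 2 ≤ 4 * ℓ := we_hasse W ℓ (ZMod.card ℓ)

theorem we_weil_zmod {L : Type} [Field L] [Algebra (ZMod ℓ) L] [DecidableEq L] [CharP L ℓ]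
    [Algebra.IsAlgebraic (ZMod ℓ) L] (P : (W⁄L).toAffine.Point) :
    weFr ℓ (ZMod.pow_card) L (weFr ℓ (ZMod.pow_card) L P) -
      weAp W ℓ • weFr ℓ (ZMod.pow_card) L P + (ℓ : ℤ) • P = 0 :=
  we_weil W ℓ (ZMod.card ℓ) P

end ZMod

end Fermat.Agent.WE
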