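import Mathlib
import Fermat.Agent.S41.NE.Red
import Fermat.Agent.S54.ExistsFrobenius
import Fermat.Agent.WE.Main

set_option autoImplicit false
set_option linter.unusedSectionVars false
set_option linter.unusedVariables false
set_option linter.style.haveILetI false

namespace Fermat.Agent.WE

open WeierstrassCurve WeierstrassCurve.Affine Fermat.Agent.S05 Fermat.Agent.S41
open scoped Classical

theorem we_some_eq {R : Type*} [CommRing R] {V : Affine R} {x y x' y' : R}
    {h : V.Nonsingular x y} {h' : V.Nonsingular x' y'} (hx : x = x') (hy : y = y') :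
    Point.some x y h = Point.some x' y' h' := by
  subst hx hy; rfl

section Red

variable {L : Type*} [Field L] [DecidableEq L] (A : ValuationSubring L) (W : WeierstrassCurve ℤ)

/-- the model over the valuation ring -/
abbrev weWA : Affine A := (W.map (Int.castRingHom A)).toAffine

/-- the curve over the big field -/
abbrev weWL (L : Type*) [Field L] (W : WeierstrassCurve ℤ) : Affine L :=
  (W.map (Int.castRingHom L)).toAffine

/-- the reduced curve over the residue field -/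
abbrev weWk : Affine (IsLocalRing.ResidueField A) :=
  ((W.map (Int.castRingHom A)).map (IsLocalRing.residue A)).toAffine

theorem weWA_map_subtype : (weWA A W).map A.subtype = weWL L W := rfl

variable {A W}

theorem we_equation_A {x y : L} (h : (weWL L W).Equation x y) (hx : x ∈ A) (hy : y ∈ A) :
    (weWA A W).Equation ⟨x, hx⟩ ⟨y, hy⟩ :=
  (Affine.map_equation (W := weWA A W) (f := A.subtype) Subtype.val_injective ⟨x, hx⟩
    ⟨y, hy⟩).mp h

theorem we_equation_k {x y : L} (h : (weWL L W).Equation x y) (hx : x ∈ A) (hy : y ∈ A) :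
    (weWk A W).Equation (IsLocalRing.residue A ⟨x, hx⟩) (IsLocalRing.residue A ⟨y, hy⟩) :=
  Affine.Equation.map (IsLocalRing.residue A) (we_equation_A h hx hy)

variable [(W.map (Int.castRingHom A)).IsElliptic]

variable (A W) in
/-- reduction of points (meaningful on points with integral coordinates) -/
noncomputable def weRed : (weWL L W).Point → (weWk A W).Point
  | .zero => 0
  | .some x y h =>
      if hxy : x ∈ A ∧ y ∈ A then Point.mk (we_equation_k h.1 hxy.1 hxy.2) else 0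

theorem weRed_zero : weRed A W (0 : (weWL L W).Point) = 0 := rfl

theorem weRed_some {x y : L} (h : (weWL L W).Nonsingular x y) (hx : x ∈ A) (hy : y ∈ A) :
    weRed A W (Point.some x y h) = Point.mk (we_equation_k h.1 hx hy) := by
  show (if hxy : x ∈ A ∧ y ∈ A then Point.mk (we_equation_k h.1 hxy.1 hxy.2) else 0) = _
  rw [dif_pos ⟨hx, hy⟩]

/-- `res a = 0` iff `a` is a nonunit -/
theorem we_res_eq_zero_iff (a : A) : IsLocalRing.residue A a = 0 ↔ (a : L) ∈ A.nonunits := by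
  rw [IsLocalRing.residue_eq_zero_iff, ValuationSubring.coe_mem_nonunits_iff]

theorem we_res_eq_iff (a b : A) :
    IsLocalRing.residue A a = IsLocalRing.residue A b ↔ (a : L) - b ∈ A.nonunits := by
  rw [← sub_eq_zero, ← map_sub, we_res_eq_zero_iff]
  rfl

theorem we_Δ_not_mem : (weWL L W).Δ ∉ A.nonunits := by
  have hu : IsUnit (W.map (Int.castRingHom A)).Δ := (W.map (Int.castRingHom A)).isUnit_Δ
  have e : (weWL L W).Δ = (((W.map (Int.castRingHom A)).Δ : A) : L) := by
    rw [← weWA_map_subtype A W]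
    exact WeierstrassCurve.map_Δ _ _
  rw [e, ValuationSubring.coe_mem_nonunits_iff, IsLocalRing.mem_maximalIdeal, mem_nonunits_iff]
  exact not_not.mpr hu

theorem we_negY_coe (a b : A) :
    (weWL L W).negY (a : L) (b : L) = (((weWA A W).negY a b : A) : L) := rfl

theorem we_negY_res (a b : A) :
    (weWk A W).negY (IsLocalRing.residue A a) (IsLocalRing.residue A b) =
      IsLocalRing.residue A ((weWA A W).negY a b) :=
  Affine.map_negY (W' := weWA A W) (IsLocalRing.residue A) a b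

section Torsion

variable {n : ℕ} (hn0 : (n : L) ≠ 0) (hn : ((n : L))⁻¹ ∈ A)
include hn0 hn

theorem we_mem_of_torsion {x y : L} {h : (weWL L W).Nonsingular x y}
    (hT : n • Point.some x y h = 0) : x ∈ A ∧ y ∈ A :=
  ⟨s41ner_x_mem_of_torsion (s41ner_isIntegralAt A W) hn0 hn h hT,
    s41ner_y_mem_of_torsion (s41ner_isIntegralAt A W) hn0 hn h hT⟩

/-- two torsion points with the same reduction are equal -/
theorem we_eq_of_res_eq {x y x' y' : L} {h : (weWL L W).Nonsingular x y}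
    {h' : (weWL L W).Nonsingular x' y'} (hT : n • Point.some x y h = 0)
    (hT' : n • Point.some x' y' h' = 0) (hx : x ∈ A) (hy : y ∈ A) (hx' : x' ∈ A) (hy' : y' ∈ A)
    (hxx : IsLocalRing.residue A ⟨x, hx⟩ = IsLocalRing.residue A ⟨x', hx'⟩)
    (hyy : IsLocalRing.residue A ⟨y, hy⟩ = IsLocalRing.residue A ⟨y', hy'⟩) :
    Point.some x y h = Point.some x' y' h' :=
  s41ner_eq_of_congr (s41ner_isIntegralAt A W) we_Δ_not_mem hn0 hn h h' hT hT'
    ((we_res_eq_iff _ _).mp hxx) ((we_res_eq_iff _ _).mp hyy)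

/-- the slope of two torsion points is integral and reduces to the slope of the reductions -/
theorem we_slope_lift {a₁ b₁ a₂ b₂ : A} (h₁ : (weWL L W).Nonsingular (a₁ : L) (b₁ : L))
    (h₂ : (weWL L W).Nonsingular (a₂ : L) (b₂ : L)) (hP : n • Point.some _ _ h₁ = 0)
    (hQ : n • Point.some _ _ h₂ = 0)
    (hxy : ¬((a₁ : L) = a₂ ∧ (b₁ : L) = (weWL L W).negY a₂ b₂)) :
    ∃ t : A, (t : L) = (weWL L W).slope a₁ a₂ b₁ b₂ ∧
      (weWk A W).slope (IsLocalRing.residue A a₁) (IsLocalRing.residue A a₂)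
        (IsLocalRing.residue A b₁) (IsLocalRing.residue A b₂) = IsLocalRing.residue A t ∧
      ¬(IsLocalRing.residue A a₁ = IsLocalRing.residue A a₂ ∧
        IsLocalRing.residue A b₁ =
          (weWk A W).negY (IsLocalRing.residue A a₂) (IsLocalRing.residue A b₂)) := by
  have hnegQ : n • Point.some _ _ ((Affine.nonsingular_neg _ _).mpr h₂) = 0 := by
    rw [← Point.neg_some h₂, smul_neg, hQ, neg_zero]
  have hk₁ := we_equation_k (A := A) h₁.1 a₁.2 b₁.2
  have hk₂ := we_equation_k (A := A) h₂.1 a₂.2 b₂.2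
  by_cases hx : (a₁ : L) = a₂
  · -- doubling
    have hy : (b₁ : L) ≠ (weWL L W).negY a₂ b₂ := fun h => hxy ⟨hx, h⟩
    have ha : a₁ = a₂ := Subtype.ext hx
    subst ha
    have hb : b₁ = b₂ := by
      apply Subtype.ext
      exact (Affine.Y_eq_of_X_eq h₁.1 h₂.1 rfl).resolve_right hy
    subst hb
    have hne : IsLocalRing.residue A b₁ ≠
        (weWk A W).negY (IsLocalRing.residue A a₁) (IsLocalRing.residue A b₁) := by
      intro heq
      rw [we_negY_res] at heq
      have := we_eq_of_res_eq hn0 hn hP hnegQ a₁.2 b₁.2 a₁.2 ((weWA A W).negY a₁ b₁).2 rfl heq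
      simp only [Point.some.injEq, true_and] at this
      exact hy this
    have hunit : IsUnit (b₁ - (weWA A W).negY a₁ b₁) := by
      rw [← IsLocalRing.residue_ne_zero_iff_isUnit, map_sub, sub_ne_zero, ← we_negY_res]
      exact hne
    obtain ⟨u, hu⟩ := hunit
    refine ⟨(3 * a₁ ^ 2 + 2 * (weWA A W).a₂ * a₁ + (weWA A W).a₄ - (weWA A W).a₁ * b₁) *
      ((u⁻¹ : Aˣ) : A), ?_, ?_, fun h => hne h.2⟩
    · rw [Affine.slope_of_Y_ne rfl hy, we_negY_coe]
      have hu' : ((u : A) : L) = (b₁ : L) - (((weWA A W).negY a₁ b₁ : A) : L) := by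
        rw [hu]; rfl
      have hinv : (((u⁻¹ : Aˣ) : A) : L) * ((u : A) : L) = 1 := by
        have := congrArg A.subtype (Units.inv_mul u)
        rw [map_mul, map_one] at this
        exact this
      have hne0 : (b₁ : L) - (((weWA A W).negY a₁ b₁ : A) : L) ≠ 0 := by
        rw [← hu']
        intro h0
        rw [h0, mul_zero] at hinv
        exact zero_ne_one hinv
      rw [eq_div_iff hne0, ← hu']
      have e1 : (((weWA A W).a₁ : A) : L) = (weWL L W).a₁ := rfl
      have e2 : (((weWA A W).a₂ : A) : L) = (weWL L W).a₂ := rfl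
      have e4 : (((weWA A W).a₄ : A) : L) = (weWL L W).a₄ := rfl
      have c3 : ((3 : A) : L) = 3 := rfl
      have c2 : ((2 : A) : L) = 2 := rfl
      push_cast
      rw [e1, e2, e4, c3, c2]
      linear_combination (3 * (a₁ : L) ^ 2 + 2 * (weWL L W).a₂ * a₁ + (weWL L W).a₄ -
        (weWL L W).a₁ * b₁) * hinv
    · rw [Affine.slope_of_Y_ne rfl hne, we_negY_res]
      have hinv : IsLocalRing.residue A ((u⁻¹ : Aˣ) : A) *
          (IsLocalRing.residue A b₁ - IsLocalRing.residue A ((weWA A W).negY a₁ b₁)) = 1 := by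
        rw [← map_sub, ← hu, ← map_mul, Units.inv_mul, map_one]
      have hne0 : IsLocalRing.residue A b₁ - IsLocalRing.residue A ((weWA A W).negY a₁ b₁) ≠ 0 := by
        intro h0
        rw [h0, mul_zero] at hinv
        exact zero_ne_one hinv
      rw [div_eq_iff hne0]
      simp only [map_mul, map_sub, map_add, map_pow, map_ofNat]
      have e1 : (weWk A W).a₁ = IsLocalRing.residue A (weWA A W).a₁ := rfl
      have e2 : (weWk A W).a₂ = IsLocalRing.residue A (weWA A W).a₂ := rfl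
      have e4 : (weWk A W).a₄ = IsLocalRing.residue A (weWA A W).a₄ := rfl
      rw [e1, e2, e4]
      linear_combination -(3 * IsLocalRing.residue A a₁ ^ 2 +
        2 * IsLocalRing.residue A (weWA A W).a₂ * IsLocalRing.residue A a₁ +
        IsLocalRing.residue A (weWA A W).a₄ -
        IsLocalRing.residue A (weWA A W).a₁ * IsLocalRing.residue A b₁) * hinv
  · -- distinct `x`-coordinates
    have hne : IsLocalRing.residue A a₁ ≠ IsLocalRing.residue A a₂ := by
      intro heq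
      rcases Affine.Y_eq_of_X_eq hk₁ hk₂ heq with h | h
      · have := we_eq_of_res_eq hn0 hn hP hQ a₁.2 b₁.2 a₂.2 b₂.2 heq h
        simp only [Point.some.injEq] at this
        exact hx this.1
      · rw [we_negY_res] at h
        have := we_eq_of_res_eq hn0 hn hP hnegQ a₁.2 b₁.2 a₂.2 ((weWA A W).negY a₂ b₂).2 heq h
        simp only [Point.some.injEq] at this
        exact hx this.1
    have hunit : IsUnit (a₁ - a₂) := by
      rw [← IsLocalRing.residue_ne_zero_iff_isUnit, map_sub, sub_ne_zero]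
      exact hne
    obtain ⟨u, hu⟩ := hunit
    refine ⟨(b₁ - b₂) * ((u⁻¹ : Aˣ) : A), ?_, ?_, fun h => hne h.1⟩
    · rw [Affine.slope_of_X_ne hx]
      have hu' : ((u : A) : L) = (a₁ : L) - (a₂ : L) := by
        rw [hu]; rfl
      have hinv : (((u⁻¹ : Aˣ) : A) : L) * ((u : A) : L) = 1 := by
        have := congrArg A.subtype (Units.inv_mul u)
        rw [map_mul, map_one] at this
        exact this
      have hne0 : (a₁ : L) - (a₂ : L) ≠ 0 := sub_ne_zero.mpr hx
      rw [eq_div_iff hne0, ← hu']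
      push_cast
      linear_combination ((b₁ : L) - b₂) * hinv
    · rw [Affine.slope_of_X_ne hne]
      have hinv : IsLocalRing.residue A ((u⁻¹ : Aˣ) : A) *
          (IsLocalRing.residue A a₁ - IsLocalRing.residue A a₂) = 1 := by
        rw [← map_sub, ← hu, ← map_mul, Units.inv_mul, map_one]
      have hne0 : IsLocalRing.residue A a₁ - IsLocalRing.residue A a₂ ≠ 0 := sub_ne_zero.mpr hne
      rw [div_eq_iff hne0]
      simp only [map_mul, map_sub]
      linear_combination -(IsLocalRing.residue A b₁ - IsLocalRing.residue A b₂) * hinv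

/-- reduction is additive on prime-to-residue-characteristic torsion -/
theorem weRed_add {P Q : (weWL L W).Point} (hP : n • P = 0) (hQ : n • Q = 0) :
    weRed A W (P + Q) = weRed A W P + weRed A W Q := by
  rcases P with _ | ⟨x₁, y₁, h₁⟩
  · change weRed A W (0 + Q) = 0 + weRed A W Q
    rw [zero_add, zero_add]
  rcases Q with _ | ⟨x₂, y₂, h₂⟩
  · change weRed A W (_ + 0) = _ + 0
    rw [add_zero, add_zero]
  obtain ⟨hx₁, hy₁⟩ := we_mem_of_torsion hn0 hn hP
  obtain ⟨hx₂, hy₂⟩ := we_mem_of_torsion hn0 hn hQ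
  rw [weRed_some h₁ hx₁ hy₁, weRed_some h₂ hx₂ hy₂]
  by_cases hxy : x₁ = x₂ ∧ y₁ = (weWL L W).negY x₂ y₂
  · rw [Point.add_of_Y_eq hxy.1 hxy.2, weRed_zero]
    symm
    refine Point.add_of_Y_eq ?_ ?_
    · congr 1; exact Subtype.ext hxy.1
    · rw [we_negY_res]; congr 1; exact Subtype.ext hxy.2
  · obtain ⟨t, ht, hslope, hxy'⟩ := we_slope_lift hn0 hn (a₁ := ⟨x₁, hx₁⟩) (b₁ := ⟨y₁, hy₁⟩)
      (a₂ := ⟨x₂, hx₂⟩) (b₂ := ⟨y₂, hy₂⟩) h₁ h₂ hP hQ hxy
    have ht' : (t : L) = (weWL L W).slope x₁ x₂ y₁ y₂ := ht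
    rw [Point.add_some hxy]
    have hX : (weWL L W).addX x₁ x₂ ((weWL L W).slope x₁ x₂ y₁ y₂) =
        (((weWA A W).addX ⟨x₁, hx₁⟩ ⟨x₂, hx₂⟩ t : A) : L) := by
      rw [← ht']; rfl
    have hY : (weWL L W).addY x₁ x₂ y₁ ((weWL L W).slope x₁ x₂ y₁ y₂) =
        (((weWA A W).addY ⟨x₁, hx₁⟩ ⟨x₂, hx₂⟩ ⟨y₁, hy₁⟩ t : A) : L) := by
      rw [← ht']; rfl
    rw [weRed_some _ (hX ▸ Subtype.property _) (hY ▸ Subtype.property _)]
    change Point.some _ _ _ = Point.some _ _ _ + Point.some _ _ _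
    rw [Point.add_some hxy']
    apply we_some_eq
    · rw [hslope]
      refine Eq.trans ?_ (Affine.map_addX (W' := weWA A W) (IsLocalRing.residue A) ⟨x₁, hx₁⟩
        ⟨x₂, hx₂⟩ t).symm
      congr 1; exact Subtype.ext hX
    · rw [hslope]
      refine Eq.trans ?_ (Affine.map_addY (W' := weWA A W) (IsLocalRing.residue A) ⟨x₁, hx₁⟩
        ⟨y₁, hy₁⟩ ⟨x₂, hx₂⟩ t).symm
      congr 1; exact Subtype.ext hY

end Torsion


/-- a torsion point with trivial reduction is trivial -/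
theorem we_eq_zero_of_red {n : ℕ} (hn0 : (n : L) ≠ 0) (hn : ((n : L))⁻¹ ∈ A)
    {T : (weWL L W).Point} (hT : n • T = 0) (hred : weRed A W T = 0) : T = 0 := by
  rcases T with _ | ⟨x, y, h⟩
  · rfl
  · obtain ⟨hx, hy⟩ := we_mem_of_torsion hn0 hn hT
    rw [weRed_some h hx hy] at hred
    exact absurd hred (Point.some_ne_zero _)

end Red

section Tors

/-- the `n`-torsion subgroup -/
def weTors (V : Type*) [AddCommGroup V] (n : ℕ) : AddSubgroup V where
  carrier := {P | n • P = 0}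
  zero_mem' := smul_zero n
  add_mem' := by
    intro a b (ha : n • a = 0) (hb : n • b = 0)
    show n • (a + b) = 0
    rw [smul_add, ha, hb, add_zero]
  neg_mem' := by
    intro a (ha : n • a = 0)
    show n • (-a) = 0
    rw [smul_neg, ha, neg_zero]

theorem we_mem_tors {V : Type*} [AddCommGroup V] {n : ℕ} {P : V} :
    P ∈ weTors V n ↔ n • P = 0 := Iff.rfl

variable {L : Type*} [Field L] [DecidableEq L] {A : ValuationSubring L} {W : WeierstrassCurve ℤ}
  [(W.map (Int.castRingHom A)).IsElliptic]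

/-- reduction as a homomorphism on the torsion subgroup -/
noncomputable def weRedHom {n : ℕ} (hn0 : (n : L) ≠ 0) (hn : ((n : L))⁻¹ ∈ A) :
    weTors (weWL L W).Point n →+ (weWk A W).Point :=
  AddMonoidHom.mk' (fun P => weRed A W P.1) (fun P Q => weRed_add hn0 hn P.2 Q.2)

theorem weRedHom_apply {n : ℕ} (hn0 : (n : L) ≠ 0) (hn : ((n : L))⁻¹ ∈ A)
    (P : weTors (weWL L W).Point n) : weRedHom hn0 hn P = weRed A W P.1 := rfl

end Tors

section Pow

/-- coordinatewise `q`-th power on points (junk value `0` if the result is not on the curve) -/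
noncomputable def wePow {R : Type*} [CommRing R] (V : Affine R) (q : ℕ) : V.Point → V.Point
  | .zero => 0
  | .some x y _ => if h' : V.Nonsingular (x ^ q) (y ^ q) then .some _ _ h' else 0

theorem wePow_zero {R : Type*} [CommRing R] (V : Affine R) (q : ℕ) : wePow V q 0 = 0 := rfl

theorem wePow_some {R : Type*} [CommRing R] {V : Affine R} {q : ℕ} {x y : R}
    (h : V.Nonsingular x y) (h' : V.Nonsingular (x ^ q) (y ^ q)) :
    wePow V q (.some x y h) = .some _ _ h' := by
  show (if h' : V.Nonsingular (x ^ q) (y ^ q) then Point.some _ _ h' else 0) = _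
  rw [dif_pos h']

/-- the Weil relation on any curve equal to the base change of a curve over `𝔽_ℓ` -/
theorem we_weil_zmod' (ℓ : ℕ) [Fact ℓ.Prime] (Wb : WeierstrassCurve (ZMod ℓ)) [Wb.IsElliptic]
    {κ : Type} [Field κ] [Algebra (ZMod ℓ) κ] [DecidableEq κ] [CharP κ ℓ]
    [Algebra.IsAlgebraic (ZMod ℓ) κ] (V : Affine κ) (hV : V = (Wb⁄κ).toAffine) (P : V.Point) :
    wePow V ℓ (wePow V ℓ P) - weAp Wb ℓ • wePow V ℓ P + (ℓ : ℤ) • P = 0 := by
  subst hV
  have e : ∀ Q : (Wb⁄κ).toAffine.Point,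
      wePow (Wb⁄κ).toAffine ℓ Q = weFr ℓ ZMod.pow_card κ Q := by
    rintro (_ | ⟨x, y, h⟩)
    · exact (map_zero _).symm
    · obtain ⟨h', e⟩ := weFr_some ℓ ZMod.pow_card h
      rw [e, wePow_some h h']
  rw [e, e]
  exact we_weil_zmod ℓ Wb P

end Pow


section Inst

open IsLocalRing Polynomial

variable {L : Type*} [Field L] {A : ValuationSubring L} {ℓ : ℕ} [Fact ℓ.Prime]

/-- the residue field of a valuation ring above `ℓ` has characteristic `ℓ` -/
theorem we_charP (hA : A.LiesOverPrime ℓ) : CharP (ResidueField A) ℓ := by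
  rw [CharP.charP_iff_prime_eq_zero (Fact.out : ℓ.Prime)]
  have h0 : residue A ((ℓ : ℕ) : A) = 0 := by
    rw [we_res_eq_zero_iff]
    have : ((((ℓ : ℕ) : A) : A) : L) = ((ℓ : ℕ) : L) := by simp
    rw [this]
    exact hA
  simpa using h0

/-- the Frobenius element acts on residues as the `q`-th power -/
theorem we_frob_res {K : Type*} [Field K] [Algebra K L] {σ : L ≃ₐ[K] L} {q : ℕ}
    (hσ : A.IsFrobeniusAt σ q) {z : L} (hz : z ∈ A) :
    ∃ hz' : σ z ∈ A, residue A ⟨σ z, hz'⟩ = residue A ⟨z, hz⟩ ^ q := by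
  obtain ⟨hdec, hres⟩ := hσ
  have h1 := hres (residue A ⟨z, hz⟩)
  rw [← IsLocalRing.ResidueField.residue_smul] at h1
  exact ⟨((⟨σ, hdec⟩ : A.decompositionSubgroup K) • (⟨z, hz⟩ : A)).2, h1⟩


/-- the residue field is algebraic over `𝔽_ℓ` -/
theorem we_isAlgebraic_res [CharZero L] (hA : A.LiesOverPrime ℓ)
    (halg : ∀ a ∈ A, IsAlgebraic ℤ a) [CharP (ResidueField A) ℓ] :
    letI := ZMod.algebra (ResidueField A) ℓ
    Algebra.IsAlgebraic (ZMod ℓ) (ResidueField A) := by
  let _ := ZMod.algebra (ResidueField A) ℓ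
  refine ⟨fun z => ?_⟩
  obtain ⟨a, rfl⟩ := residue_surjective z
  obtain ⟨f, hf0, hfa⟩ := halg a a.2
  have hg : f.primPart.IsPrimitive := f.isPrimitive_primPart
  have hga : aeval (a : L) f.primPart = 0 := aeval_primPart_eq_zero hf0 hfa
  set g := f.primPart with hgdef
  obtain ⟨i, hi⟩ := Fermat.Agent.S54.exists_coeff_not_mem_nonunits A hg
  refine ⟨g.map (Int.castRingHom (ZMod ℓ)), ?_, ?_⟩
  · intro h0
    have hc : (g.map (Int.castRingHom (ZMod ℓ))).coeff i = 0 := by rw [h0, coeff_zero]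
    rw [coeff_map, eq_intCast, ZMod.intCast_zmod_eq_zero_iff_dvd] at hc
    exact hi (Fermat.Agent.S41.s41ner_intCast_nonunits hA hc)
  · rw [aeval_def, eval₂_map]
    have e1 : (algebraMap (ZMod ℓ) (ResidueField A)).comp (Int.castRingHom (ZMod ℓ)) =
        (residue A).comp (Int.castRingHom A) := RingHom.ext_int _ _
    rw [e1, ← hom_eval₂]
    have e2 : eval₂ (Int.castRingHom A) a g = 0 := by
      apply Subtype.val_injective
      have := hom_eval₂ g (Int.castRingHom A) A.subtype a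
      rw [ValuationSubring.subtype_apply] at this
      rw [this]
      have e3 : A.subtype.comp (Int.castRingHom A) = algebraMap ℤ L := RingHom.ext_int _ _
      rw [e3]
      exact hga
    rw [e2, map_zero]

end Inst


section Main

open IsLocalRing

variable {L : Type} [Field L] [DecidableEq L] [CharZero L] {A : ValuationSubring L}
  {W : WeierstrassCurve ℤ} {ℓ : ℕ} [Fact ℓ.Prime]

theorem we_isElliptic_A (hA : A.LiesOverPrime ℓ) (hgood : ¬ (ℓ : ℤ) ∣ W.Δ) :
    (W.map (Int.castRingHom A)).IsElliptic := by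
  refine ⟨?_⟩
  rw [WeierstrassCurve.map_Δ, eq_intCast, A.valuation_eq_one_iff]
  have hv := (valuation_intCast_eq_one_iff A (Fact.out : ℓ.Prime) hA W.Δ).2 hgood
  simpa using hv

theorem we_isElliptic_zmod (hgood : ¬ (ℓ : ℤ) ∣ W.Δ) :
    (W.map (Int.castRingHom (ZMod ℓ))).IsElliptic := by
  refine ⟨?_⟩
  rw [WeierstrassCurve.map_Δ, eq_intCast, isUnit_iff_ne_zero, Ne,
    ZMod.intCast_zmod_eq_zero_iff_dvd]
  exact hgood

theorem we_ap_eq : weAp (W.map (Int.castRingHom (ZMod ℓ))) ℓ = W.apOfModel ℓ := by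
  unfold WeierstrassCurve.apOfModel WeierstrassCurve.traceOfFrobenius WeierstrassCurve.card
    WeierstrassCurve.reductionMod weAp
  rw [Nat.card_zmod]

theorem we_Wk_eq [CharP (ResidueField A) ℓ] :
    letI := ZMod.algebra (ResidueField A) ℓ
    weWk A W = ((W.map (Int.castRingHom (ZMod ℓ)))⁄(ResidueField A)).toAffine := by
  letI := ZMod.algebra (ResidueField A) ℓ
  show (W.map (Int.castRingHom A)).map (residue A) =
    (W.map (Int.castRingHom (ZMod ℓ))).map (algebraMap (ZMod ℓ) (ResidueField A))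
  rw [WeierstrassCurve.map_map, WeierstrassCurve.map_map]
  congr 1
  exact RingHom.ext_int _ _

/-- **Frobenius relation on prime-to-`ℓ` torsion, abstract form.** -/
theorem we_lift_aux (hA : A.LiesOverPrime ℓ) (hgood : ¬ (ℓ : ℤ) ∣ W.Δ)
    (halg : ∀ a ∈ A, IsAlgebraic ℤ a) (φ : L → L)
    (hφ : ∀ (z : L) (hz : z ∈ A),
      ∃ hz' : φ z ∈ A, residue A ⟨φ z, hz'⟩ = residue A ⟨z, hz⟩ ^ ℓ)
    (WL : Affine L) (hWL : WL = weWL L W) (F : WL.Point →+ WL.Point)
    (hF : ∀ {x y : L} (h : WL.Nonsingular x y),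
      ∃ h', F (.some x y h) = .some (φ x) (φ y) h')
    {n : ℕ} (hn0 : (n : L) ≠ 0) (hn : ((n : L))⁻¹ ∈ A) (P : WL.Point) (hP : n • P = 0) :
    F (F P) - W.apOfModel ℓ • F P + (ℓ : ℤ) • P = 0 := by
  subst hWL
  haveI := we_isElliptic_A (W := W) hA hgood
  haveI := we_isElliptic_zmod (W := W) (ℓ := ℓ) hgood
  haveI := we_charP hA
  letI := ZMod.algebra (ResidueField A) ℓ
  haveI : Algebra.IsAlgebraic (ZMod ℓ) (ResidueField A) := we_isAlgebraic_res hA halg
  have hcomm : ∀ Q : (weWL L W).Point, n • Q = 0 →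
      weRed A W (F Q) = wePow (weWk A W) ℓ (weRed A W Q) := by
    rintro (_ | ⟨x, y, h⟩) hQ
    · have : F (Point.zero) = 0 := map_zero F
      rw [this]; rfl
    · obtain ⟨hx, hy⟩ := we_mem_of_torsion hn0 hn hQ
      obtain ⟨h', e⟩ := hF h
      obtain ⟨hx', ex⟩ := hφ x hx
      obtain ⟨hy', ey⟩ := hφ y hy
      rw [e, weRed_some h' hx' hy', weRed_some h hx hy]
      have hk := we_equation_k (A := A) h'.1 hx' hy'
      have hns : (weWk A W).Nonsingular (residue A ⟨x, hx⟩ ^ ℓ) (residue A ⟨y, hy⟩ ^ ℓ) := by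
        rw [← ex, ← ey]
        exact (Affine.equation_iff_nonsingular).mp hk
      show Point.some _ _ _ = wePow _ ℓ (Point.some _ _ _)
      rw [wePow_some _ hns]
      exact we_some_eq ex ey
  have hFtors : ∀ Q : (weWL L W).Point, n • Q = 0 → n • F Q = 0 := by
    intro Q hQ
    rw [← map_nsmul, hQ, map_zero]
  have hFP := hFtors P hP
  have hFFP := hFtors _ hFP
  let P' : weTors (weWL L W).Point n := ⟨P, hP⟩
  let FP' : weTors (weWL L W).Point n := ⟨F P, hFP⟩
  let FFP' : weTors (weWL L W).Point n := ⟨F (F P), hFFP⟩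
  let T' : weTors (weWL L W).Point n := FFP' - W.apOfModel ℓ • FP' + (ℓ : ℤ) • P'
  have hT'val : (T' : (weWL L W).Point) = F (F P) - W.apOfModel ℓ • F P + (ℓ : ℤ) • P := rfl
  have hred : weRed A W (T' : (weWL L W).Point) = 0 := by
    rw [← weRedHom_apply hn0 hn T']
    show weRedHom hn0 hn (FFP' - W.apOfModel ℓ • FP' + (ℓ : ℤ) • P') = 0
    rw [map_add, map_sub, map_zsmul, map_zsmul, weRedHom_apply, weRedHom_apply, weRedHom_apply]
    show weRed A W (F (F P)) - W.apOfModel ℓ • weRed A W (F P) + (ℓ : ℤ) • weRed A W P = 0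
    rw [hcomm _ hFP, hcomm _ hP, ← we_ap_eq]
    exact we_weil_zmod' ℓ _ (weWk A W) we_Wk_eq _
  rw [← hT'val]
  exact we_eq_zero_of_red hn0 hn T'.2 hred

end Main


section Final

local notation "Qb" => AlgebraicClosure ℚ

theorem we_isAlgebraic_int (a : Qb) : IsAlgebraic ℤ a := by
  have h : (DivisionRing.toRatAlgebra : Algebra ℚ Qb) = AlgebraicClosure.instAlgebra ℚ :=
    Subsingleton.elim _ _
  haveI : Algebra.IsAlgebraic ℚ Qb := h ▸ AlgebraicClosure.isAlgebraic ℚ
  exact (IsFractionRing.isAlgebraic_iff ℤ ℚ Qb).mpr (Algebra.IsAlgebraic.isAlgebraic a)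

variable [DecidableEq Qb]

/-- **WEIL-E on `ℚ̄`-points**: at a prime `ℓ` of good reduction, a Frobenius element `σ` at a place
of `ℚ̄` above `ℓ` satisfies `σ² - a_ℓ σ + ℓ = 0` on the `n`-torsion of `W(ℚ̄)` for every `n` prime
to `ℓ`. Point form. -/
theorem we_lift_point (W : WeierstrassCurve ℤ) {ℓ : ℕ} (hℓ : ℓ.Prime)
    (hgood : W.IsGoodPrimeFor ℓ) (A : ValuationSubring Qb) (hA : A.LiesOverPrime ℓ)
    (σ : Qb ≃ₐ[ℚ] Qb) (hσ : A.IsFrobeniusAt σ ℓ) {n : ℕ} (hn : ¬ ℓ ∣ n)
    (P : ((W.map (Int.castRingHom ℚ))⁄Qb).Point) (hP : n • P = 0) :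
    σ • σ • P - W.apOfModel ℓ • σ • P + (ℓ : ℤ) • P = 0 := by
  haveI : Fact ℓ.Prime := ⟨hℓ⟩
  have hnd : ¬ (ℓ : ℤ) ∣ (n : ℤ) := by
    intro h
    exact hn (by exact_mod_cast h)
  have hv : A.valuation ((n : ℕ) : Qb) = 1 := by
    have := (valuation_intCast_eq_one_iff A hℓ hA (n : ℤ)).2 hnd
    exact_mod_cast this
  have hn0 : ((n : ℕ) : Qb) ≠ 0 := by
    intro h0
    rw [h0, map_zero] at hv
    exact zero_ne_one hv
  have hninv : (((n : ℕ) : Qb))⁻¹ ∈ A := by
    rw [s41ner_mem_iff, map_inv₀, hv, inv_one]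
  exact we_lift_aux hA hgood (fun a _ => we_isAlgebraic_int a) σ
    (fun z hz => we_frob_res hσ hz) _ (s41ner_baseChange_eq W)
    (DistribSMul.toAddMonoidHom _ σ) (fun h => main_map_some _ σ h) hn0 hninv P hP

/-- **WEIL-E on `ℚ̄`-points**, torsion-submodule form. -/
theorem we_lift (W : WeierstrassCurve ℤ) {ℓ : ℕ} (hℓ : ℓ.Prime)
    (hgood : W.IsGoodPrimeFor ℓ) (A : ValuationSubring Qb) (hA : A.LiesOverPrime ℓ)
    (σ : Qb ≃ₐ[ℚ] Qb) (hσ : A.IsFrobeniusAt σ ℓ) {n : ℕ} (hn : ¬ ℓ ∣ n)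
    (x : Submodule.torsionBy ℤ ((W.map (Int.castRingHom ℚ))⁄Qb).Point n) :
    σ • σ • x - W.apOfModel ℓ • σ • x + (ℓ : ℤ) • x = 0 := by
  apply Subtype.ext
  have hx : n • (x : ((W.map (Int.castRingHom ℚ))⁄Qb).Point) = 0 := by
    have := (Submodule.mem_torsionBy_iff _ _).mp x.2
    rwa [natCast_zsmul] at this
  exact we_lift_point W hℓ hgood A hA σ hσ hn x.1 hx

/-- for every prime `ℓ` there is `σ ∈ Gal(ℚ̄/ℚ)` (a Frobenius element at a place above `ℓ`) with
`σ² - a_ℓ(W) σ + ℓ = 0` on `W[n](ℚ̄)` for EVERY integral model `W` with good reduction at `ℓ` and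
every `n` prime to `ℓ`. -/
theorem we_exists_frob (ℓ : ℕ) (hℓ : ℓ.Prime) :
    ∃ (A : ValuationSubring Qb) (σ : Qb ≃ₐ[ℚ] Qb), A.LiesOverPrime ℓ ∧ A.IsFrobeniusAt σ ℓ ∧
      ∀ W : WeierstrassCurve ℤ, W.IsGoodPrimeFor ℓ → ∀ n : ℕ, ¬ ℓ ∣ n →
        ∀ x : Submodule.torsionBy ℤ ((W.map (Int.castRingHom ℚ))⁄Qb).Point n,
          σ • σ • x - W.apOfModel ℓ • σ • x + (ℓ : ℤ) • x = 0 := by
  obtain ⟨A, hA, σ, hσ⟩ := Fermat.Agent.S54.exists_liesOverPrime_and_isFrobeniusAt ℓ hℓ
  exact ⟨A, σ, hA, hσ, fun W hW n hn x => we_lift W hℓ hW A hA σ hσ hn x⟩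

/-- the form used by Program U (`U5LeafWeil`, literally) -/
theorem we_leaf_five : ∀ ℓ : ℕ, ℓ.Prime → ℓ ≠ 5 → ∃ σ : Qb ≃ₐ[ℚ] Qb, ∀ W : WeierstrassCurve ℤ,
    W.IsGoodPrimeFor ℓ →
      ∀ x : Submodule.torsionBy ℤ ((W.map (Int.castRingHom ℚ))⁄Qb).Point (5 : ℕ),
        σ • σ • x - W.apOfModel ℓ • σ • x + (ℓ : ℤ) • x = 0 := by
  intro ℓ hℓ h5
  obtain ⟨A, σ, -, -, h⟩ := we_exists_frob ℓ hℓ
  refine ⟨σ, fun W hW x => h W hW 5 ?_ x⟩
  intro hd
  exact h5 ((Nat.prime_dvd_prime_iff_eq hℓ Nat.prime_five).mp hd)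

omit [DecidableEq Qb] in
/-- **Hasse** for integral models: `a_ℓ(W)² ≤ 4ℓ` at primes of good reduction -/
theorem we_hasse_model (W : WeierstrassCurve ℤ) {ℓ : ℕ} (hℓ : ℓ.Prime)
    (hgood : W.IsGoodPrimeFor ℓ) : W.apOfModel ℓ ^ 2 ≤ 4 * ℓ := by
  haveI : Fact ℓ.Prime := ⟨hℓ⟩
  haveI := we_isElliptic_zmod (W := W) (ℓ := ℓ) hgood
  rw [← we_ap_eq]
  exact we_hasse_zmod ℓ _

end Final

end Fermat.Agent.WE
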